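import Fermat.Agent.CFT.Global.StepHerbrand

/-!
# The first inequality
-/

set_option autoImplicit false

open groupCohomology ExtCitation NumberField

noncomputable section

namespace Fermat.Agent.CFT

variable {p : ℕ} [Fact p.Prime] {U' U : Subgroup GQ}

/-- First inequality: all sufficiently large `S` have norm index divisible by `p`. -/
theorem first_inequality_proof (hp2 : p ≠ 2) (h : KummerStep p U' U) :
    ∃ S₀ : Finset Nat.Primes, ∀ S, S₀ ⊆ S →
      p ∣ (unitsNormS S h.le).relIndex (placeS S U) := by
  classical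
  obtain ⟨D⟩ := CosetStep.nonempty_of p Fact.out h.le h.normal h.index
  have hU : IsLevelSubgroup Levels.all (MonoidHom.id GQ) U :=
    let ⟨F, hF, hF'⟩ := h.level
    ⟨F, hF, fun s hs => h.le (hF' s hs)⟩
  have := numberField_fxFld hU
  have := numberField_fxFld h.level
  have := finite_quot_of_isLevelSubgroup h.level
  have := finite_quot_of_isLevelSubgroup hU
  letI := stepAlgebra h.le
  obtain ⟨S₀, hS₀⟩ := D.exists_finset_h1_units h.level h.mu
  refine ⟨insert ⟨p, Fact.out⟩ S₀, fun S hS => ?_⟩
  exact D.dvd_relIndex (fun _ => rfl) h.level S (Nat.Prime.odd_of_ne_two Fact.out hp2)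
    ⟨_, hS (Finset.mem_insert_self _ _)⟩ (hS₀ S ((Finset.subset_insert _ _).trans hS))

end Fermat.Agent.CFT
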