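import Fermat.Agent.CFT.Recip.FiniteLevel

/-!
# Classes killed by `p` are detected on subgroups of index prime to `p`
-/

set_option autoImplicit false

noncomputable section

namespace Fermat.Agent.CFT.Recip.EmbData

open Fermat.Agent.CFT groupCohomology

variable {Γ Ω : Type} [Group Γ] [Field Ω] [MulSemiringAction Γ Ω] (D : EmbData Γ Ω)

include D in
/-- A class killed by `p` which is trivial on a subgroup of index prime to `p` is trivial. -/
theorem exists_coboundary_of_coprime {p : ℕ} {c : Γ × Γ → Ωˣ} (hc : IsConst₂ Levels.all D.r c)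
    (hco : ∀ g h j, (c (g * h, j) : Ω) * c (g, h) = g • (c (h, j) : Ω) * c (g, h * j))
    (hcp : ∀ g, c g ^ p = 1) (V : Subgroup Γ)
    (hV : ∃ F₀ : IntermediateField ℚ (AlgebraicClosure ℚ), FiniteDimensional ℚ F₀ ∧ D.lev F₀ ≤ V)
    (hidx : Nat.Coprime p V.index)
    {g₀ : V → Ωˣ} (hg₀ : IsConst₁ Levels.all (D.r.comp V.subtype) g₀)
    (hres : ∀ s t : V, (c (s, t) : Ω) = (s : Γ) • (g₀ t : Ω) / g₀ (s * t) * g₀ s) :
    ∃ f : Γ → Ωˣ, IsConst₁ Levels.all D.r f ∧
      ∀ s t, (c (s, t) : Ω) = s • (f t : Ω) / f (s * t) * f s := by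
  obtain ⟨F₀, hF₀, hle₀⟩ := hV
  obtain ⟨F₁, hF₁, hs₁, hle₁, hval₁, hconst₁⟩ := D.exists_level₁ g₀ hg₀ F₀ hF₀
  obtain ⟨F, hF, hs, hle, hval, hconst⟩ := D.exists_level₂ c hc F₁ hF₁
  have := normal_lev D hs
  have := finiteIndex_lev D hs hF
  have hW : D.lev F ≤ V := (D.lev_antitone (hle₁.trans hle)).trans hle₀
  have hout : ∀ x : Γ, x⁻¹ * Quotient.out (QuotientGroup.mk x : Γ ⧸ D.lev F) ∈ D.lev F :=
    fun x => QuotientGroup.eq.1 (QuotientGroup.out_eq' _).symm
  let d : Class.Z2 (Γ ⧸ D.lev F) ↥(fixU (Ω := Ω) (D.lev F)) :=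
    ⟨fun p => ⟨c (Quotient.out p.1, Quotient.out p.2), hval _⟩, fun q q' q'' => by
      induction q using QuotientGroup.induction_on with | H g => ?_
      induction q' using QuotientGroup.induction_on with | H h => ?_
      induction q'' using QuotientGroup.induction_on with | H j => ?_
      refine Subtype.ext (Units.ext ?_)
      simp only [Subgroup.coe_mul, Units.val_mul, coe_mk_smul, ← QuotientGroup.mk_mul,
        ← hconst _ _ _ _ (hout _) (hout _), hco]⟩
  let H : Subgroup (Γ ⧸ D.lev F) := V.map (QuotientGroup.mk' _)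
  have hker : ∀ k : H, Quotient.out (k : Γ ⧸ D.lev F) ∈ V := fun k => by
    obtain ⟨v, hv, e⟩ := k.2
    rw [← e]
    have := V.mul_mem hv (hW (hout v))
    simpa using this
  have hg₁ : ∀ v : V, g₀ v ∈ fixU (D.lev F) :=
    fun v k hk => hval₁ v k (D.lev_antitone hle hk)
  have hres' : Class.resH2 H (Class.cls d) = 1 := by
    refine (Class.cls_eq_one_iff _).2
      ⟨fun k => ⟨g₀ ⟨_, hker k⟩, hg₁ _⟩, funext fun ⟨k, k'⟩ => Subtype.ext (Units.ext ?_)⟩
    simp only [Class.delta1_apply, Subgroup.coe_mul, Units.val_mul, Subgroup.coe_div,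
      Units.val_div_eq_div_val]
    refine Eq.trans ?_ (hres ⟨_, hker k⟩ ⟨_, hker k'⟩).symm
    congr 2
    · congr 1
      change ((((k : Γ ⧸ D.lev F) • _ : ↥(fixU (Ω := Ω) (D.lev F))) : Ωˣ) : Ω) = _
      conv_lhs => rw [← QuotientGroup.out_eq' (k : Γ ⧸ D.lev F), coe_mk_smul]
    · refine congrArg (fun u : Ωˣ => (u : Ω)) (hconst₁ _ _ (D.lev_antitone hle ?_))
      refine QuotientGroup.eq.1 ?_
      simp only [Subgroup.coe_mul, QuotientGroup.mk_mul, QuotientGroup.out_eq']
  have hHidx : H.index = V.index :=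
    Subgroup.index_map_eq V (QuotientGroup.mk'_surjective _) (by rwa [QuotientGroup.ker_mk'])
  have : H.FiniteIndex := inferInstance
  have h1 : Class.cls d ^ H.index = 1 := Class.pow_index_eq_one H _ hres'
  have h2 : Class.cls d ^ p = 1 := by
    rw [← QuotientGroup.mk_pow, show d ^ p = 1 from ?_]
    · rfl
    · refine Subtype.ext (funext fun g => Subtype.ext ?_)
      show c (Quotient.out g.1, Quotient.out g.2) ^ p = 1
      exact hcp _
  have h3 : Class.cls d = 1 := by
    have := pow_gcd_eq_one.2 ⟨h2, h1⟩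
    rwa [hHidx, hidx.gcd_eq_one, pow_one] at this
  obtain ⟨x, hx⟩ := (Class.cls_eq_one_iff _).1 h3
  refine ⟨fun g => (x (QuotientGroup.mk g) : Ωˣ), ⟨F, hF, fun g k hk => ?_⟩, fun s t => ?_⟩
  · simp only [QuotientGroup.mk_mul_of_mem g (show k ∈ D.lev F from hk)]
  · have := congrArg (fun u : ↥(fixU (Ω := Ω) (D.lev F)) => ((u : Ωˣ) : Ω))
      (congrFun hx (QuotientGroup.mk s, QuotientGroup.mk t))
    simp only [Class.delta1_apply, Subgroup.coe_mul, Units.val_mul, Subgroup.coe_div,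
      Units.val_div_eq_div_val, coe_mk_smul, ← QuotientGroup.mk_mul, d,
      ← hconst _ _ _ _ (hout _) (hout _)] at this
    exact this.symm

end Fermat.Agent.CFT.Recip.EmbData
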