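import Fermat.Agent.CFT.PrimeBridge

/-!
# Realising maxima of absolute values outside a finite set of primes

Finiteness of the class group: off a finite set `T` of rational primes, the function
`(q, g) ↦ max ‖g cᵢ‖` is `(q, g) ↦ ‖g k‖` for a single `k`.
-/

set_option autoImplicit false

open NumberField ExtCitation
open scoped nonZeroDivisors

noncomputable section

namespace Fermat.Agent.CFT

lemma galNorm_natCast_eq_one (q : Nat.Primes) (g : GQ) {N : ℕ} (hN : ¬ (q : ℕ) ∣ N) :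
    galNorm q g (N : AlgebraicClosure ℚ) = 1 := by
  show ‖padicEmbedding (q : ℕ) (g (N : AlgebraicClosure ℚ))‖ = _
  rw [map_natCast, map_natCast, ← map_natCast (algebraMap ℚ_[(q : ℕ)] (PadicAlgCl (q : ℕ))),
    norm_algebraMap', Padic.norm_natCast_eq_one_iff]
  exact q.2.coprime_iff_not_dvd.2 hN

variable (L : IntermediateField ℚ (AlgebraicClosure ℚ)) [NumberField L]

/-- Outside finitely many primes, maxima of absolute values are realised by single elements. -/
theorem exists_finset_realise_sup :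
    ∃ T : Finset Nat.Primes, ∀ (ι : Type) [Fintype ι] (c : ι → L), (∃ i, c i ≠ 0) →
      ∃ k : L, k ≠ 0 ∧ ∀ q ∉ T, ∀ g : GQ,
        (∀ i, galNorm q g (c i : AlgebraicClosure ℚ) ≤ galNorm q g (k : AlgebraicClosure ℚ)) ∧
        ∃ i, galNorm q g (c i : AlgebraicClosure ℚ) = galNorm q g (k : AlgebraicClosure ℚ) := by
  classical
  choose J hJ using ClassGroup.mk0_surjective (R := 𝓞 L)
  let bad : Finset ℕ := Finset.univ.biUnion fun C : ClassGroup (𝓞 L) =>
    (Ideal.absNorm (J C : Ideal (𝓞 L))).primeFactors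
  refine ⟨bad.subtype Nat.Prime, fun ι _ c hc => ?_⟩
  obtain ⟨i₀, hi₀⟩ := hc
  obtain ⟨d, hd⟩ := IsLocalization.exist_integer_multiples (𝓞 L)⁰ (Finset.univ : Finset ι) c
  choose n hn using fun i => hd i (Finset.mem_univ i)
  have hd0 : ((d : 𝓞 L) : L) ≠ 0 := by simp [nonZeroDivisors.coe_ne_zero d]
  have hn' : ∀ i, ((n i : 𝓞 L) : L) = ((d : 𝓞 L) : L) * c i := fun i =>
    (hn i).trans (Algebra.smul_def _ _)
  set C : Ideal (𝓞 L) := Ideal.span (Set.range n) with hC
  have hC0 : C ≠ ⊥ := by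
    rw [hC, Ne, Ideal.span_eq_bot]
    intro h
    have := h _ ⟨i₀, rfl⟩
    refine mul_ne_zero hd0 hi₀ ?_
    rw [← hn', this]
    rfl
  set C' : (Ideal (𝓞 L))⁰ := ⟨C, mem_nonZeroDivisors_of_ne_zero hC0⟩
  obtain ⟨x, y, hx, hy, hxy⟩ :=
    ClassGroup.mk0_eq_mk0_iff.1 (hJ (ClassGroup.mk0 C')).symm
  change Ideal.span {x} * C = Ideal.span {y} * _ at hxy
  set J₀ : Ideal (𝓞 L) := (J (ClassGroup.mk0 C') : Ideal (𝓞 L))
  have hx0 : ((x : 𝓞 L) : L) ≠ 0 := by simpa using hx
  have hy0 : ((y : 𝓞 L) : L) ≠ 0 := by simpa using hy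
  refine ⟨((y : 𝓞 L) : L) / (((x : 𝓞 L) : L) * ((d : 𝓞 L) : L)),
    div_ne_zero hy0 (mul_ne_zero hx0 hd0), fun q hq g => ?_⟩
  have hN : ¬ (q : ℕ) ∣ Ideal.absNorm J₀ := by
    intro hdvd
    refine hq (Finset.mem_subtype.2 (Finset.mem_biUnion.2 ⟨ClassGroup.mk0 C', Finset.mem_univ _,
      Nat.mem_primeFactors.2 ⟨q.2, hdvd, ?_⟩⟩))
    exact mt Ideal.absNorm_eq_zero_iff.1 (nonZeroDivisors.coe_ne_zero _)
  let v : 𝓞 L → ℝ := fun a => galNorm q g ((a : L) : AlgebraicClosure ℚ)
  have vmul : ∀ a b, v (a * b) = v a * v b := fun a b => by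
    simp [v, galNorm]
  have vle : ∀ a, v a ≤ 1 := fun a =>
    galNorm_le_one_of_isIntegral q g (isIntegral_coe_ringOfIntegers L a)
  obtain ⟨j, -, hj⟩ := Finset.exists_max_image Finset.univ (fun i => v (n i)) ⟨i₀, Finset.mem_univ _⟩
  have hmax : ∀ z ∈ C, v z ≤ v (n j) := by
    intro z hz
    induction hz using Submodule.span_induction with
    | mem z hz => obtain ⟨i, rfl⟩ := hz; exact hj i (Finset.mem_univ i)
    | zero => simp [v, galNorm]
    | add a b _ _ ha hb =>
      refine le_trans ?_ (max_le ha hb)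
      simp only [v, galNorm, map_add, AddMemClass.coe_add]
      exact IsUltrametricDist.norm_add_le_max _ _
    | smul r a _ ha =>
      rw [smul_eq_mul, vmul]
      exact le_trans (mul_le_of_le_one_left (norm_nonneg _) (vle r)) ha
  have hkey : v x * v (n j) = v y := by
    refine le_antisymm ?_ ?_
    · have : x * n j ∈ Ideal.span {y} * J₀ :=
        hxy ▸ Ideal.mul_mem_mul (Ideal.mem_span_singleton_self x) (Ideal.subset_span ⟨j, rfl⟩)
      obtain ⟨z, -, hz⟩ := Ideal.mem_span_singleton_mul.1 this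
      rw [← vmul, ← hz, vmul]
      exact mul_le_of_le_one_right (norm_nonneg _) (vle z)
    · have : y * (Ideal.absNorm J₀ : 𝓞 L) ∈ Ideal.span {x} * C :=
        hxy.symm ▸ Ideal.mul_mem_mul (Ideal.mem_span_singleton_self y) (Ideal.absNorm_mem J₀)
      obtain ⟨z, hzC, hz⟩ := Ideal.mem_span_singleton_mul.1 this
      have h1 : v (Ideal.absNorm J₀ : 𝓞 L) = 1 := by
        simpa [v] using galNorm_natCast_eq_one q g hN
      have h2 : v x * v z = v y := by
        rw [← vmul, hz, vmul, h1, mul_one]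
      rw [← h2]
      exact mul_le_mul_of_nonneg_left (hmax z hzC) (norm_nonneg _)
  have hxpos : 0 < v x := by
    show 0 < ‖_‖
    rw [norm_pos_iff]
    simpa using hx
  have hdpos : 0 < v d := by
    show 0 < ‖_‖
    rw [norm_pos_iff]
    simp [nonZeroDivisors.coe_ne_zero d]
  have hci : ∀ i, galNorm q g (c i : AlgebraicClosure ℚ) = v (n i) / v d := by
    intro i
    rw [eq_div_iff hdpos.ne']
    show _ * galNorm q g (((d : 𝓞 L) : L) : AlgebraicClosure ℚ) =
      galNorm q g (((n i : 𝓞 L) : L) : AlgebraicClosure ℚ)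
    rw [hn', mul_comm]
    simp [galNorm]
  have hk : galNorm q g
      ((((y : 𝓞 L) : L) / (((x : 𝓞 L) : L) * ((d : 𝓞 L) : L)) : L) : AlgebraicClosure ℚ) =
      v (n j) / v d := by
    rw [← mul_div_mul_left (v (n j)) (v d) hxpos.ne', hkey]
    simp [v, galNorm]
  refine ⟨fun i => ?_, j, by rw [hci, hk]⟩
  rw [hci, hk]
  gcongr
  exact hj i (Finset.mem_univ i)

/-- An element is a unit outside finitely many primes. -/
theorem exists_finset_galNorm_eq_one (a : L) (ha : a ≠ 0) :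
    ∃ T : Finset Nat.Primes, ∀ q ∉ T, ∀ g : GQ, galNorm q g (a : AlgebraicClosure ℚ) = 1 := by
  classical
  obtain ⟨n, d, hd, hnd⟩ := IsFractionRing.div_surjective (A := 𝓞 L) a
  have hd0 : d ≠ 0 := nonZeroDivisors.ne_zero hd
  have hn0 : n ≠ 0 := by
    rintro rfl
    rw [map_zero, zero_div] at hnd
    exact ha hnd.symm
  refine ⟨((Ideal.absNorm (Ideal.span {n}) * Ideal.absNorm (Ideal.span {d})).primeFactors).subtype
    Nat.Prime, fun q hq g => ?_⟩
  have key : ∀ m : 𝓞 L, m ≠ 0 → ¬ (q : ℕ) ∣ Ideal.absNorm (Ideal.span {m}) →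
      galNorm q g ((m : L) : AlgebraicClosure ℚ) = 1 := fun m hm hndvd => by
    obtain ⟨z, hz⟩ := Ideal.mem_span_singleton'.1 (Ideal.absNorm_mem (Ideal.span {m}))
    have h1 := galNorm_natCast_eq_one q g hndvd
    have hm1 := galNorm_le_one_of_isIntegral q g (isIntegral_coe_ringOfIntegers L m)
    have hz1 := galNorm_le_one_of_isIntegral q g (isIntegral_coe_ringOfIntegers L z)
    have h2 : galNorm q g ((z : L) : AlgebraicClosure ℚ) *
        galNorm q g ((m : L) : AlgebraicClosure ℚ) = 1 := by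
      rw [← h1, show ((Ideal.absNorm (Ideal.span {m}) : ℕ) : AlgebraicClosure ℚ) =
        (((z * m : 𝓞 L) : L) : AlgebraicClosure ℚ) by rw [hz]; simp]
      simp [galNorm]
    refine le_antisymm hm1 (h2 ▸ ?_)
    exact mul_le_of_le_one_left (norm_nonneg _) hz1
  have hne : Ideal.absNorm (Ideal.span {n}) * Ideal.absNorm (Ideal.span {d}) ≠ 0 :=
    mul_ne_zero (by simpa [Ideal.absNorm_eq_zero_iff]) (by simpa [Ideal.absNorm_eq_zero_iff])
  have hq' : ¬ (q : ℕ) ∣ Ideal.absNorm (Ideal.span {n}) * Ideal.absNorm (Ideal.span {d}) :=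
    fun h => hq (Finset.mem_subtype.2 (Nat.mem_primeFactors.2 ⟨q.2, h, hne⟩))
  rw [← hnd]
  simp only [galNorm, IntermediateField.coe_div, map_div₀, norm_div]
  show galNorm q g ((n : L) : AlgebraicClosure ℚ) / galNorm q g ((d : L) : AlgebraicClosure ℚ) = 1
  rw [key n hn0 fun h => hq' (h.mul_right _), key d hd0 fun h => hq' (h.mul_left _), div_one]

end Fermat.Agent.CFT
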