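import Fermat.Agent.CFT.Global.StepModules
import Fermat.Agent.CFT.Global.ClassRealise
import Fermat.Agent.CFT.MuInc

/-!
# Vanishing of `H¹` of the `S`-units of a Kummer step for large `S`
-/

set_option autoImplicit false

open CategoryTheory groupCohomology ExtCitation NumberField

noncomputable section

namespace Fermat.Agent.CFT

section levels

variable {U : Subgroup GQ}

lemma finiteDimensional_fixedField_of_level
    (hU : IsLevelSubgroup Levels.all (MonoidHom.id GQ) U) :
    FiniteDimensional ℚ (IntermediateField.fixedField U) := by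
  obtain ⟨F, hF, hFU⟩ := hU
  have : FiniteDimensional ℚ F := hF
  have hle : IntermediateField.fixedField U ≤ F := fixedField_le_of_le hFU
  exact FiniteDimensional.of_injective (IntermediateField.inclusion hle).toLinearMap
    (IntermediateField.inclusion_injective hle)

lemma numberField_fixedField_of_level
    (hU : IsLevelSubgroup Levels.all (MonoidHom.id GQ) U) :
    NumberField (IntermediateField.fixedField U) :=
  have := finiteDimensional_fixedField_of_level hU
  ⟨⟩

/-- `‖(diag q U a)(x)‖` is `galNorm`. -/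
lemma norm_diag_mk (q : Nat.Primes) {a : (AlgebraicClosure ℚ)ˣ} (ha : a ∈ fixedUnits U) (g : GQ) :
    ‖((diag q U a (QuotientGroup.mk g) : (Omega q)ˣ) : Omega q)‖ =
      galNorm q g (a : AlgebraicClosure ℚ) := by
  rw [diag_mk q ha]
  rfl

lemma mem_sUnits_of_galNorm {S : Finset Nat.Primes} {a : (AlgebraicClosure ℚ)ˣ}
    (ha : a ∈ fixedUnits U) (h : ∀ q ∉ S, ∀ g : GQ, galNorm q g (a : AlgebraicClosure ℚ) = 1) :
    a ∈ sUnits S U :=
  ⟨ha, fun q hq x => by
    induction x using QuotientGroup.induction_on with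
    | _ g => rw [norm_diag_mk q ha]; exact h q hq g⟩

lemma galNorm_of_mem_sUnits {S : Finset Nat.Primes} {a : (AlgebraicClosure ℚ)ˣ}
    (ha : a ∈ sUnits S U) {q : Nat.Primes} (hq : q ∉ S) (g : GQ) :
    galNorm q g (a : AlgebraicClosure ℚ) = 1 := by
  rw [← norm_diag_mk q ha.1]
  exact ha.2 q hq _

end levels

variable {U' U : Subgroup GQ} {p : ℕ}

namespace CosetStep

variable (D : CosetStep p U' U)
include D

lemma gen_pow_fixed {x : AlgebraicClosure ℚ} (hx : ∀ g ∈ U', g x = x) (j : ℕ) :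
    ∀ g ∈ U', g ((D.gen ^ j) x) = (D.gen ^ j) x := fun g hg => by
  have h := hx _ (D.conj_mem' (U.pow_mem D.gen_mem j) hg)
  rw [AlgEquiv.mul_apply, AlgEquiv.mul_apply] at h
  have h2 := congrArg (D.gen ^ j) h
  rwa [← AlgEquiv.mul_apply (D.gen ^ j) (D.gen ^ j)⁻¹, mul_inv_cancel, AlgEquiv.one_apply] at h2

lemma fixed_of_gen_fixed {x : AlgebraicClosure ℚ} (hx : ∀ g ∈ U', g x = x)
    (hγ : D.gen x = x) : ∀ g ∈ U, g x = x := fun g hg => by
  obtain ⟨i, -, hi⟩ := D.exists_pow_of_mem hg
  have h1 : ∀ j : ℕ, (D.gen ^ j) x = x := fun j => by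
    induction j with
    | zero => rfl
    | succ j ih => rw [pow_succ, AlgEquiv.mul_apply, hγ, ih]
  rw [show g = D.gen ^ i * ((D.gen ^ i)⁻¹ * g) by group, AlgEquiv.mul_apply, hx _ hi, h1]

/-- Hilbert 90 for the fixed field of `U'`. -/
lemma exists_mul_gen_eq (hU' : IsLevelSubgroup Levels.all (MonoidHom.id GQ) U')
    {a : AlgebraicClosure ℚ} (ha : ∀ g ∈ U', g a = a)
    (hN : ∏ i ∈ Finset.range p, (D.gen ^ i) a = 1) :
    ∃ b ∈ fixedUnits U', a * D.gen (b : AlgebraicClosure ℚ) = (b : AlgebraicClosure ℚ) := by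
  let q₀ : Nat.Primes := ⟨2, Nat.prime_two⟩
  let F : ℕ → AlgebraicClosure ℚ := fun j => ∏ i ∈ Finset.range j, (D.gen ^ i) a
  have hFfix : ∀ j, ∀ g ∈ U', g (F j) = F j := fun j g hg => by
    simp only [F, map_prod]
    exact Finset.prod_congr rfl fun i _ => D.gen_pow_fixed ha i g hg
  obtain ⟨c, hc⟩ := D.exists_sum_ne_zero hU' (ι := Unit) (fun _ => q₀) (fun _ => 1)
    (fun _ j => padicEmbedding (q₀ : ℕ) (F j)) (fun _ h => by
      have h0 := congrFun h ⟨0, D.prime.pos⟩
      simp [F] at h0)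
  let T : ℕ → AlgebraicClosure ℚ := fun j => F j * (D.gen ^ j) (c : AlgebraicClosure ℚ)
  set b := ∑ j ∈ Finset.range p, T j with hb
  have hb0 : b ≠ 0 := by
    intro h0
    have h1 := hc ()
    simp only [one_mul, ← map_mul, ← map_sum] at h1
    rw [Fin.sum_univ_eq_sum_range T p, ← hb, h0, map_zero] at h1
    exact h1 rfl
  have hcfix : ∀ g ∈ U', g (c : AlgebraicClosure ℚ) = c := fun g hg => c.2 ⟨g, hg⟩
  have hbfix : ∀ g ∈ U', g b = b := fun g hg => by
    rw [hb, map_sum]
    exact Finset.sum_congr rfl fun j _ => by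
      simp only [T, map_mul]
      rw [hFfix j g hg, D.gen_pow_fixed hcfix j g hg]
  refine ⟨Units.mk0 b hb0, hbfix, ?_⟩
  have hstep : ∀ j, a * D.gen (T j) = T (j + 1) := fun j => by
    simp only [T, F, map_mul, map_prod, Finset.prod_range_succ', pow_zero, AlgEquiv.one_apply,
      ← AlgEquiv.mul_apply, ← pow_succ']
    ring
  rw [Units.val_mk0, hb, map_sum, Finset.mul_sum]
  simp only [hstep]
  have hT : T p = T 0 := by
    simp only [T, F, hN, pow_zero, AlgEquiv.one_apply, Finset.range_zero, Finset.prod_empty]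
    rw [hcfix _ D.pow_prime_mem]
  have h1 := Finset.sum_range_succ' T p
  rw [Finset.sum_range_succ, hT, add_left_inj] at h1
  exact h1.symm

variable [Fact p.Prime]

/-- A Kummer generator of a step over a field containing `ζ_p`. -/
lemma exists_kummer_gen (hU' : IsLevelSubgroup Levels.all (MonoidHom.id GQ) U')
    (hμ : ∀ g ∈ U, cycloChar p g = 1) :
    ∃ β ∈ fixedUnits U', (zetaP p : AlgebraicClosure ℚ) * D.gen (β : AlgebraicClosure ℚ) =
      (β : AlgebraicClosure ℚ) := by
  have hz : ∀ g ∈ U, g (zetaP p : AlgebraicClosure ℚ) = zetaP p := fun g hg => by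
    have := gal_muInc_of_eq_one (p := p) (hμ g hg) ((1 : ℕ) : ZMod p)
    rwa [muInc_natCast, pow_one] at this
  refine D.exists_mul_gen_eq hU' (fun g hg => hz g (D.le hg)) ?_
  rw [Finset.prod_congr rfl fun i _ => hz _ (U.pow_mem D.gen_mem i), Finset.prod_const,
    Finset.card_range, ← Units.val_pow_eq_pow_val, zetaP_isPrimitiveRoot.pow_eq_one, Units.val_one]

/-- For large `S` every norm one `S`-unit is of the form `b - γ b` inside the `S`-units. -/
theorem exists_finset_h1_units (hU' : IsLevelSubgroup Levels.all (MonoidHom.id GQ) U')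
    (hμ : ∀ g ∈ U, cycloChar p g = 1) :
    ∃ S₀ : Finset Nat.Primes, ∀ S, S₀ ⊆ S → ∀ a : Additive ↥(sUnits S U'),
      (D.unitsPair S).g a = 0 → ∃ b, (D.unitsPair S).f b = a := by
  classical
  obtain ⟨β, hβ, hβγ⟩ := D.exists_kummer_gen hU' hμ
  have hU : IsLevelSubgroup Levels.all (MonoidHom.id GQ) U := by
    obtain ⟨F, hF, hFU⟩ := hU'
    exact ⟨F, hF, fun s hs => D.le (hFU s hs)⟩
  have := numberField_fixedField_of_level hU
  obtain ⟨T, hT⟩ := exists_finset_realise_sup (IntermediateField.fixedField U)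
  have := numberField_fixedField_of_level hU'
  obtain ⟨Tβ, hTβ⟩ : ∃ T : Finset Nat.Primes, ∀ q ∉ T, ∀ g,
      galNorm q g (β : AlgebraicClosure ℚ) = 1 := by
    obtain ⟨T₁, h₁⟩ := exists_finset_galNorm_eq_one (IntermediateField.fixedField U')
      (⟨(β : AlgebraicClosure ℚ), fun g => hβ g g.2⟩) (fun h => β.ne_zero (congrArg Subtype.val h))
    exact ⟨T₁, h₁⟩
  refine ⟨insert (pPrime p) (T ∪ Tβ), fun S hS a ha => ?_⟩
  have hγpow : ∀ i, (D.gen ^ i) (β : AlgebraicClosure ℚ) * (zetaP p : AlgebraicClosure ℚ) ^ i =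
      (β : AlgebraicClosure ℚ) := fun i => by
    induction i with
    | zero => simp
    | succ i ih =>
      have hz : (D.gen ^ i) (zetaP p : AlgebraicClosure ℚ) = zetaP p := by
        have := gal_muInc_of_eq_one (p := p) (hμ _ (U.pow_mem D.gen_mem i)) ((1 : ℕ) : ZMod p)
        rwa [muInc_natCast, pow_one] at this
      have h1 := congrArg (D.gen ^ i) hβγ
      rw [map_mul, hz, ← AlgEquiv.mul_apply, ← pow_succ] at h1
      linear_combination ih + (zetaP p : AlgebraicClosure ℚ) ^ i * h1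
  set x : AlgebraicClosure ℚ :=
    (((a.toMul : sUnits S U') : (AlgebraicClosure ℚ)ˣ) : AlgebraicClosure ℚ) with hx
  have hN : ∏ i ∈ Finset.range p, (D.gen ^ i) x = 1 := by
    have h0 : ((D.unitsPair S).g a).toMul = 1 := congrArg Additive.toMul ha
    rw [unitsPair, cycPair_g_apply, toMul_sum] at h0
    have h1 := congrArg (fun t : sUnits S U' => ((t : (AlgebraicClosure ℚ)ˣ) : AlgebraicClosure ℚ)) h0
    simpa [D.shiftUnits_iterate_apply, hx] using h1
  obtain ⟨b, hb, hab⟩ := D.exists_mul_gen_eq hU' a.toMul.2.1 hN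
  -- the coordinates of `b` in the basis `βⁱ`
  let ζ : AlgebraicClosure ℚ := zetaP p
  have hζ : IsPrimitiveRoot ζ p := IsPrimitiveRoot.coe_units_iff.2 zetaP_isPrimitiveRoot
  let c : Fin p → AlgebraicClosure ℚ := fun i => (p : AlgebraicClosure ℚ)⁻¹ *
    (∑ j ∈ Finset.range p, (D.gen ^ j) (b : AlgebraicClosure ℚ) * ζ ^ ((i : ℕ) * j)) /
      (β : AlgebraicClosure ℚ) ^ (i : ℕ)
  have hζγ : D.gen ζ = ζ := by
    have := gal_muInc_of_eq_one (p := p) (hμ _ D.gen_mem) ((1 : ℕ) : ZMod p)
    rwa [muInc_natCast, pow_one] at this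
  have hζU' : ∀ g ∈ U', g ζ = ζ := fun g hg => by
    have := gal_muInc_of_eq_one (p := p) (hμ g (D.le hg)) ((1 : ℕ) : ZMod p)
    rwa [muInc_natCast, pow_one] at this
  have hc : ∀ i, ∀ g ∈ U, g (c i) = c i := fun i => by
    refine D.fixed_of_gen_fixed (fun g hg => ?_) ?_
    · simp only [c, map_div₀, map_mul, map_inv₀, map_natCast, map_sum, map_pow, hζU' g hg,
        hβ g hg]
      congr 2
      exact Finset.sum_congr rfl fun j _ => by rw [D.gen_pow_fixed hb j g hg]
    · simp only [c, map_div₀, map_mul, map_inv₀, map_natCast, map_sum, map_pow, hζγ]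
      set T : ℕ → AlgebraicClosure ℚ := fun j =>
        (D.gen ^ j) (b : AlgebraicClosure ℚ) * ζ ^ ((i : ℕ) * j) with hTdef
      have hstep : ∑ j ∈ Finset.range p, D.gen ((D.gen ^ j) (b : AlgebraicClosure ℚ)) *
          ζ ^ ((i : ℕ) * j) * ζ ^ (i : ℕ) = ∑ j ∈ Finset.range p, T j := by
        have hTp : T p = T 0 := by
          simp only [hTdef, pow_zero, mul_zero, AlgEquiv.one_apply, mul_one]
          rw [hb _ D.pow_prime_mem, mul_comm (i : ℕ), pow_mul, hζ.pow_eq_one, one_pow, mul_one]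
        have h1 := Finset.sum_range_succ' T p
        rw [Finset.sum_range_succ, hTp, add_left_inj] at h1
        rw [h1]
        exact Finset.sum_congr rfl fun j _ => by
          simp only [hTdef, ← AlgEquiv.mul_apply, ← pow_succ', mul_assoc, ← pow_add]
          ring_nf
      have hgβ : D.gen (β : AlgebraicClosure ℚ) * ζ = β := by rw [mul_comm]; exact hβγ
      rw [← Finset.sum_mul] at hstep
      rw [← hstep]
      conv_rhs => rw [← hgβ]
      rw [mul_pow, ← mul_assoc, mul_div_mul_right _ _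
        (pow_ne_zero _ (hζ.ne_zero D.prime.ne_zero))]
  have hsum : ∑ i : Fin p, c i * (β : AlgebraicClosure ℚ) ^ (i : ℕ) = b := by
    have hdiv : ∀ i : Fin p, c i * (β : AlgebraicClosure ℚ) ^ (i : ℕ) = (p : AlgebraicClosure ℚ)⁻¹ *
        ∑ j ∈ Finset.range p, (D.gen ^ j) (b : AlgebraicClosure ℚ) * ζ ^ ((i : ℕ) * j) :=
      fun i => div_mul_cancel₀ _ (pow_ne_zero _ β.ne_zero)
    rw [Finset.sum_congr rfl fun i _ => hdiv i, ← Finset.mul_sum, Finset.sum_comm,
      Finset.sum_eq_single 0]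
    · simp [D.prime.ne_zero]
    · intro j hj hj0
      rw [← Finset.mul_sum, Fin.sum_univ_eq_sum_range (fun i => ζ ^ (i * j))]
      refine mul_eq_zero_of_right _ ?_
      simp only [mul_comm _ j, pow_mul]
      have hne : ζ ^ j ≠ 1 := hζ.pow_ne_one_of_pos_of_lt hj0 (Finset.mem_range.1 hj)
      rw [geom_sum_eq hne, ← pow_mul, mul_comm, pow_mul, hζ.pow_eq_one, one_pow, sub_self,
        zero_div]
    · intro h; exact absurd (Finset.mem_range.2 D.prime.pos) h
  -- choose `k`
  obtain ⟨k, hk0, hk⟩ := hT (Fin p) (fun i => ⟨c i, fun g => hc i g g.2⟩) (by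
    by_contra h
    push Not at h
    refine b.ne_zero ?_
    rw [← hsum]
    exact Finset.sum_eq_zero fun i _ => by
      rw [show c i = 0 from congrArg Subtype.val (h i), zero_mul])
  have hk0' : (k : AlgebraicClosure ℚ) ≠ 0 := fun h => hk0 (Subtype.ext h)
  set b' : (AlgebraicClosure ℚ)ˣ :=
    Units.mk0 ((b : AlgebraicClosure ℚ) / k) (div_ne_zero b.ne_zero hk0')
  have hb' : b' ∈ fixedUnits U' := fun g hg => by
    show g ((b : AlgebraicClosure ℚ) / k) = _
    rw [map_div₀, hb g hg, show g (k : AlgebraicClosure ℚ) = k from k.2 ⟨g, D.le hg⟩]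
    rfl
  have hb'S : b' ∈ sUnits S U' := by
    refine mem_sUnits_of_galNorm hb' fun q hq g => ?_
    have hq' : q ∉ insert (pPrime p) (T ∪ Tβ) := fun h => hq (hS h)
    simp only [Finset.mem_insert, Finset.mem_union, not_or] at hq'
    obtain ⟨hqp, hqT, hqβ⟩ := hq'
    have hmul : ∀ z w, galNorm q g (z * w) = galNorm q g z * galNorm q g w := fun z w => by
      simp [galNorm]
    have hdiv : ∀ z w, galNorm q g (z / w) = galNorm q g z / galNorm q g w := fun z w => by
      simp [galNorm]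
    have hpow : ∀ z (m : ℕ), galNorm q g (z ^ m) = galNorm q g z ^ m := fun z m => by
      simp [galNorm]
    have hζ1 : galNorm q g ζ = 1 := by
      have : galNorm q g ζ ^ p = 1 := by
        rw [← hpow, hζ.pow_eq_one]; simp [galNorm]
      exact (pow_eq_one_iff_of_nonneg (norm_nonneg _) D.prime.ne_zero).1 this
    have hshift : ∀ j, galNorm q g ((D.gen ^ j) (b : AlgebraicClosure ℚ)) =
        galNorm q g (b : AlgebraicClosure ℚ) := fun j => by
      induction j with
      | zero => rfl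
      | succ j ih =>
        have h1 : galNorm q (g * D.gen ^ j) (x * D.gen (b : AlgebraicClosure ℚ)) =
            galNorm q (g * D.gen ^ j) (b : AlgebraicClosure ℚ) := by rw [hab]
        have hx1 : galNorm q (g * D.gen ^ j) x = 1 := galNorm_of_mem_sUnits a.toMul.2 hq _
        have h2 : galNorm q (g * D.gen ^ j) (x * D.gen (b : AlgebraicClosure ℚ)) =
            galNorm q (g * D.gen ^ j) x * galNorm q (g * D.gen ^ j) (D.gen (b : AlgebraicClosure ℚ)) :=
          by simp [galNorm]
        rw [h2, hx1, one_mul] at h1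
        rw [pow_succ, AlgEquiv.mul_apply]
        exact h1.trans ih
    obtain ⟨hle, i₀, hi₀⟩ := hk q hqT g
    have hci : ∀ i, galNorm q g (c i) ≤ galNorm q g (b : AlgebraicClosure ℚ) := fun i => by
      rw [hdiv, hmul, hpow, hTβ q hqβ g, one_pow, div_one]
      have hp1 : galNorm q g ((p : AlgebraicClosure ℚ)⁻¹) = 1 := by
        have hnd : ¬ (q : ℕ) ∣ p := fun h =>
          hqp (Subtype.ext ((Nat.prime_dvd_prime_iff_eq q.2 D.prime).1 h))
        have := galNorm_natCast_eq_one q g hnd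
        simp only [galNorm, map_inv₀, norm_inv] at this ⊢
        rw [this, inv_one]
      rw [hp1, one_mul, galNorm, map_sum, map_sum]
      refine IsUltrametricDist.norm_sum_le_of_forall_le_of_nonneg (norm_nonneg _) fun j _ => ?_
      show galNorm q g ((D.gen ^ j) (b : AlgebraicClosure ℚ) * ζ ^ ((i : ℕ) * j)) ≤ _
      rw [hmul, hpow, hζ1, one_pow, mul_one, hshift]
    have hbk : galNorm q g (b : AlgebraicClosure ℚ) ≤ galNorm q g (k : AlgebraicClosure ℚ) := by
      rw [← hsum, galNorm, map_sum, map_sum]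
      refine IsUltrametricDist.norm_sum_le_of_forall_le_of_nonneg (norm_nonneg _) fun i _ => ?_
      show galNorm q g (c i * (β : AlgebraicClosure ℚ) ^ (i : ℕ)) ≤ _
      rw [hmul, hpow, hTβ q hqβ g, one_pow, mul_one]
      exact hle i
    have heq : galNorm q g (b : AlgebraicClosure ℚ) = galNorm q g (k : AlgebraicClosure ℚ) :=
      le_antisymm hbk (hi₀ ▸ hci i₀)
    show galNorm q g ((b : AlgebraicClosure ℚ) / k) = 1
    rw [hdiv, heq, div_self]
    show ‖_‖ ≠ 0
    rw [norm_ne_zero_iff, map_ne_zero, map_ne_zero]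
    exact hk0'
  refine ⟨-Additive.ofMul ⟨b', hb'S⟩, Additive.toMul.injective (Subtype.ext (Units.ext ?_))⟩
  show (((Units.map D.gen.toRingEquiv.toRingHom.toMonoidHom b')⁻¹ / b'⁻¹ : (AlgebraicClosure ℚ)ˣ) :
    AlgebraicClosure ℚ) = x
  rw [Units.val_div_eq_div_val, Units.val_inv_eq_inv_val, Units.val_inv_eq_inv_val]
  show (D.gen (b' : AlgebraicClosure ℚ))⁻¹ / ((b' : AlgebraicClosure ℚ))⁻¹ = x
  rw [Units.val_mk0, map_div₀, show D.gen (k : AlgebraicClosure ℚ) = k from k.2 ⟨_, D.gen_mem⟩,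
    div_inv_eq_mul, inv_div, div_mul_div_cancel₀' hk0']
  rw [eq_comm, eq_div_iff (by simp)]
  exact hab

end CosetStep

end Fermat.Agent.CFT
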