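import Fermat.Agent.CFT.Global.StepField
import Fermat.Agent.CFT.Global.StepH1

/-!
# Herbrand quotients of a step, first inequality
-/

set_option autoImplicit false
set_option linter.unusedSectionVars false

open groupCohomology ExtCitation NumberField IsDedekindDomain
open scoped Classical

noncomputable section

namespace Fermat.Agent.CFT

open HerbrandPair

lemma index_ker_of_surjective {G M : Type*} [Group G] [MulOneClass M] (ψ : G →* M)
    (h : Function.Surjective ψ) : ψ.ker.index = Nat.card M := by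
  have hwd : ∀ a b : G, QuotientGroup.leftRel ψ.ker a b → ψ a = ψ b := fun a b hab => by
    rw [QuotientGroup.leftRel_apply, MonoidHom.mem_ker] at hab
    rw [← mul_one (ψ a), ← hab, ← map_mul, mul_inv_cancel_left]
  refine Nat.card_congr (Equiv.ofBijective (fun x : G ⧸ ψ.ker => Quotient.liftOn' x ψ hwd)
    ⟨?_, fun m => ⟨(h m).choose, (h m).choose_spec⟩⟩)
  rintro ⟨a⟩ ⟨b⟩ hab
  refine Quot.sound ((QuotientGroup.leftRel_apply).2 ?_)
  rw [MonoidHom.mem_ker, map_mul, show ψ b = ψ a from hab.symm, ← map_mul, inv_mul_cancel, map_one]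

lemma card_quot_H_eq_index {A B : Type*} [AddCommGroup A] [AddCommGroup B] (P : HerbrandPair A)
    (N : AddSubgroup A) (hf : ∀ x ∈ N, P.f x ∈ N) (hg : ∀ x ∈ N, P.g x ∈ N)
    (ι : B →+ A) (hι : ∀ b, P.f (ι b) = 0)
    (hsurj : ∀ a, P.f a ∈ N → ∃ b, ∃ n ∈ N, ι b = a + n) :
    Nat.card (P.quot N hf hg).H = ((P.g.range ⊔ N).comap ι).index := by
  have hmk : ∀ a, (P.quot N hf hg).f (QuotientAddGroup.mk a) = QuotientAddGroup.mk (P.f a) :=
    fun _ => rfl
  have hfix : ∀ b, (P.quot N hf hg).f (QuotientAddGroup.mk (ι b)) = 0 := fun b => by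
    rw [hmk, hι, QuotientAddGroup.mk_zero]
  let φ : B →+ (P.quot N hf hg).H :=
    (P.quot N hf hg).cls.comp (((QuotientAddGroup.mk' N).comp ι).codRestrict _ hfix)
  have hs : Function.Surjective φ := by
    intro x
    obtain ⟨⟨c, hc⟩, rfl⟩ := (P.quot N hf hg).cls_surjective x
    obtain ⟨a, rfl⟩ := QuotientAddGroup.mk_surjective c
    obtain ⟨b, n, hn, hb⟩ := hsurj a ((QuotientAddGroup.eq_zero_iff _).1 ((hmk a).symm.trans hc))
    refine ⟨b, congrArg (P.quot N hf hg).cls (Subtype.ext ((QuotientAddGroup.eq).2 ?_))⟩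
    rw [hb]
    simpa using neg_mem hn
  have hker : φ.ker = (P.g.range ⊔ N).comap ι := by
    refine le_antisymm (fun b hb => ?_) (fun b hb => ?_)
    · obtain ⟨c, hc⟩ := (cls_eq_zero_iff (P.quot N hf hg)).1 hb
      obtain ⟨g, rfl⟩ := QuotientAddGroup.mk_surjective c
      have h : -(P.g g) + ι b ∈ N := (QuotientAddGroup.eq).1 hc
      show ι b ∈ P.g.range ⊔ N
      rw [show ι b = P.g g + (-(P.g g) + ι b) by abel]
      exact AddSubgroup.add_mem_sup ⟨g, rfl⟩ h
    · obtain ⟨_, ⟨g, rfl⟩, n, hn, hgn⟩ := AddSubgroup.mem_sup.1 hb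
      refine (cls_eq_zero_iff (P.quot N hf hg)).2 ⟨QuotientAddGroup.mk g, (QuotientAddGroup.eq).2 ?_⟩
      rw [← hgn]
      simpa using hn
  rw [← hker, AddSubgroup.index_ker, AddMonoidHom.range_eq_top.2 hs, AddSubgroup.card_top]

namespace CosetStep

variable {U' U : Subgroup GQ} {p : ℕ} [Fact p.Prime] (D : CosetStep p U' U)
  [Algebra (fxFld U) (fxFld U')]
  (hc : ∀ x : fxFld U, ((algebraMap (fxFld U) (fxFld U') x : fxFld U') : AlgebraicClosure ℚ) = x)
  [NumberField (fxFld U)] [NumberField (fxFld U')] [Finite (GQ ⧸ U')] [Finite (GQ ⧸ U)]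
  (hU' : IsLevelSubgroup Levels.all (MonoidHom.id GQ) U') (S : Finset Nat.Primes)

include D hc hU'

omit hc hU' in
lemma mem_comap_g_range_iff (F : Additive ↥(placeS S U)) :
    F ∈ (D.placePair S).g.range.comap (D.pullPlace S) ↔
      ∀ q : ↥S, ∃ g ∈ placePts q.1 U', normFun D.le g = F.toMul.1 q := by
  rw [AddSubgroup.mem_comap, AddMonoidHom.mem_range]
  constructor
  · rintro ⟨f, hf⟩ q
    rw [D.g_apply_eq_pull] at hf
    have := D.pullPlace_injective S hf
    refine ⟨f.toMul.1 q, f.toMul.2 q (Set.mem_univ q), ?_⟩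
    rw [← this]
    rfl
  · intro h
    choose g hg hgF using h
    refine ⟨Additive.ofMul ⟨g, fun q _ => hg q⟩, ?_⟩
    rw [D.g_apply_eq_pull]
    exact congrArg (D.pullPlace S) (Additive.toMul.injective (Subtype.ext (funext hgF)))

/-- Herbrand quotient of `∏_{v ∣ S} L'_vˣ`: the product of the local degrees. -/
theorem hasQ_placePair :
    (D.placePair S).HasQ ((∏ v ∈ placesAbove U S, (placeDeg (fxFld U') v : ℚ))) := by
  have hU : IsLevelSubgroup Levels.all (MonoidHom.id GQ) U := by
    obtain ⟨F, hF, hFU⟩ := hU'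
    exact ⟨F, hF, fun s hs => D.le (hFU s hs)⟩
  have hrep : ∀ v : ↥(placesAbove U S), ∃ z : ↥S × (GQ ⧸ U), placeOf U z.1.1 z.2 = v.1 := fun v =>
    let ⟨q, hq, x, h⟩ := mem_placesAbove.1 v.2
    ⟨(⟨q, hq⟩, x), h⟩
  choose z hz using hrep
  let N : ∀ v : ↥(placesAbove U S),
      Subgroup ↥(locUnits (z v).1.1 (placeStab (z v).1.1 U (z v).2)) := fun v =>
    (normsAt D.le (z v).1.1 (z v).2).subgroupOf _
  let ψ : ↥(placeS S U) →* ∀ v, (↥(locUnits (z v).1.1 (placeStab (z v).1.1 U (z v).2)) ⧸ N v) :=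
    MonoidHom.pi fun v => (QuotientGroup.mk' (N v)).comp
      { toFun := fun F => ⟨F.1 (z v).1 (z v).2,
          placePts_apply_mem (F.2 (z v).1 (Set.mem_univ _)) _⟩
        map_one' := rfl
        map_mul' := fun _ _ => rfl }
  have hψ : Function.Surjective ψ := by
    intro t
    choose u hu using fun v => QuotientGroup.mk_surjective (t v)
    choose e he hev he1 using fun v => exists_placePts_extend (u v).2
    let F : ∀ q : ↥S, GQ ⧸ U → (Omega q.1)ˣ := fun q =>
      ∏ v : ↥(placesAbove U S), if h : (z v).1 = q then (h ▸ e v) else 1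
    have hF : F ∈ placeS S U := fun q _ => Subgroup.prod_mem _ fun v _ => by
      split_ifs with h
      · subst h; exact he v
      · exact one_mem _
    refine ⟨⟨F, hF⟩, funext fun v => ?_⟩
    rw [← hu]
    show QuotientGroup.mk' (N v) _ = QuotientGroup.mk' (N v) (u v)
    congr 1
    refine Subtype.ext ?_
    show (∏ w : ↥(placesAbove U S), if h : (z w).1 = (z v).1 then (h ▸ e w) else 1 :
      GQ ⧸ U → (Omega (z v).1.1)ˣ) (z v).2 = _
    rw [Finset.prod_apply, Finset.prod_eq_single v, dif_pos rfl]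
    · exact hev v
    · intro w _ hwv
      by_cases h : (z w).1 = (z v).1
      · rw [dif_pos h]
        have hns : ¬ samePlace (z w).1.1 (z w).2 (z v).2 := fun hs => hwv (Subtype.ext (by
          rw [← hz w, ← hz v]
          exact (placeOf_eq_iff hU).2 ⟨congrArg Subtype.val h, hs⟩))
        have key : ∀ (q : ↥S) (h : (z w).1 = q) (x : GQ ⧸ U), ¬ samePlace (z w).1.1 (z w).2 x →
            (h ▸ e w : GQ ⧸ U → (Omega q.1)ˣ) x = 1 := fun q h x hx => by
          subst h; exact he1 w x hx
        exact key _ h _ hns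
      · rw [dif_neg h]; rfl
    · exact fun h => absurd (Finset.mem_univ v) h
  have hker : ψ.ker.toAddSubgroup = (D.placePair S).g.range.comap (D.pullPlace S) := by
    ext F
    rw [D.mem_comap_g_range_iff]
    constructor
    · intro h q
      refine exists_norm_of_forall D.le (F.toMul.2 q (Set.mem_univ q)) fun x => ?_
      set v : ↥(placesAbove U S) := ⟨placeOf U q.1 x, (placeOf_mem_placesAbove_iff hU).2 q.2⟩ with hv
      have h1 := congrFun (show ψ F.toMul = 1 from h) v
      have h2 := (QuotientGroup.eq_one_iff (N := N v) _).1 h1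
      obtain ⟨g, hg, hgx⟩ := Subgroup.mem_subgroupOf.1 h2
      have key : ∀ (q' : ↥S) (x' : GQ ⧸ U), placeOf U q'.1 x' = placeOf U q.1 x →
          (∃ g ∈ placePts q'.1 U', normFun D.le g x' = F.toMul.1 q' x') →
          ∃ g ∈ placePts q.1 U', normFun D.le g x = F.toMul.1 q x := by
        intro q' x' he hex
        obtain ⟨g', hg', hgx'⟩ := hex
        obtain ⟨hqq, τ, hτ⟩ := (placeOf_eq_iff hU).1 he
        obtain rfl : q' = q := Subtype.ext hqq
        refine ⟨g', hg', ?_⟩
        rw [← hτ, placePts_apply (Fermat.Agent.CFT.normFun_mem_placePts D.le hg'), hgx',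
          placePts_apply (F.toMul.2 q' (Set.mem_univ q'))]
      exact key _ _ (hz v) ⟨g, hg, hgx⟩
    · intro h
      refine funext fun v => ?_
      obtain ⟨g, hg, hgF⟩ := h (z v).1
      exact (QuotientGroup.eq_one_iff _).2 ⟨g, hg, congrFun hgF (z v).2⟩
  have h₀ : Nat.card (D.placePair S).H = ∏ v ∈ placesAbove U S, placeDeg (fxFld U') v := by
    show (D.placePair S).g.range.relIndex (D.placePair S).f.ker = _
    rw [show (D.placePair S).f.ker = (D.pullPlace S).range from
        AddSubgroup.ext fun f => by rw [AddMonoidHom.mem_ker, D.mem_ker_f_iff]; rfl,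
      ← AddSubgroup.index_comap, ← hker, Subgroup.index_toAddSubgroup]
    refine (index_ker_of_surjective ψ hψ).trans ?_
    rw [Nat.card_pi, ← Finset.prod_coe_sort (placesAbove U S) (fun v => placeDeg (fxFld U') v)]
    refine Finset.prod_congr rfl fun v _ => ?_
    rw [← hz v, ← D.relIndex_normsAt_eq_placeDeg hc hU' (z v).1.1 (z v).2]
    rfl
  have h₁ : Nat.card (D.placePair S).swap.H = 1 := by
    refine @Nat.card_of_subsingleton _ (0 : (D.placePair S).swap.H) ?_
    refine subsingleton_of_forall_eq 0 fun x => ?_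
    obtain ⟨c, rfl⟩ := (D.placePair S).swap.cls_surjective x
    exact (cls_eq_zero_iff _).2 (D.exists_shift_div S hU' c.1 c.2)
  refine ⟨?_, by rw [h₁]; exact one_ne_zero, ?_⟩
  · rw [h₀]
    exact Finset.prod_ne_zero_iff.2 fun v _ => (placeDeg_pos v).ne'
  · rw [h₀, h₁]
    push_cast
    rw [div_one]

/-- Herbrand quotient of the `S`-units: the product of the local degrees divided by `p`. -/
theorem hasQ_unitsPair (hodd : Odd p) :
    (D.unitsPair S).HasQ ((∏ v ∈ placesAbove U S, (placeDeg (fxFld U') v : ℚ)) / p) := by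
  have hU : IsLevelSubgroup Levels.all (MonoidHom.id GQ) U := by
    obtain ⟨F, hF, hFU⟩ := hU'
    exact ⟨F, hF, fun s hs => D.le (hFU s hs)⟩
  have := D.isGalois_step hc hU'
  set σ := D.galGen hc
  have hS : ∀ a : fixedUnits U', (a : (AlgebraicClosure ℚ)ˣ) ∈ sUnits S U' ↔
      fixToField U' a ∈ sUnitsL (fxFld U') (placesAbove U S) := fun a => by
    rw [mem_sUnits_iff hU', mem_sUnitsL]
    refine forall_congr' fun w => ?_
    rw [Finset.mem_coe, D.mem_placesAbove_step hc hU']
  let e' : ↥(sUnits S U') →* ↥(sUnitsL (fxFld U') (placesAbove U S)) :=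
    ((fixToField U').comp (Subgroup.inclusion (show sUnits S U' ≤ fixedUnits U' from
      fun a ha => ha.1))).codRestrict _ fun a =>
      (hS ⟨a.1, a.2.1⟩).1 a.2
  have he' : Function.Bijective e' := by
    refine ⟨fun a b h => ?_, fun b => ?_⟩
    · have h' : (⟨a.1, a.2.1⟩ : fixedUnits U') = ⟨b.1, b.2.1⟩ :=
        (fixToField_bijective U').1 (congrArg Subtype.val h)
      exact Subtype.ext (congrArg (fun t : fixedUnits U' => (t : (AlgebraicClosure ℚ)ˣ)) h')
    · obtain ⟨a, ha⟩ := (fixToField_bijective U').2 b.1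
      exact ⟨⟨a.1, (hS a).2 (ha ▸ b.2)⟩, Subtype.ext ha⟩
  let e := MonoidHom.toAdditive (MulEquiv.ofBijective e' he').symm.toMonoidHom
  have heq : ∀ a : Additive ↥(sUnits S U'),
      Additive.ofMul (e' (D.shiftUnits S a).toMul) = σ • Additive.ofMul (e' a.toMul) := fun a =>
    Additive.toMul.injective (Subtype.ext (Units.ext (Subtype.ext rfl)))
  refine HerbrandPair.hasQ_of_equiv
    (MulEquiv.toAdditive (MulEquiv.ofBijective e' he').symm) ?_
    ((hasQ_sUnits (placesAbove U S) σ (D.galGen_generates hc hU')).of_eq _ ?_)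
  · have hcomm : ∀ a, e (σ • a) = D.shiftUnits S (e a) := by
      intro a
      obtain ⟨b, rfl⟩ : ∃ b, Additive.ofMul (e' (Additive.toMul b)) = a := by
        obtain ⟨c, hc'⟩ := he'.2 a.toMul
        exact ⟨Additive.ofMul c, congrArg Additive.ofMul hc'⟩
      rw [← heq]
      show Additive.ofMul ((MulEquiv.ofBijective e' he').symm (e' _)) =
        D.shiftUnits S (Additive.ofMul ((MulEquiv.ofBijective e' he').symm (e' _)))
      rw [← MulEquiv.ofBijective_apply e' he', ← MulEquiv.ofBijective_apply e' he',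
        MulEquiv.symm_apply_apply, MulEquiv.symm_apply_apply]
      rfl
    refine ⟨fun a => ?_, fun a => ?_⟩
    · show e _ = _
      rw [actPair_f_apply, map_sub, hcomm]
      rfl
    · show e _ = _
      rw [actPair_g_apply, unitsPair, cycPair_g_apply, map_sum, D.orderOf_galGen hc hU']
      refine Finset.sum_congr rfl fun i hi => ?_
      clear hi
      induction i with
      | zero => rw [pow_zero, one_smul]; rfl
      | succ i ih => rw [pow_succ', mul_smul, hcomm, ih, Function.iterate_succ_apply']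
  · rw [D.infDegProd_eq_one hc hodd hU', D.finrank_step hc hU']
    push_cast
    ring

omit hc hU' in
lemma sDiag_injective (hS : S.Nonempty) : Function.Injective (sDiag S U') := by
  obtain ⟨q, hq⟩ := hS
  intro a b h
  exact Additive.toMul.injective (Subtype.ext (diag_injective_of_fixed q a.toMul.2.1 b.toMul.2.1
    (congrFun (congrArg (fun t : Additive ↥(placeS S U') => t.toMul.1) h) ⟨q, hq⟩)))

/-- The pair of `∏_{v ∣ S} L'_vˣ` modulo the `S`-units. -/
def classPair : HerbrandPair (Additive ↥(placeS S U') ⧸ (sDiag S U').range) :=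
  (D.placePair S).quot _ (D.sDiag_hom S).f_mem_range (D.sDiag_hom S).g_mem_range

theorem hasQ_classPair (hodd : Odd p) (hS : S.Nonempty) :
    (D.classPair S).HasQ (p : ℚ) := by
  have hsub := (D.placePair S).shortExact_quot _ (D.sDiag_hom S).f_mem_range
    (D.sDiag_hom S).g_mem_range
  have hr : ((D.placePair S).restrict _ (D.sDiag_hom S).f_mem_range
      (D.sDiag_hom S).g_mem_range).HasQ
      ((∏ v ∈ placesAbove U S, (placeDeg (fxFld U') v : ℚ)) / p) := by
    refine HerbrandPair.hasQ_of_equiv (AddEquiv.ofBijective (sDiag S U').rangeRestrict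
      ⟨fun a b h => D.sDiag_injective S hS (congrArg Subtype.val h),
        (sDiag S U').rangeRestrict_surjective⟩) ?_ (D.hasQ_unitsPair hc hU' S hodd)
    exact ⟨fun a => Subtype.ext ((D.sDiag_hom S).comm_f a),
      fun a => Subtype.ext ((D.sDiag_hom S).comm_g a)⟩
  refine (hsub.hasQ_right hr (D.hasQ_placePair hc hU' S)).of_eq _ ?_
  have hne : (∏ v ∈ placesAbove U S, (placeDeg (fxFld U') v : ℚ)) ≠ 0 :=
    Finset.prod_ne_zero_iff.2 fun v _ => by exact_mod_cast (placeDeg_pos v).ne'
  rw [div_div_eq_mul_div, mul_comm, mul_div_assoc, div_self hne, mul_one]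

lemma exists_pull_eq_sub (hS : S.Nonempty)
    (hH1 : ∀ a : Additive ↥(sUnits S U'),
      (D.unitsPair S).g a = 0 → ∃ b, (D.unitsPair S).f b = a)
    (f : Additive ↥(placeS S U')) (hf : (D.placePair S).f f ∈ (sDiag S U').range) :
    ∃ F b, D.pullPlace S F = f - sDiag S U' b := by
  obtain ⟨a, ha⟩ := hf
  have hga : (D.unitsPair S).g a = 0 := by
    apply D.sDiag_injective S hS
    rw [(D.sDiag_hom S).comm_g, ha, (D.placePair S).gf, map_zero]
  obtain ⟨b, hb⟩ := hH1 a hga
  obtain ⟨F, hF⟩ := (D.mem_ker_f_iff S (f - sDiag S U' b)).1 (by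
    rw [map_sub, ← ha, ← hb, (D.sDiag_hom S).comm_f, sub_self])
  exact ⟨F, b, hF⟩

lemma mem_unitsNormS_of_eq (hS : S.Nonempty) (F : Additive ↥(placeS S U))
    (g : Additive ↥(placeS S U')) (a : Additive ↥(sUnits S U'))
    (ha : sDiag S U' a = -((D.placePair S).g g) + D.pullPlace S F) :
    F.toMul.1 ∈ unitsNormS S D.le := by
  have hsa : D.shiftUnits S a = a := by
    have h2 : (D.placePair S).f (sDiag S U' a) = 0 := by
      rw [ha, map_add, map_neg, (D.placePair S).fg,
        (D.mem_ker_f_iff S (D.pullPlace S F)).2 ⟨F, rfl⟩, neg_zero, add_zero]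
    rw [← (D.sDiag_hom S).comm_f] at h2
    exact sub_eq_zero.1 (D.sDiag_injective S hS (h2.trans (map_zero _).symm))
  have hau : ∀ u ∈ U, u ((a.toMul.1 : (AlgebraicClosure ℚ)ˣ) : AlgebraicClosure ℚ) =
      ((a.toMul.1 : (AlgebraicClosure ℚ)ˣ) : AlgebraicClosure ℚ) := by
    refine D.fixed_of_gen_fixed (fun u hu => a.toMul.2.1 u hu) ?_
    exact congrArg (fun t : Additive ↥(sUnits S U') =>
      ((t.toMul.1 : (AlgebraicClosure ℚ)ˣ) : AlgebraicClosure ℚ)) hsa
  have haS : a.toMul.1 ∈ sUnits S U := by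
    refine mem_sUnits_of_galNorm hau fun q hq h => galNorm_of_mem_sUnits a.toMul.2 hq h
  have hdec : F.toMul.1 = (fun q : ↥S => diag q.1 U a.toMul.1) *
      (fun q => normFun D.le (g.toMul.1 q)) := by
    funext q x
    obtain ⟨y, rfl⟩ := quotProj_surjective D.le x
    have h3 := congrArg (fun t : Additive ↥(placeS S U') => t.toMul.1 q y) ha
    rw [D.g_apply_eq_pull] at h3
    have h4 : diag q.1 U' a.toMul.1 y = (normFun D.le (g.toMul.1 q) (quotProj D.le y))⁻¹ *
        F.toMul.1 q (quotProj D.le y) := h3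
    rw [Pi.mul_apply, Pi.mul_apply, show diag q.1 U a.toMul.1 (quotProj D.le y) =
      diag q.1 U' a.toMul.1 y from ?_, h4, mul_comm, mul_inv_cancel_left]
    induction y using QuotientGroup.induction_on with
    | _ k =>
      refine Units.ext ?_
      rw [quotProj_mk, diag_mk q.1 hau, diag_mk q.1 a.toMul.2.1]
  rw [hdec]
  exact Subgroup.mul_mem _ (Subgroup.subset_closure (Or.inl ⟨_, haS, fun q => rfl⟩))
    (Subgroup.subset_closure (Or.inr ⟨_, g.toMul.2, fun q => rfl⟩))

/-- The classes of `P_S` in `P'_S / (E'_S + N)`. -/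
def pullNorms : AddSubgroup (Additive ↥(placeS S U)) :=
  ((D.placePair S).g.range ⊔ (sDiag S U').range).comap (D.pullPlace S)

theorem subgroupOf_unitsNormS (hS : S.Nonempty) :
    ((unitsNormS S D.le).subgroupOf (placeS S U)).toAddSubgroup = D.pullNorms S := by
  refine le_antisymm (fun F hF => ?_) (fun F hF => ?_)
  · have hF' : F.toMul.1 ∈ unitsNormS S D.le := hF
    let K' : Subgroup (∀ q : ↥S, GQ ⧸ U → (Omega q.1)ˣ) :=
      (AddSubgroup.toSubgroup' (D.pullNorms S)).map (placeS S U).subtype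
    have hle : unitsNormS S D.le ≤ K' := by
      rw [unitsNormS, Subgroup.closure_le]
      rintro f (⟨a, ha, hf⟩ | ⟨g, hg, hf⟩)
      · have hmem : f ∈ placeS S U := fun q _ => by
          rw [hf q]; exact diag_mem_placePts ha.1
        refine ⟨⟨f, hmem⟩, ?_, rfl⟩
        show D.pullPlace S (Additive.ofMul ⟨f, hmem⟩) ∈
          (D.placePair S).g.range ⊔ (sDiag S U').range
        have ha' : a ∈ sUnits S U' :=
          mem_sUnits_of_galNorm (fun u hu => ha.1 u (D.le hu))
            fun q hq h => galNorm_of_mem_sUnits ha hq h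
        refine AddSubgroup.mem_sup_right ⟨Additive.ofMul ⟨a, ha'⟩,
          Additive.toMul.injective (Subtype.ext (funext fun q => funext fun y => ?_))⟩
        show diag q.1 U' a y = f q (quotProj D.le y)
        rw [hf q]
        induction y using QuotientGroup.induction_on with
        | _ k =>
          refine Units.ext ?_
          rw [quotProj_mk, diag_mk q.1 ha'.1, diag_mk q.1 ha.1]
      · have hmem : f ∈ placeS S U := fun q _ => by
          rw [hf q]; exact Fermat.Agent.CFT.normFun_mem_placePts D.le (hg q (Set.mem_univ q))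
        refine ⟨⟨f, hmem⟩, ?_, rfl⟩
        show D.pullPlace S (Additive.ofMul ⟨f, hmem⟩) ∈
          (D.placePair S).g.range ⊔ (sDiag S U').range
        refine AddSubgroup.mem_sup_left ⟨Additive.ofMul ⟨g, hg⟩, ?_⟩
        rw [D.g_apply_eq_pull]
        exact congrArg (D.pullPlace S) (Additive.toMul.injective (Subtype.ext (funext fun q =>
          (hf q).symm)))
    obtain ⟨F', hF'', hFe⟩ := hle hF'
    rwa [show F = Additive.ofMul F' from congrArg Additive.ofMul (Subtype.ext hFe.symm)]
  · obtain ⟨_, ⟨g, rfl⟩, _, ⟨a, rfl⟩, hga⟩ := AddSubgroup.mem_sup.1 hF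
    refine D.mem_unitsNormS_of_eq hc hU' S hS F g a ?_
    rw [← hga]
    abel

/-- `[P_S : E_S · N] = #(P'_S / E'_S)^G / N` once `H¹(E'_S)` vanishes. -/
theorem relIndex_unitsNormS (hS : S.Nonempty)
    (hH1 : ∀ a : Additive ↥(sUnits S U'),
      (D.unitsPair S).g a = 0 → ∃ b, (D.unitsPair S).f b = a) :
    (unitsNormS S D.le).relIndex (placeS S U) = Nat.card (D.classPair S).H := by
  show ((unitsNormS S D.le).subgroupOf (placeS S U)).index = _
  rw [← Subgroup.index_toAddSubgroup, D.subgroupOf_unitsNormS hc hU' S hS]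
  refine (card_quot_H_eq_index (D.placePair S) _ _ _ (D.pullPlace S)
    (fun F => (D.mem_ker_f_iff S _).2 ⟨F, rfl⟩) fun f hf => ?_).symm
  obtain ⟨F, b, hF⟩ := D.exists_pull_eq_sub hc hU' S hS hH1 f hf
  exact ⟨F, _, neg_mem ⟨b, rfl⟩, hF.trans (sub_eq_add_neg _ _)⟩

/-- The divisibility form of the first inequality. -/
theorem dvd_relIndex (hodd : Odd p) (hS : S.Nonempty)
    (hH1 : ∀ a : Additive ↥(sUnits S U'),
      (D.unitsPair S).g a = 0 → ∃ b, (D.unitsPair S).f b = a) :
    p ∣ (unitsNormS S D.le).relIndex (placeS S U) := by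
  have h := D.hasQ_classPair hc hU' S hodd hS
  rw [D.relIndex_unitsNormS hc hU' S hS hH1]
  refine ⟨Nat.card (D.classPair S).swap.H, ?_⟩
  have h' := h.eq
  rw [div_eq_iff (by exact_mod_cast h.ne₁)] at h'
  exact_mod_cast h'

end CosetStep

end Fermat.Agent.CFT
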