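import Fermat.Agent.CFT.Global.SecondIneq
import Fermat.Agent.CFT.Global.StepHerbrand

/-!
# Hasse's norm theorem for Kummer steps
-/

set_option autoImplicit false

open groupCohomology ExtCitation NumberField IsDedekindDomain
open scoped Classical

noncomputable section

namespace Fermat.Agent.CFT

open HerbrandPair

variable {p : ℕ} [Fact p.Prime] {U' U : Subgroup GQ}

theorem HerbrandPair.ShortExact.map_injective_of_subsingleton {A B C : Type*} [AddCommGroup A]
    [AddCommGroup B] [AddCommGroup C] {P : HerbrandPair A} {P' : HerbrandPair B}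
    {P'' : HerbrandPair C} {ι : A →+ B} {π : B →+ C} (h : ShortExact P P' P'' ι π)
    [Subsingleton P''.swap.H] : Function.Injective h.homι.map := by
  rw [injective_iff_map_eq_zero]
  intro x hx
  have h1 : x ∈ h.swap.delta.range := by
    rw [← h.swap.exact₃]
    exact hx
  obtain ⟨c, rfl⟩ := h1
  rw [Subsingleton.elim c 0]
  exact map_zero _

namespace CosetStep

variable (D : CosetStep p U' U) [Algebra (fxFld U) (fxFld U')]
  (hc : ∀ x : fxFld U, ((algebraMap (fxFld U) (fxFld U') x : fxFld U') : AlgebraicClosure ℚ) = x)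
  [NumberField (fxFld U)] [NumberField (fxFld U')] [Finite (GQ ⧸ U')] [Finite (GQ ⧸ U)]
  (hU' : IsLevelSubgroup Levels.all (MonoidHom.id GQ) U') (S : Finset Nat.Primes)

include D hc hU'

/-- An `S`-unit which is a norm at every place over `S` is the norm of an `S`-unit. -/
theorem exists_norm_sUnit (hodd : Odd p) (hS : S.Nonempty)
    (hH1 : ∀ a : Additive ↥(sUnits S U'),
      (D.unitsPair S).g a = 0 → ∃ b, (D.unitsPair S).f b = a)
    (hidx : (unitsNormS S D.le).relIndex (placeS S U) = p)
    {a : (AlgebraicClosure ℚ)ˣ} (ha : a ∈ sUnits S U)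
    (hloc : ∀ q : ↥S, ∃ g ∈ placePts q.1 U', normFun D.le g = diag q.1 U a) :
    ∃ b ∈ sUnits S U', normUnit D.le b = a := by
  have hq := D.hasQ_classPair hc hU' S hodd hS
  have hcard : Nat.card (D.classPair S).swap.H = 1 := by
    have h := hq.eq
    rw [← D.relIndex_unitsNormS hc hU' S hS hH1, hidx, div_eq_iff (by exact_mod_cast hq.ne₁)] at h
    have h2 : (p : ℚ) * 1 = p * (Nat.card (D.classPair S).swap.H : ℚ) := by rw [mul_one]; exact h
    exact_mod_cast (mul_left_cancel₀ (Nat.cast_ne_zero.2 (Fact.out : p.Prime).ne_zero) h2).symm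
  haveI : Subsingleton (D.classPair S).swap.H := (Nat.card_eq_one_iff_unique.1 hcard).1
  have hs := (D.placePair S).shortExact_quot _ (D.sDiag_hom S).f_mem_range
    (D.sDiag_hom S).g_mem_range
  haveI : Subsingleton ((D.placePair S).quot _ (D.sDiag_hom S).f_mem_range
    (D.sDiag_hom S).g_mem_range).swap.H := (inferInstance : Subsingleton (D.classPair S).swap.H)
  have hinj := hs.map_injective_of_subsingleton
  have ha' : a ∈ sUnits S U' := mem_sUnits_of_galNorm (fun u hu => ha.1 u (D.le hu))
    fun q hq h => galNorm_of_mem_sUnits ha hq h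
  set A : Additive ↥(sUnits S U') := Additive.ofMul ⟨a, ha'⟩
  set F : Additive ↥(placeS S U) :=
    Additive.ofMul ⟨fun q => diag q.1 U a, fun q _ => diag_mem_placePts ha.1⟩
  have hpull : sDiag S U' A = D.pullPlace S F := by
    refine Additive.toMul.injective (Subtype.ext (funext fun q => funext fun y => ?_))
    show diag q.1 U' a y = diag q.1 U a (D.proj y)
    induction y using QuotientGroup.induction_on with
    | _ k => exact Units.ext (by rw [D.proj_mk, diag_mk q.1 ha'.1, diag_mk q.1 ha.1])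
  have hf0 : (D.placePair S).f (sDiag S U' A) = 0 := (D.mem_ker_f_iff S _).2 ⟨F, hpull.symm⟩
  obtain ⟨G, hG⟩ := (D.mem_comap_g_range_iff S F).2 hloc
  let c : ((D.placePair S).restrict _ (D.sDiag_hom S).f_mem_range
      (D.sDiag_hom S).g_mem_range).f.ker :=
    ⟨⟨sDiag S U' A, ⟨A, rfl⟩⟩, Subtype.ext hf0⟩
  have hc0 : ((D.placePair S).restrict _ (D.sDiag_hom S).f_mem_range
      (D.sDiag_hom S).g_mem_range).cls c = 0 := hinj (by
    rw [map_zero, Hom.map_cls, cls_eq_zero_iff]
    exact ⟨G, hG.trans hpull.symm⟩)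
  obtain ⟨⟨_, ⟨b, rfl⟩⟩, hb⟩ := (cls_eq_zero_iff _).1 hc0
  have hb' : (D.placePair S).g (sDiag S U' b) = sDiag S U' A := congrArg Subtype.val hb
  rw [D.g_apply_eq_pull, hpull] at hb'
  have hb'' := D.pullPlace_injective S hb'
  obtain ⟨q, hq'⟩ := hS
  refine ⟨b.toMul.1, b.toMul.2, diag_injective_of_fixed q (normUnit_mem D.le b.toMul.2.1) ha.1 ?_⟩
  rw [← normFun_diag D.le b.toMul.2.1]
  exact congrFun (congrArg (fun t : Additive ↥(placeS S U) => t.toMul.1) hb'') ⟨q, hq'⟩

end CosetStep

/-- Hasse's norm theorem, from the first inequality. -/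
theorem hasse_norm_of_first (hp2 : p ≠ 2) (hfirst : FirstIneqProp p) (h : KummerStep p U' U)
    {a : (AlgebraicClosure ℚ)ˣ} (ha : a ∈ fixedUnits U)
    (hloc : ∀ q, ∃ f ∈ placePts q U', normFun h.le f = diag q U a) :
    ∃ b ∈ fixedUnits U', normFun h.le (globFun U' b) = globFun U a := by
  have hU := h.levelU
  haveI := numberField_fxFld hU
  haveI := numberField_fxFld h.level
  haveI := h.finiteQuot
  haveI := finite_quot_of_isLevelSubgroup hU
  letI := stepAlgebra h.le
  have hc : ∀ x : fxFld U,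
      ((algebraMap (fxFld U) (fxFld U') x : fxFld U') : AlgebraicClosure ℚ) = x := fun _ => rfl
  obtain ⟨D⟩ := h.nonempty_cosetStep
  obtain ⟨S₂, hS₂⟩ := second_inequality_of_first hp2 hfirst h
  obtain ⟨S₃, hS₃⟩ := D.exists_finset_h1_units h.level h.mu
  obtain ⟨Sa, hSa⟩ := exists_finset_galNorm_eq_one (fxFld U)
    (fixToField U ⟨a, ha⟩ : fxFld U) (Units.ne_zero _)
  set S := insert (pPrime p) (S₂ ∪ S₃ ∪ Sa) with hSdef
  have haS : a ∈ sUnits S U := ⟨ha, fun q hq x => hSa q
    (fun hm => hq (Finset.mem_insert_of_mem (Finset.mem_union_right _ hm))) _⟩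
  have hodd : Odd p := (Fact.out : p.Prime).odd_of_ne_two hp2
  have h2 := hS₂ S (Finset.subset_union_left.trans
    (Finset.subset_union_left.trans (Finset.subset_insert _ _)))
  obtain ⟨b, hb, hbn⟩ := D.exists_norm_sUnit hc h.level S hodd ⟨_, Finset.mem_insert_self _ _⟩
    (hS₃ S (Finset.subset_union_right.trans
      (Finset.subset_union_left.trans (Finset.subset_insert _ _)))) h2 haS fun q => hloc q.1
  exact ⟨b, hb.1, by rw [normFun_globFun h.le hb.1, hbn]⟩

end Fermat.Agent.CFT
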