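import Fermat.Agent.CFT.Global.MuLocal
import Fermat.Agent.CFT.Global.Coprime
import Fermat.Agent.CFT.Global.HasseNorm
import Fermat.Agent.CFT.Global.FirstInequality
import Fermat.Agent.CFT.Recip.LocalSymbol

/-!
# The Hasse principle for classes with values in `μ_p`
-/

set_option autoImplicit false
set_option linter.style.haveILetI false

open groupCohomology ExtCitation
open scoped Fermat.Agent.CFT.Recip

noncomputable section

namespace Fermat.Agent.CFT

variable {p : ℕ} [Fact p.Prime] {U W W' : Subgroup GQ}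

/-- The data of a subgroup of the absolute Galois group. -/
def subData (W : Subgroup GQ) : Recip.EmbData ↥W (AlgebraicClosure ℚ) where
  r := W.subtype
  ι := RingHom.id _
  comm _ _ := rfl
  smooth a :=
    let ⟨F, hF, h⟩ := Recip.globData.smooth a
    ⟨F, hF, fun g hg => h (g : GQ) hg⟩

theorem gal_muInc_of_mem (hμ : ∀ g ∈ U, cycloChar p g = 1) {g : GQ} (hg : g ∈ U) (i : ZMod p) :
    g (muInc p i : AlgebraicClosure ℚ) = (muInc p i : AlgebraicClosure ℚ) :=
  gal_muInc_of_eq_one (hμ g hg) i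

/-- The class of `M` is trivial on `W`. -/
def MuCocycle.TrivOn (M : MuCocycle p U) (W : Subgroup GQ) : Prop :=
  ∃ f : W → (AlgebraicClosure ℚ)ˣ, IsConst₁ Levels.all W.subtype f ∧ ∀ s t : W,
    (muInc p (M.C ((s : GQ), (t : GQ))) : AlgebraicClosure ℚ) =
      (s : GQ) (f t) / f (s * t) * f s

/-- The cochain with values in `ℚ̄ˣ` on a subgroup. -/
def MuCocycle.cochain (M : MuCocycle p U) (W : Subgroup GQ) :
    ↥W × ↥W → (AlgebraicClosure ℚ)ˣ :=
  fun st => muInc p (M.C ((st.1 : GQ), (st.2 : GQ)))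

theorem MuCocycle.cochain_isConst (M : MuCocycle p U) (W : Subgroup GQ) :
    IsConst₂ Levels.all W.subtype (M.cochain W) := by
  obtain ⟨F, hF, h⟩ := M.isConst
  exact ⟨F, hF, fun g g' s s' hs hs' => congrArg (muInc p) (h g g' s s' hs hs')⟩

theorem MuCocycle.cochain_cocycle (M : MuCocycle p U) (hμ : ∀ g ∈ U, cycloChar p g = 1)
    (hW : W ≤ U) (g h j : W) :
    (M.cochain W (g * h, j) : AlgebraicClosure ℚ) * M.cochain W (g, h) =
      g • (M.cochain W (h, j) : AlgebraicClosure ℚ) * M.cochain W (g, h * j) := by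
  show _ = (g : GQ) (muInc p (M.C ((h : GQ), (j : GQ))) : AlgebraicClosure ℚ) * _
  rw [gal_muInc_of_mem hμ (hW g.2)]
  simp only [MuCocycle.cochain, ← Units.val_mul, ← muInc_add, Subgroup.coe_mul,
    M.cocycle _ (hW g.2) _ (hW h.2) _ (hW j.2)]

/-- The data of a subgroup of a local Galois group. -/
def subLoc {q : Nat.Primes} (V : Subgroup (primeLocalGaloisGroup q)) :
    Recip.EmbData ↥V (Omega q) where
  r := (primeLocalToGlobal q).comp V.subtype
  ι := (Recip.locData q).ι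
  comm g x := (Recip.locData q).comm (g : primeLocalGaloisGroup q) x
  smooth a :=
    let ⟨F, hF, h⟩ := (Recip.locData q).smooth a
    ⟨F, hF, fun g hg => h (g : primeLocalGaloisGroup q) hg⟩

/-- The norm of a step along the powers of a generator. -/
theorem normUnit_eq_prod (h : W' ≤ W) [Finite (GQ ⧸ W')] {n : ℕ} (hn : W'.relIndex W = n)
    (σ : W) (hinj : ∀ i < n, ∀ j < n, ((σ ^ i)⁻¹ * σ ^ j : GQ) ∈ W' → i = j)
    {b : (AlgebraicClosure ℚ)ˣ} (hb : b ∈ fixedUnits W') :
    (normUnit h b : AlgebraicClosure ℚ) =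
      ∏ i ∈ Finset.range n, ((σ : GQ) ^ i) (b : AlgebraicClosure ℚ) := by
  classical
  rw [normUnit, normFun_eq_prod, Units.coe_prod]
  have himg : projFibre h (QuotientGroup.mk 1) =
      (Finset.range n).image fun i => (QuotientGroup.mk ((σ : GQ) ^ i) : GQ ⧸ W') := by
    symm
    refine Finset.eq_of_subset_of_card_le (fun y hy => ?_) ?_
    · obtain ⟨i, -, rfl⟩ := Finset.mem_image.1 hy
      rw [mem_projFibre, quotProj_mk, QuotientGroup.eq]
      simpa using W.inv_mem (W.pow_mem σ.2 i)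
    · rw [card_projFibre, hn, Finset.card_image_of_injOn, Finset.card_range]
      intro i hi j hj hij
      exact hinj i (Finset.mem_range.1 hi) j (Finset.mem_range.1 hj) (QuotientGroup.eq.1 hij)
  rw [himg, Finset.prod_image]
  · exact Finset.prod_congr rfl fun i _ => by rw [globFun_mk hb]; rfl
  · intro i hi j hj hij
    exact hinj i (Finset.mem_range.1 hi) j (Finset.mem_range.1 hj) (QuotientGroup.eq.1 hij)

section Step

variable {χ : ↥W →* Multiplicative (ZMod p)}

theorem pow_inv_mul_pow_mem (hW' : ∀ w : W, w ∈ χ.ker ↔ (w : GQ) ∈ W') {σ : W}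
    (hσ : χ σ = Multiplicative.ofAdd 1) (i : ℕ) (hi : i < p) (j : ℕ) (hj : j < p)
    (h : ((σ ^ i)⁻¹ * σ ^ j : GQ) ∈ W') : i = j := by
  have h1 := (hW' ((σ ^ i)⁻¹ * σ ^ j)).2 (by simpa using h)
  rw [MonoidHom.mem_ker, map_mul, map_inv, map_pow, map_pow, inv_mul_eq_one, hσ, ← ofAdd_nsmul,
    ← ofAdd_nsmul, nsmul_one, nsmul_one] at h1
  have h2 := (ZMod.natCast_eq_natCast_iff' i j p).1 (Multiplicative.ofAdd.injective h1)
  rwa [Nat.mod_eq_of_lt hi, Nat.mod_eq_of_lt hj] at h2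

/-- The element of the carry class is a local norm at a place. -/
theorem carry_mem_normsAt (hW : W ≤ U) (hμ : ∀ g ∈ U, cycloChar p g = 1) (M : MuCocycle p U)
    (hloc : M.LocTriv) (h : KummerStep p W' W) [Finite (GQ ⧸ W')]
    (hW' : ∀ w : W, w ∈ χ.ker ↔ (w : GQ) ∈ W')
    {b : (AlgebraicClosure ℚ)ˣ} (hb : b ∈ fixedUnits W)
    {f : W → (AlgebraicClosure ℚ)ˣ} (hf : IsConst₁ Levels.all W.subtype f)
    (hC : ∀ s t : W, (muInc p (M.C ((s : GQ), (t : GQ))) : AlgebraicClosure ℚ) =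
      (s : GQ) (f t) / f (s * t) * f s * (b : AlgebraicClosure ℚ) ^ Class.carry χ s t)
    (q : Nat.Primes) (x : GQ ⧸ W) : diag q W b x ∈ normsAt h.le q x := by
  classical
  set g : GQ := Quotient.out x with hg
  set V : Subgroup (primeLocalGaloisGroup q) := placeStab q W x
  set χl : V →* Multiplicative (ZMod p) := χ.comp (placeHom q W x)
  by_cases htriv : ∀ τ : V, χl τ = 1
  · obtain ⟨G, hG, hGx⟩ := exists_norm_split h.le (q := q) (x := x) (fun τ hτ y hy => by
      obtain ⟨k, rfl⟩ := QuotientGroup.mk_surjective y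
      rw [quotProj_mk, ← QuotientGroup.out_eq' x, QuotientGroup.eq] at hy
      refine mem_placeStab_mk.2 ?_
      have hk : g⁻¹ * k ∈ W := by simpa using W.inv_mem hy
      have h1 : (χ ⟨g⁻¹ * k, hk⟩)⁻¹ * χl ⟨τ, hτ⟩ * χ ⟨g⁻¹ * k, hk⟩ = 1 := by
        rw [htriv ⟨τ, hτ⟩, mul_one, inv_mul_cancel]
      have h2 : χl ⟨τ, hτ⟩ = χ (placeHom q W x ⟨τ, hτ⟩) := rfl
      rw [h2, ← map_inv, ← map_mul, ← map_mul] at h1
      have h3 := (hW' _).1 (MonoidHom.mem_ker.2 h1)
      simp only [Subgroup.coe_mul, Subgroup.coe_inv, placeHom, MonoidHom.mk'_apply] at h3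
      convert h3 using 1
      simp [g, mul_assoc]) (placePts_apply_mem (diag_mem_placePts hb) x)
    exact ⟨G, hG, hGx⟩
  set B : (Omega q)ˣ := diag q W b x with hBdef
  have hBV : B ∈ locUnits q V := placePts_apply_mem (diag_mem_placePts hb) x
  push Not at htriv
  obtain ⟨τ₀, hτ₀⟩ := htriv
  obtain ⟨σ, hσ⟩ : ∃ σ : V, χl σ = Multiplicative.ofAdd 1 := by
    refine ⟨τ₀ ^ ((χl τ₀).toAdd⁻¹).val, ?_⟩
    have ha : (χl τ₀).toAdd ≠ 0 := fun h0 => hτ₀ (Multiplicative.toAdd.injective h0)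
    rw [map_pow]
    exact Multiplicative.toAdd.injective (by
      rw [toAdd_pow, nsmul_eq_mul, ZMod.natCast_zmod_val, inv_mul_cancel₀ ha, toAdd_ofAdd])
  have hx : (QuotientGroup.mk g : GQ ⧸ W) = x := QuotientGroup.out_eq' x
  have hVU : V ≤ placeStab q U (QuotientGroup.mk g) := fun τ hτ =>
    mem_placeStab_mk.2 (hW (placeStab_conj_mem (⟨τ, hτ⟩ : placeStab q W x)))
  obtain ⟨μ, hμc, hμe⟩ := hloc q g
  set k : ZMod p := (cycloChar p g : ZMod p) with hk
  let fl : V → (Omega q)ˣ := fun τ =>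
    iota q (muInc p (k * μ (Subgroup.inclusion hVU τ)) / galUnit g (f (placeHom q W x τ)))
  have hflc : IsConst₁ Levels.all (subLoc V).r fl := by
    obtain ⟨F₁, hF₁, h₁⟩ := hμc
    obtain ⟨F₂, hF₂, h₂⟩ := hf
    obtain ⟨F₃, hF₃, h₃⟩ := isLevelHom_placeHom q W x F₂ hF₂
    refine ⟨F₁ ⊔ F₃, Levels.all.sup _ _ hF₁ hF₃, fun a s hs => ?_⟩
    have e1 : μ (Subgroup.inclusion hVU (a * s)) = μ (Subgroup.inclusion hVU a) := by
      rw [map_mul]
      exact h₁ _ _ (IntermediateField.fixingSubgroup_antitone le_sup_left hs)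
    have e2 : f (placeHom q W x (a * s)) = f (placeHom q W x a) := by
      rw [map_mul]
      exact h₂ _ _ (h₃ s (IntermediateField.fixingSubgroup_antitone le_sup_right hs))
    simp only [fl, e1, e2]
  have hconj : ∀ (τ : V) (z : AlgebraicClosure ℚ),
      padicEmbedding (q : ℕ) (g ((placeHom q W x τ : GQ) z)) =
        τ • padicEmbedding (q : ℕ) (g z) := fun τ z => by
    show _ = locAct q (τ : primeLocalGaloisGroup q) _
    rw [← padicEmbedding_localGaloisToGlobal (q : ℕ), ← AlgEquiv.mul_apply,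
      show g * (placeHom q W x τ : GQ) = primeLocalToGlobal q (τ : primeLocalGaloisGroup q) * g by
        show g * (g⁻¹ * primeLocalToGlobal q (τ : primeLocalGaloisGroup q) * g) = _
        group, AlgEquiv.mul_apply]
    rfl
  have hroot : ∀ (τ : V) (i : ZMod p),
      τ • padicEmbedding (q : ℕ) (muInc p i : AlgebraicClosure ℚ) =
        padicEmbedding (q : ℕ) (muInc p i : AlgebraicClosure ℚ) := fun τ i =>
    locAct_muInc (fun w hw => hμ w (hW hw)) τ.2 i
  have hδ : ∀ s t : V, s • (fl t : Omega q) / fl (s * t) * fl s =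
      (B : Omega q) ^ Class.carry χl s t := fun s t => by
    have hm : M.C ((placeHom q W x s : GQ), (placeHom q W x t : GQ)) =
        μ (Subgroup.inclusion hVU t) - μ (Subgroup.inclusion hVU (s * t)) +
          μ (Subgroup.inclusion hVU s) := by
      rw [map_mul (Subgroup.inclusion hVU)]
      exact hμe (Subgroup.inclusion hVU s) (Subgroup.inclusion hVU t)
    have e := congrArg (fun z => padicEmbedding (q : ℕ) (g z))
      (hC (placeHom q W x s) (placeHom q W x t))
    simp only [hm, map_mul, map_div₀, map_pow, hconj, gal_muInc, muInc_add,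
      muInc_sub, Units.val_mul, Units.val_div_eq_div_val, ← hk] at e
    have hB : (B : Omega q) = padicEmbedding (q : ℕ) (g (b : AlgebraicClosure ℚ)) := rfl
    have hfl : ∀ τ : V, (fl τ : Omega q) =
        padicEmbedding (q : ℕ) (muInc p (k * μ (Subgroup.inclusion hVU τ)) : AlgebraicClosure ℚ) /
          padicEmbedding (q : ℕ) (g (f (placeHom q W x τ) : AlgebraicClosure ℚ)) := fun τ => by
      show padicEmbedding (q : ℕ) ((muInc p _ / galUnit g _ : (AlgebraicClosure ℚ)ˣ) :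
        AlgebraicClosure ℚ) = _
      rw [Units.val_div_eq_div_val, map_div₀, galUnit_coe]
    have hne : ∀ z : (AlgebraicClosure ℚ)ˣ,
        padicEmbedding (q : ℕ) (g (z : AlgebraicClosure ℚ)) ≠ 0 := fun z =>
      (map_ne_zero _).2 ((map_ne_zero _).2 z.ne_zero)
    have hne' : ∀ z : (AlgebraicClosure ℚ)ˣ,
        padicEmbedding (q : ℕ) (z : AlgebraicClosure ℚ) ≠ 0 := fun z => (map_ne_zero _).2 z.ne_zero
    have hne2 : s • padicEmbedding (q : ℕ) (g (f (placeHom q W x t) : AlgebraicClosure ℚ)) ≠ 0 :=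
      (smul_ne_zero_iff_ne s).2 (hne _)
    rw [hB, hfl, hfl, hfl, smul_div₀', hroot, map_mul (placeHom q W x),
      map_mul (Subgroup.inclusion hVU)]
    show _ = _ ^ Class.carry χ (placeHom q W x s) (placeHom q W x t)
    field_simp [hne, hne', hne2] at e ⊢
    linear_combination e
  obtain ⟨F, hF, hlev⟩ := h.level
  obtain ⟨F', hF', hlev'⟩ := isLevelHom_placeHom q W x F hF
  have hχlev : ∃ F₀ : IntermediateField ℚ (AlgebraicClosure ℚ), FiniteDimensional ℚ F₀ ∧
      (subLoc V).lev F₀ ≤ χl.ker :=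
    ⟨F', hF', fun s hs => MonoidHom.mem_ker.2 (MonoidHom.mem_ker.1
      ((hW' (placeHom q W x s)).2 (hlev _ (hlev' s hs))))⟩
  obtain ⟨y, hy, hyN⟩ := (subLoc V).exists_norm hχlev hσ (b := B)
    (fun τ => hBV _ τ.2) hflc hδ
  have hylu : y ∈ locUnits q (placeStab q W' (QuotientGroup.mk g)) := fun τ hτ => by
    have h1 := mem_placeStab_mk.1 hτ
    have hτV : τ ∈ placeStab q W x := by rw [← hx]; exact mem_placeStab_mk.2 (h.le h1)
    exact hy ⟨τ, hτV⟩ (MonoidHom.mem_ker.2
      (MonoidHom.mem_ker.1 ((hW' (placeHom q W x ⟨τ, hτV⟩)).2 h1)))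
  obtain ⟨G, hG, hGy, -⟩ := exists_placePts_extend hylu
  refine ⟨G, hG, ?_⟩
  show normFun h.le G x = B
  refine Units.ext ?_
  rw [← hyN, normFun_eq_prod, Units.coe_prod]
  set e : ℕ → GQ ⧸ W' := fun i =>
    primeLocalToGlobal q ((σ : primeLocalGaloisGroup q) ^ i) • (QuotientGroup.mk g : GQ ⧸ W')
  have hinj : Set.InjOn e (Finset.range p) := fun i hi j hj hij => by
    simp only [e, MulAction.Quotient.smul_mk, smul_eq_mul, QuotientGroup.eq, map_pow] at hij
    refine pow_inv_mul_pow_mem hW' (σ := placeHom q W x σ) hσ i (Finset.mem_range.1 hi) j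
      (Finset.mem_range.1 hj) ?_
    simp only [← Subgroup.coe_pow, ← map_pow]
    convert hij using 1
    show (g⁻¹ * primeLocalToGlobal q ((σ ^ i : V) : primeLocalGaloisGroup q) * g)⁻¹ *
      (g⁻¹ * primeLocalToGlobal q ((σ ^ j : V) : primeLocalGaloisGroup q) * g) = _
    simp only [Subgroup.coe_pow, map_pow]
    group
  have himg : projFibre h.le x = (Finset.range p).image e := by
    symm
    refine Finset.eq_of_subset_of_card_le (fun z hz => ?_) ?_
    · obtain ⟨i, -, rfl⟩ := Finset.mem_image.1 hz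
      rw [mem_projFibre, quotProj_smul, quotProj_mk, hx]
      exact (σ ^ i).2
    · rw [card_projFibre, h.index, Finset.card_image_of_injOn hinj, Finset.card_range]
  rw [himg, Finset.prod_image hinj]
  refine Finset.prod_congr rfl fun i _ => ?_
  simp only [e, placePts_apply hG, hGy, locUnitAct_coe]
  rfl

end Step

theorem exists_character (h : KummerStep p W' W) :
    ∃ (χ : ↥W →* Multiplicative (ZMod p)) (σ : W), χ σ = Multiplicative.ofAdd 1 ∧
      ∀ w : W, w ∈ χ.ker ↔ (w : GQ) ∈ W' := by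
  haveI := h.normal
  have hq : Nat.card (↥W ⧸ W'.subgroupOf W) = p := h.index
  have : IsCyclic (↥W ⧸ W'.subgroupOf W) := isCyclic_of_prime_card hq
  let e : ↥W ⧸ W'.subgroupOf W ≃* Multiplicative (ZMod p) :=
    (hq ▸ zmodCyclicMulEquiv this).symm
  obtain ⟨σ, hσ⟩ := QuotientGroup.mk_surjective (e.symm (Multiplicative.ofAdd 1))
  refine ⟨e.toMonoidHom.comp (QuotientGroup.mk' _), σ, by simp [hσ], fun w => ?_⟩
  rw [MonoidHom.mem_ker]
  show e (QuotientGroup.mk w) = 1 ↔ _
  rw [e.map_eq_one_iff, QuotientGroup.eq_one_iff, Subgroup.mem_subgroupOf]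

/-- Triviality climbs a Kummer step. -/
theorem MuCocycle.TrivOn.step (hp2 : p ≠ 2) (hW : W ≤ U) (hμ : ∀ g ∈ U, cycloChar p g = 1)
    {M : MuCocycle p U} (hloc : M.LocTriv) (h : KummerStep p W' W) (ht : M.TrivOn W') :
    M.TrivOn W := by
  obtain ⟨χ, σ, hσ, hW'⟩ := exists_character h
  haveI := h.finiteQuot
  obtain ⟨F, hF, hlev⟩ := h.level
  have hχlev : ∃ F₀ : IntermediateField ℚ (AlgebraicClosure ℚ), FiniteDimensional ℚ F₀ ∧
      (subData W).lev F₀ ≤ χ.ker := ⟨F, hF, fun s hs => (hW' s).2 (hlev _ hs)⟩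
  obtain ⟨f₀, hf₀, hf₀e⟩ := ht
  let g₀ : χ.ker → (AlgebraicClosure ℚ)ˣ := fun k => f₀ ⟨((k : W) : GQ), (hW' _).1 k.2⟩
  have hg₀ : IsConst₁ Levels.all ((subData W).r.comp χ.ker.subtype) g₀ := by
    obtain ⟨F₁, hF₁, h₁⟩ := hf₀
    exact ⟨F₁, hF₁, fun a s hs =>
      h₁ ⟨((a : W) : GQ), (hW' _).1 a.2⟩ ⟨((s : W) : GQ), (hW' _).1 s.2⟩ hs⟩
  obtain ⟨b, f, hb, hf, hC⟩ := (subData W).exists_carry hχlev hσ (M.cochain_isConst W)
    (M.cochain_cocycle hμ hW) hg₀
    (fun s t => hf₀e ⟨((s : W) : GQ), (hW' _).1 s.2⟩ ⟨((t : W) : GQ), (hW' _).1 t.2⟩)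
  have hbW : b ∈ fixedUnits W := fun g hg => hb ⟨g, hg⟩
  obtain ⟨b', hb', hN⟩ := hasse_norm_of_first hp2 (fun _ _ h' => first_inequality_proof hp2 h')
    h hbW fun q => exists_norm_of_forall h.le (diag_mem_placePts hbW) fun x =>
      carry_mem_normsAt hW hμ M hloc h hW' hbW hf hC q x
  rw [normFun_globFun h.le hb'] at hN
  have hN' : normUnit h.le b' = b := by
    have := congrFun hN (QuotientGroup.mk 1)
    rw [globFun_mk (normUnit_mem h.le hb'), globFun_mk hbW] at this
    exact this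
  have hprod : ∏ i ∈ Finset.range p, σ ^ i • (b' : AlgebraicClosure ℚ) = b := by
    rw [← hN', normUnit_eq_prod h.le h.index σ
      (fun i hi j hj => pow_inv_mul_pow_mem hW' hσ i hi j hj) hb']
    exact Finset.prod_congr rfl fun i _ => by rw [← Subgroup.coe_pow]; rfl
  obtain ⟨f₂, hf₂, hf₂e⟩ := (subData W).exists_cochain_of_norm hχlev hσ hb
    (fun k hk => hb' _ ((hW' k).1 hk)) hprod
  refine ⟨fun s => f s * f₂ s, (hf.prodMk hf₂).comp fun z => z.1 * z.2, fun s t => ?_⟩
  refine (hC s t).trans ?_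
  show (s : GQ) (f t : AlgebraicClosure ℚ) / f (s * t) * f s * _ = _
  rw [← hf₂e s t]
  show _ * ((s : GQ) (f₂ t : AlgebraicClosure ℚ) / f₂ (s * t) * f₂ s) = _
  simp only [Units.val_mul, map_mul]
  ring

/-- The Hasse principle for classes with values in `μ_p`. -/
theorem hasse_mu_proof (hp2 : p ≠ 2) (hU : IsLevelSubgroup Levels.all (MonoidHom.id GQ) U)
    (hμ : ∀ g ∈ U, cycloChar p g = 1)
    (c : ↥(Z2 Levels.all U.subtype (muSub p U)))
    (hloc : ∀ q x, locPlace p q U x (H2cπ _ _ _ c) = 0) :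
    ∃ f : U → (AlgebraicClosure ℚ)ˣ, IsConst₁ Levels.all U.subtype f ∧ ∀ s t,
      (muInc p (c.1 (s, t)) : AlgebraicClosure ℚ) = (s : GQ) (f t) / f (s * t) * f s := by
  obtain ⟨M, hM⟩ := exists_muCocycle hU hμ c
  have hL := MuCocycle.locTriv_of_locPlace hμ c M hM hloc
  obtain ⟨F₁, hF₁, h₁⟩ := hU
  obtain ⟨F₂, hF₂, h₂⟩ := M.isConst
  obtain ⟨F, hF, hN, hle₁, hle₂⟩ := Levels.exists_normal₂ Levels.normalBasis_all
    (F₁ := F₁) (F₂ := F₂) hF₁ hF₂
  set N : Subgroup GQ := F.fixingSubgroup with hNdef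
  have hNU : N ≤ U := fun s hs => h₁ s (IntermediateField.fixingSubgroup_antitone hle₁ hs)
  haveI : N.Normal := ⟨fun s hs g => by
    have := conj_mem_level (r := MonoidHom.id GQ) (F := F) hN (s := s) hs g⁻¹
    rw [inv_inv] at this
    exact this⟩
  haveI : N.FiniteIndex := Recip.EmbData.finiteIndex_fixingSubgroup' F hF
  haveI : (N.subgroupOf U).FiniteIndex := inferInstance
  set ψ : ↥U →* ↥U ⧸ N.subgroupOf U := QuotientGroup.mk' _ with hψ
  haveI : Finite (↥U ⧸ N.subgroupOf U) := inferInstance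
  have hker : ∀ s : U, (s : GQ) ∈ N → ψ s = 1 := fun s hs =>
    (QuotientGroup.eq_one_iff s).2 (Subgroup.mem_subgroupOf.2 hs)
  let pre : Subgroup (↥U ⧸ N.subgroupOf U) → Subgroup GQ := fun H => (H.comap ψ).map U.subtype
  have hpre : ∀ H, pre H ≤ U := fun H => Subgroup.map_subtype_le _
  have hlevel : ∀ H, IsLevelSubgroup Levels.all (MonoidHom.id GQ) (pre H) := fun H =>
    ⟨F, hF, fun s hs => ⟨⟨s, hNU hs⟩, by simp [hker ⟨s, hNU hs⟩ hs], rfl⟩⟩
  have main : ∀ (n : ℕ) (H : Subgroup (↥U ⧸ N.subgroupOf U)), Nat.card H = p ^ n →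
      M.TrivOn (pre H) := by
    intro n
    induction n with
    | zero =>
      intro H hH
      rw [pow_zero, Subgroup.card_eq_one] at hH
      have hmem : ∀ s : pre H, (s : GQ) ∈ N := fun s => by
        obtain ⟨v, hv, e⟩ := s.2
        rw [← e, hH] at *
        exact Subgroup.mem_subgroupOf.1 ((QuotientGroup.eq_one_iff v).1 (Subgroup.mem_bot.1 hv))
      refine ⟨fun _ => muInc p (M.C (1, 1)), ⟨F, hF, fun _ _ _ => rfl⟩, fun s t => ?_⟩
      rw [gal_muInc_of_mem hμ (hpre H s.2), div_self (Units.ne_zero _), one_mul]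
      have := h₂ 1 1 (s : GQ) (t : GQ) (IntermediateField.fixingSubgroup_antitone hle₂ (hmem s))
        (IntermediateField.fixingSubgroup_antitone hle₂ (hmem t))
      rw [one_mul, one_mul] at this
      rw [this]
    | succ n ih =>
      intro H hH
      obtain ⟨K, hK⟩ := Sylow.exists_subgroup_card_pow_prime p (n := n) (G := H)
        (by rw [hH]; exact pow_dvd_pow p (Nat.le_succ n))
      have hidx : K.index = p := by
        have := K.card_mul_index
        rw [hH, hK, pow_succ] at this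
        exact Nat.eq_of_mul_eq_mul_left (pow_pos (Fact.out : p.Prime).pos _) this
      have hKn : K.Normal := Subgroup.normal_of_index_eq_minFac_card (by
        rw [hidx, hH, (Fact.out : p.Prime).pow_minFac (Nat.succ_ne_zero n)])
      set K' := K.map H.subtype with hK'
      have hKH : K' ≤ H := Subgroup.map_subtype_le _
      refine (ih K' (by rw [hK', Subgroup.card_map_of_injective H.subtype_injective, hK])).step
        hp2 (hpre H) hμ hL ⟨Subgroup.map_mono (Subgroup.comap_mono hKH), hlevel K', ?_, ?_,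
          fun g hg => hμ g (hpre H hg)⟩
      · refine ⟨fun k hk w => ?_⟩
        obtain ⟨a, ha, ea⟩ := Subgroup.mem_subgroupOf.1 hk
        obtain ⟨v, hv, ev⟩ := w.2
        obtain ⟨a', ha', ea'⟩ := ha
        refine ⟨v * a * v⁻¹, ⟨⟨ψ v, hv⟩ * a' * ⟨ψ v, hv⟩⁻¹, hKn.conj_mem _ ha' _, ?_⟩, ?_⟩
        · rw [map_mul, map_mul, map_inv]
          simp only [Subgroup.coe_subtype] at ea' ⊢
          rw [ea', map_mul, map_mul, map_inv]
        · simp only [Subgroup.coe_subtype, Subgroup.coe_mul, Subgroup.coe_inv] at ea ev ⊢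
          rw [ea, ev]
      · show (pre K').relIndex (pre H) = p
        rw [Subgroup.relIndex_map_map_of_injective _ _ U.subtype_injective,
          Subgroup.relIndex_comap,
          Subgroup.map_comap_eq_self_of_surjective (QuotientGroup.mk'_surjective _),
          Subgroup.relIndex, show K'.subgroupOf H = K from
            Subgroup.comap_map_eq_self_of_injective H.subtype_injective K, hidx]
  obtain ⟨P⟩ : Nonempty (Sylow p (↥U ⧸ N.subgroupOf U)) := inferInstance
  obtain ⟨n, hn⟩ := IsPGroup.iff_card.1 P.isPGroup'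
  obtain ⟨f, hf, hfe⟩ := main n (P : Subgroup (↥U ⧸ N.subgroupOf U)) hn
  set V : Subgroup ↥U := (P : Subgroup (↥U ⧸ N.subgroupOf U)).comap ψ
  have hmemV : ∀ v : V, ((v : U) : GQ) ∈ pre P := fun v => ⟨v.1, v.2, rfl⟩
  have hg₀ : IsConst₁ Levels.all ((subData U).r.comp V.subtype)
      (fun v : V => f ⟨_, hmemV v⟩) := by
    obtain ⟨F₃, hF₃, h₃⟩ := hf
    exact ⟨F₃, hF₃, fun a s hs => h₃ ⟨_, hmemV a⟩ ⟨_, hmemV s⟩ hs⟩
  obtain ⟨f', hf', hf'e⟩ := (subData U).exists_coboundary_of_coprime (p := p)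
    (M.cochain_isConst U) (M.cochain_cocycle hμ le_rfl) (fun g => muInc_pow_eq_one _) V
    ⟨F, hF, fun s hs => by
      show ψ s ∈ (P : Subgroup (↥U ⧸ N.subgroupOf U))
      rw [hker s hs]
      exact one_mem _⟩
    (by
      rw [Subgroup.index_comap_of_surjective _ (QuotientGroup.mk'_surjective _)]
      exact (Fact.out : p.Prime).coprime_iff_not_dvd.2 P.not_dvd_index)
    hg₀ (fun s t => hfe ⟨_, hmemV s⟩ ⟨_, hmemV t⟩)
  refine ⟨f', hf', fun s t => ?_⟩
  rw [← hM]
  exact hf'e s t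

end Fermat.Agent.CFT
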