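import Fermat.Agent.CFT.Global.LocalPowers

/-!
# The `S`-units fill up the residue classes at the auxiliary places
-/

set_option autoImplicit false

open groupCohomology ExtCitation NumberField IsDedekindDomain

noncomputable section

namespace Fermat.Agent.CFT

namespace Kummer

variable {K : Type} [Field K] [NumberField K] {p : ℕ} [Fact p.Prime]

theorem aux_surjective {ζ : K} (hζ : IsPrimitiveRoot ζ p)
    {S T : Finset (HeightOneSpectrum (𝓞 K))} (hST : Disjoint S T)
    (hTp : ∀ v ∈ T, (p : 𝓞 K) ∉ v.asIdeal)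
    (hidx : (auxGroup K p S T).relIndex ((↑S : Set (HeightOneSpectrum (𝓞 K))).unit K) =
      p ^ T.card)
    (f : ∀ v : HeightOneSpectrum (𝓞 K), localUnits K v) :
    ∃ e ∈ (↑S : Set (HeightOneSpectrum (𝓞 K))).unit K, ∀ v ∈ T,
      ((f v : (v.adicCompletion K)ˣ) / localEmb v e) ∈ localPowers K p v := by
  classical
  set E := (↑S : Set (HeightOneSpectrum (𝓞 K))).unit K
  let Q : T → Type := fun v =>
    localUnits K v.1 ⧸ (localPowers K p v.1).subgroupOf (localUnits K v.1)
  let Φ : E →* ((v : T) → localUnits K v.1 ⧸ (localPowers K p v.1).subgroupOf (localUnits K v.1)) :=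
    MonoidHom.pi fun v => (QuotientGroup.mk' _).comp
      (((localEmb v.1).comp E.subtype).codRestrict (localUnits K v.1) fun e =>
        localEmb_mem_units (e.2 v.1 (Finset.disjoint_right.1 hST v.2)))
  have hker : Φ.ker = (auxGroup K p S T).subgroupOf E := by
    ext e
    rw [MonoidHom.mem_ker, Subgroup.mem_subgroupOf, mem_auxGroup, funext_iff]
    constructor
    · exact fun h => ⟨e.2, fun v hv => Subgroup.mem_subgroupOf.1
        ((QuotientGroup.eq_one_iff _).1 (h ⟨v, hv⟩))⟩
    · exact fun h v => (QuotientGroup.eq_one_iff _).2 (Subgroup.mem_subgroupOf.2 (h.2 v.1 v.2))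
  have hcard : ∀ v : T,
      Nat.card (localUnits K v.1 ⧸ (localPowers K p v.1).subgroupOf (localUnits K v.1)) = p := by
    intro v
    have h := kl_relIndex_units v.1 hζ
    rwa [kl_exp_eq_zero v.1 (hTp v.1 v.2), pow_zero, mul_one] at h
  have htarget : Nat.card ((v : T) → localUnits K v.1 ⧸
      (localPowers K p v.1).subgroupOf (localUnits K v.1)) = p ^ T.card := by
    rw [Nat.card_pi, Finset.prod_congr rfl fun v _ => hcard v, Finset.prod_const, Finset.card_univ,
      Fintype.card_coe]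
  haveI := Nat.finite_of_card_ne_zero
    (htarget.trans_ne (pow_ne_zero _ (Fact.out : p.Prime).ne_zero))
  have hsurj : (MonoidHom.range (N := (v : T) → localUnits K v.1 ⧸
      (localPowers K p v.1).subgroupOf (localUnits K v.1)) Φ) = ⊤ :=
    Subgroup.eq_top_of_card_eq _ (by
    rw [← Subgroup.index_ker, hker, htarget]
    exact hidx)
  obtain ⟨e, he⟩ := MonoidHom.range_eq_top.1 hsurj fun v => QuotientGroup.mk (f v.1)
  refine ⟨e, e.2, fun v hv => ?_⟩
  have h1 := Subgroup.mem_subgroupOf.1 (QuotientGroup.eq.1 (congrFun he ⟨v, hv⟩))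
  rw [div_eq_inv_mul]
  simpa using h1

end Kummer

variable {p : ℕ} [Fact p.Prime] {U : Subgroup GQ} {q : Nat.Primes}

/-- `powAt` moves along local orbits. -/
theorem powAt_samePlace {g : GQ ⧸ U → (Omega q)ˣ} (hg : g ∈ placePts q U) {x y : GQ ⧸ U}
    (hxy : samePlace q x y) (hx : g x ∈ powAt p q U x) : g y ∈ powAt p q U y := by
  obtain ⟨w, hw, hwx⟩ := hx
  obtain ⟨F, hF, hFx, -⟩ := exists_placePts_extend hw
  obtain ⟨τ, rfl⟩ := hxy
  refine ⟨F (primeLocalToGlobal q τ • x), placePts_apply_mem hF _, ?_⟩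
  show F (primeLocalToGlobal q τ • x) ^ p = _
  rw [placePts_apply hF, placePts_apply hg, ← map_pow, hFx]
  exact congrArg _ hwx

theorem zetaP_primitive_fxFld (hμ : ∀ g ∈ U, cycloChar p g = 1) :
    ∃ ζ : fxFld U, IsPrimitiveRoot ζ p := by
  refine ⟨⟨(zetaP p : AlgebraicClosure ℚ), fun u => ?_⟩,
    IsPrimitiveRoot.of_map_of_injective (f := (fxFld U).val)
      (IsPrimitiveRoot.coe_units_iff.2 zetaP_isPrimitiveRoot) Subtype.val_injective⟩
  have := gal_muInc_of_eq_one (p := p) (hμ u u.2) ((1 : ℕ) : ZMod p)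
  rwa [muInc_natCast, pow_one] at this

variable [NumberField (fxFld U)] [Finite (GQ ⧸ U)]

/-- At the auxiliary places every unit is an `S`-unit times a `p`-th power. -/
theorem exists_unit_adjust (hU : IsLevelSubgroup Levels.all (MonoidHom.id GQ) U)
    (hμ : ∀ g ∈ U, cycloChar p g = 1) {S : Finset Nat.Primes} (hpS : pPrime p ∈ S)
    {T : Finset (HeightOneSpectrum (𝓞 (fxFld U)))} (hST : Disjoint (placesAbove U S) T)
    (hidx : (Kummer.auxGroup (fxFld U) p (placesAbove U S) T).relIndex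
      ((↑(placesAbove U S) : Set (HeightOneSpectrum (𝓞 (fxFld U)))).unit (fxFld U)) = p ^ T.card)
    (f : ∀ q : Nat.Primes, GQ ⧸ U → (Omega q)ˣ)
    (hf : ∀ q x, placeOf U q x ∈ T → f q ∈ placePts q U ∧ ‖(f q x : Omega q)‖ = 1) :
    ∃ e ∈ sUnits S U, ∀ q x, placeOf U q x ∈ T → f q x / diag q U e x ∈ powAt p q U x := by
  classical
  obtain ⟨ζ, hζ⟩ := zetaP_primitive_fxFld hμ
  have hne : ∀ q x, placeOf U q x ∈ T → (q : ℕ) ≠ p := fun q x h e =>
    Finset.disjoint_right.1 hST h ((placeOf_mem_placesAbove_iff hU).2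
      ((show q = pPrime p from Subtype.ext e) ▸ hpS))
  have hTp : ∀ v ∈ T, (p : 𝓞 (fxFld U)) ∉ v.asIdeal := by
    intro v hv h
    obtain ⟨q, x, rfl⟩ := placeOf_surjective hU v
    exact hne q x hv (congrArg Subtype.val (natPrimes_eq_of_mem (placeOf U q x).isPrime.ne_top
      (natCast_mem_placeOf q x) (q' := pPrime p) h))
  choose qv xv hv using placeOf_surjective (U := U) hU
  have hb : ∀ v ∈ T, ∃ b : fixedUnits U,
      v.valuation (fxFld U) (fixToField U b : fxFld U) = 1 ∧
      f (qv v) (xv v) / diag (qv v) U b (xv v) ∈ powAt p (qv v) U (xv v) := by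
    intro v hvT
    obtain ⟨hfp, hf1⟩ := hf _ _ (show placeOf U (qv v) (xv v) ∈ T by rwa [hv])
    obtain ⟨b, hb, hbl, hbn⟩ := exists_fixedUnits_approx hU (xv v)
      (placePts_apply_mem hfp (xv v)) one_pos
    have hb1 := (valuation_placeOf_eq_one_iff ⟨b, hb⟩ (qv v) (xv v)).2 (hbn.trans hf1)
    rw [hv] at hb1
    refine ⟨⟨b, hb⟩, hb1, exists_root_of_close (r := 1) hμ
      (hne _ _ (show placeOf U (qv v) (xv v) ∈ T by rwa [hv]))
      (div_mem (placePts_apply_mem hfp _) (placePts_apply_mem (diag_mem_placePts hb) _)) ?_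
      (fun τ _ => map_one _) ?_⟩
    · rw [Units.val_div_eq_div_val, norm_div, hbn, hf1, div_one]
    · rw [one_pow, Units.val_div_eq_div_val, one_sub_div (Units.ne_zero _), norm_div, hbn, hf1,
        div_one]
      exact hbl
  choose! b hb1 hb2 using hb
  let u : ∀ v, Kummer.localUnits (fxFld U) v := fun v =>
    if hvT : v ∈ T then ⟨_, Kummer.localEmb_mem_units (hb1 v hvT)⟩ else 1
  obtain ⟨e, he, heT⟩ := Kummer.aux_surjective hζ hST hTp hidx u
  obtain ⟨e', rfl⟩ := (fixToField_bijective U).2 e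
  refine ⟨e', (mem_sUnits_iff hU e').2 he, fun q x hT => ?_⟩
  set v := placeOf U q x with hvdef
  have key : f (qv v) (xv v) / diag (qv v) U e' (xv v) ∈ powAt p (qv v) U (xv v) := by
    have h1 := heT v hT
    rw [show ((u v : Kummer.localUnits (fxFld U) v) : (v.adicCompletion (fxFld U))ˣ) =
        Kummer.localEmb v (fixToField U (b v)) by simp [u, hT], ← map_div, ← map_div] at h1
    have hval : (placeOf U (qv v) (xv v)).valuation (fxFld U)
        (fixToField U (b v / e') : fxFld U) = 1 := by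
      rw [map_div, Units.val_div_eq_div_val, map_div₀, hv, hb1 v hT,
        he v (Finset.disjoint_right.1 hST hT), div_one]
    have h2 := (diag_mem_powAt_iff hU hμ (hne _ _ (show placeOf U (qv v) (xv v) ∈ T by rwa [hv]))
      (b v / e') ((valuation_placeOf_eq_one_iff _ _ _).1 hval)).2 (by rw [hv]; exact h1)
    have h3 := mul_mem (hb2 v hT) h2
    rwa [Subgroup.coe_div, map_div, Pi.div_apply, div_mul_div_cancel] at h3
  obtain ⟨hqq, hsame⟩ := (placeOf_eq_iff hU).1 (hv v)
  have hmove : ∀ (q' : Nat.Primes) (x' : GQ ⧸ U), q' = q → placeOf U q' x' = v →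
      f q' x' / diag q' U e' x' ∈ powAt p q' U x' → f q x / diag q U e' x ∈ powAt p q U x := by
    rintro q' x' rfl h' hpw
    exact powAt_samePlace (g := fun y => f q' y / diag q' U e' y)
      (div_mem (hf q' x hT).1 (diag_mem_placePts e'.2)) ((placeOf_eq_iff hU).1 h').2 hpw
  exact hmove _ _ hqq (hv v) key

end Fermat.Agent.CFT
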