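import Fermat.Agent.CFT.Global.KummerRoot
import Fermat.Agent.CFT.Global.AuxTarget
import Fermat.Agent.CFT.Kummer.AuxPrimes

/-!
# Infinitely many places do not split in a Kummer step

`a = α ^ p` is a non-residue at infinitely many primes of degree one, and at such a place the
local group moves `α`.
-/

set_option autoImplicit false

open groupCohomology ExtCitation NumberField IsDedekindDomain

noncomputable section

namespace Fermat.Agent.CFT

variable {p : ℕ} [Fact p.Prime] {U' U : Subgroup GQ}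

omit [Fact p.Prime] in
/-- Where the whole local group fixes `α`, `α ^ p` is a local `p`-th power. -/
theorem diag_pow_mem_powAt_of_placeHom {α : (AlgebraicClosure ℚ)ˣ}
    (hα : IsKummerRoot p U' U α) {q : Nat.Primes} {x : GQ ⧸ U}
    (h : ∀ τ : placeStab q U x, (placeHom q U x τ : GQ) ∈ U') :
    diag q U (α ^ p) x ∈ powAt p q U x := by
  refine ⟨diag q U α x, fun τ hτ => ?_, ?_⟩
  · have h1 : ((Quotient.out x : GQ)⁻¹ * primeLocalToGlobal q τ * Quotient.out x)
        (α : AlgebraicClosure ℚ) = (α : AlgebraicClosure ℚ) := ((hα.2 _).1 (h ⟨τ, hτ⟩)).2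
    rw [AlgEquiv.mul_apply, AlgEquiv.mul_apply] at h1
    have h2 : primeLocalToGlobal q τ ((Quotient.out x : GQ) (α : AlgebraicClosure ℚ)) =
        (Quotient.out x : GQ) (α : AlgebraicClosure ℚ) :=
      (Quotient.out x : GQ).symm.injective (h1.trans ((Quotient.out x : GQ).symm_apply_apply _).symm)
    show locAct q τ (padicEmbedding (q : ℕ) ((Quotient.out x : GQ) (α : AlgebraicClosure ℚ))) =
      padicEmbedding (q : ℕ) ((Quotient.out x : GQ) (α : AlgebraicClosure ℚ))
    exact (padicEmbedding_localGaloisToGlobal (q : ℕ) τ _).symm.trans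
      (congrArg (padicEmbedding (q : ℕ)) h2)
  · rw [map_pow, Pi.pow_apply]
    rfl

/-- A Kummer step has places outside any finite set whose local group is not in the bigger
field. -/
theorem exists_nonsplit_place_proof (h : KummerStep p U' U) (E : Finset Nat.Primes) :
    ∃ q ∉ E, ∃ (x : GQ ⧸ U) (τ : placeStab q U x), (placeHom q U x τ : GQ) ∉ U' := by
  classical
  have hp0 := (Fact.out : p.Prime).ne_zero
  have hU := h.levelU
  have := numberField_fxFld hU
  have := finite_quot_of_isLevelSubgroup hU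
  obtain ⟨α, hα, hαne⟩ := h.exists_isKummerRoot
  obtain ⟨ζ, hζ⟩ := zetaP_primitive_fxFld h.mu
  set a : fixedUnits U := ⟨α ^ p, hα.1⟩
  obtain ⟨a', e, -, hae⟩ := Kummer.aux_integral (p := p) (fixToField U a)
  obtain ⟨e', rfl⟩ := (fixToField_bijective U).2 e
  set b : fixedUnits U := a * e' ^ p with hb
  have hcast : (fixToField U b : fxFld U) = algebraMap (𝓞 (fxFld U)) (fxFld U) a' := by
    rw [hb, map_mul, map_pow, Units.val_mul, Units.val_pow_eq_pow_val, hae]
  have hnp : ∀ y : fxFld U, y ^ p ≠ (a' : fxFld U) := by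
    intro y hy
    have hy' : y ^ p = (fixToField U b : fxFld U) := hy.trans hcast.symm
    have hy0 : y ≠ 0 := fun h0 =>
      (fixToField U b).ne_zero (by rw [← hy', h0, zero_pow hp0])
    obtain ⟨y', hy''⟩ := (fixToField_bijective U).2 (Units.mk0 y hy0)
    have hyb : y' ^ p = b := (fixToField_bijective U).1 (Units.ext (by
      rw [map_pow, hy'', Units.val_pow_eq_pow_val, Units.val_mk0, hy']))
    have hw : ((y' / e' : fixedUnits U) : (AlgebraicClosure ℚ)ˣ) ^ p = α ^ p := by
      have h1 : (y' / e') ^ p = a := by rw [div_pow, hyb, hb, mul_div_cancel_right]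
      exact congrArg Subtype.val h1
    obtain ⟨i, hi⟩ := exists_muInc_eq (p := p)
      (w := α / ((y' / e' : fixedUnits U) : (AlgebraicClosure ℚ)ˣ))
      (by rw [div_pow, hw, div_self'])
    refine hαne ?_
    rw [eq_comm, div_eq_iff_eq_mul] at hi
    rw [hi]
    exact mul_mem (pow_mem (zetaP_mem_fixedUnits h.mu) _) (y' / e').2
  obtain ⟨ℓ, hℓ, hℓE, φ, hφ, hφnp⟩ := nres_exists hζ hnp
    (insert p (E.image fun q : Nat.Primes => (q : ℕ)))
  have := Fact.mk hℓ
  rw [Finset.mem_insert, not_or] at hℓE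
  have hker : RingHom.ker φ ≠ ⊥ := fun h0 => by
    have h1 := nres_ker_norm (fxFld U) φ
    rw [h0, Ideal.absNorm_bot] at h1
    exact hℓ.ne_zero h1.symm
  obtain ⟨q, x, hqx⟩ := placeOf_surjective hU
    ⟨RingHom.ker φ, RingHom.ker_isPrime φ, hker⟩
  have hasI : (placeOf U q x).asIdeal = RingHom.ker φ := by rw [hqx]
  have hq : q = ⟨ℓ, hℓ⟩ := natPrimes_eq_of_mem (placeOf U q x).isPrime.ne_top
    (natCast_mem_placeOf q x) (by
      rw [hasI, RingHom.mem_ker, map_natCast]
      exact ZMod.natCast_self ℓ)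
  have hqp : (q : ℕ) ≠ p := by rw [hq]; exact hℓE.1
  have hqE : q ∉ E := fun hm => hℓE.2 (Finset.mem_image.2 ⟨q, hm, by rw [hq]⟩)
  have hvp : (p : 𝓞 (fxFld U)) ∉ (placeOf U q x).asIdeal := fun hm =>
    hqp (congrArg Subtype.val (natPrimes_eq_of_mem (placeOf U q x).isPrime.ne_top
      (natCast_mem_placeOf q x) (q' := pPrime p) hm))
  have ha'v : a' ∉ (placeOf U q x).asIdeal := by rw [hasI, RingHom.mem_ker]; exact hφ
  have hunit : ‖(diag q U b x : Omega q)‖ = 1 := (valuation_placeOf_eq_one_iff b q x).1 (by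
    rw [hcast]; exact ((placeOf U q x).valuation_eq_one_iff_notMem).2 ha'v)
  refine ⟨q, hqE, x, ?_⟩
  by_contra hall
  push Not at hall
  have hpow : diag q U b x ∈ powAt p q U x := by
    rw [hb, Subgroup.coe_mul, map_mul, Pi.mul_apply]
    refine mul_mem (diag_pow_mem_powAt_of_placeHom hα hall)
      ⟨diag q U e' x, placePts_apply_mem (diag_mem_placePts e'.2) x, ?_⟩
    rw [Subgroup.coe_pow, map_pow]
    rfl
  obtain ⟨r, hr⟩ := (Kummer.localEmb_mem_powers_int hζ _ hvp ha'v _ hcast).1
    ((diag_mem_powAt_iff hU h.mu hqp b hunit).1 hpow)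
  rw [hasI, RingHom.mem_ker, map_sub, map_pow, sub_eq_zero] at hr
  exact hφnp _ hr

end Fermat.Agent.CFT
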