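import Mathlib

/-!
# A normal step `U' ≤ U` of prime index: the shift on `G ⧸ U'`
-/

namespace Fermat.Agent.CFT

variable {G : Type*} [Group G] {U' U : Subgroup G}

/-- A normal step of prime index with a chosen generator. -/
structure CosetStep (p : ℕ) (U' U : Subgroup G) where
  le : U' ≤ U
  normal : (U'.subgroupOf U).Normal
  prime : p.Prime
  index : U'.relIndex U = p
  gen : G
  gen_mem : gen ∈ U
  gen_notMem : gen ∉ U'

namespace CosetStep

lemma nonempty_of (p : ℕ) (hp : p.Prime) (hle : U' ≤ U) (hn : (U'.subgroupOf U).Normal)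
    (hi : U'.relIndex U = p) : Nonempty (CosetStep p U' U) := by
  obtain ⟨g, hg, hg'⟩ : ∃ g ∈ U, g ∉ U' := by
    by_contra h
    push Not at h
    rw [Subgroup.relIndex_eq_one.2 h] at hi
    exact hp.one_lt.ne hi
  exact ⟨⟨hle, hn, hp, hi, g, hg, hg'⟩⟩

variable {p : ℕ} (D : CosetStep p U' U)
include D

lemma conj_mem {u : G} (hu : u ∈ U) {h : G} (hh : h ∈ U') : u * h * u⁻¹ ∈ U' := by
  have := D.normal.conj_mem ⟨h, D.le hh⟩ (Subgroup.mem_subgroupOf.2 hh) ⟨u, hu⟩
  exact Subgroup.mem_subgroupOf.1 this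

lemma conj_mem' {u : G} (hu : u ∈ U) {h : G} (hh : h ∈ U') : u⁻¹ * h * u ∈ U' := by
  simpa using D.conj_mem (U.inv_mem hu) hh

lemma pow_mem_iff (i : ℕ) : D.gen ^ i ∈ U' ↔ p ∣ i := by
  have : Fact p.Prime := ⟨D.prime⟩
  have := D.normal
  set q : U ⧸ U'.subgroupOf U := QuotientGroup.mk ⟨D.gen, D.gen_mem⟩
  have hcard : Nat.card (U ⧸ U'.subgroupOf U) = p := D.index
  have hne : q ≠ 1 := fun h =>
    D.gen_notMem (Subgroup.mem_subgroupOf.1 ((QuotientGroup.eq_one_iff _).1 h))
  have ho : orderOf q = p := by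
    have hdvd : orderOf q ∣ p := hcard ▸ orderOf_dvd_natCard q
    rcases (Nat.dvd_prime D.prime).1 hdvd with h | h
    · exact absurd (orderOf_eq_one_iff.1 h) hne
    · exact h
  rw [show D.gen ^ i ∈ U' ↔ q ^ i = 1 from ?_, ← orderOf_dvd_iff_pow_eq_one, ho]
  rw [← QuotientGroup.mk_pow, QuotientGroup.eq_one_iff, Subgroup.mem_subgroupOf]
  rfl

lemma pow_prime_mem : D.gen ^ p ∈ U' := (D.pow_mem_iff p).2 dvd_rfl

lemma exists_pow_of_mem {u : G} (hu : u ∈ U) : ∃ i < p, (D.gen ^ i)⁻¹ * u ∈ U' := by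
  have : Fact p.Prime := ⟨D.prime⟩
  have := D.normal
  have hcard : Nat.card (U ⧸ U'.subgroupOf U) = p := D.index
  have : Finite (U ⧸ U'.subgroupOf U) := Nat.finite_of_card_ne_zero (hcard ▸ D.prime.ne_zero)
  have hne : (QuotientGroup.mk ⟨D.gen, D.gen_mem⟩ : U ⧸ U'.subgroupOf U) ≠ 1 := fun h =>
    D.gen_notMem (Subgroup.mem_subgroupOf.1 ((QuotientGroup.eq_one_iff _).1 h))
  obtain ⟨k, hk⟩ := mem_powers_iff_mem_zpowers.2
    (mem_zpowers_of_prime_card hcard (g := _) (g' := QuotientGroup.mk ⟨u, hu⟩) hne)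
  refine ⟨k % p, Nat.mod_lt _ D.prime.pos, ?_⟩
  have hk' : (D.gen ^ k)⁻¹ * u ∈ U' := by
    simp only [← QuotientGroup.mk_pow, QuotientGroup.eq] at hk
    exact Subgroup.mem_subgroupOf.1 hk
  have h2 : (D.gen ^ (p * (k / p))) ∈ U' := (D.pow_mem_iff _).2 (dvd_mul_right p _)
  rw [show (D.gen ^ (k % p))⁻¹ * u = D.gen ^ (p * (k / p)) * ((D.gen ^ k)⁻¹ * u) from ?_]
  · exact U'.mul_mem h2 hk'
  · have hk2 : D.gen ^ k = D.gen ^ (k % p) * D.gen ^ (p * (k / p)) := by
      rw [← pow_add, Nat.mod_add_div]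
    rw [hk2, mul_inv_rev, mul_assoc, mul_inv_cancel_left]

/-- `g U' ↦ g γ U'`. -/
def shift : G ⧸ U' → G ⧸ U' :=
  Quotient.map' (· * D.gen) fun a b h => QuotientGroup.leftRel_apply.2 (by
    have := D.conj_mem' D.gen_mem (QuotientGroup.leftRel_apply.1 h)
    simpa [mul_assoc] using this)

@[simp] lemma shift_mk (g : G) :
    D.shift (QuotientGroup.mk g) = QuotientGroup.mk (g * D.gen) := rfl

/-- The projection `G ⧸ U' → G ⧸ U`. -/
def proj : G ⧸ U' → G ⧸ U :=
  Quotient.map' id fun _ _ hab =>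
    QuotientGroup.leftRel_apply.2 (D.le (QuotientGroup.leftRel_apply.1 hab))

@[simp] lemma proj_mk (g : G) : D.proj (QuotientGroup.mk g) = QuotientGroup.mk g := rfl

lemma proj_surjective : Function.Surjective D.proj := fun x => by
  induction x using QuotientGroup.induction_on with
  | _ g => exact ⟨QuotientGroup.mk g, rfl⟩

lemma proj_smul (g : G) (y : G ⧸ U') : D.proj (g • y) = g • D.proj y := by
  induction y using QuotientGroup.induction_on with
  | _ h => rfl

lemma shift_smul (g : G) (y : G ⧸ U') : D.shift (g • y) = g • D.shift y := by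
  induction y using QuotientGroup.induction_on with
  | _ h => simp [mul_assoc]

lemma shift_iterate_smul (g : G) (i : ℕ) (y : G ⧸ U') :
    D.shift^[i] (g • y) = g • D.shift^[i] y := by
  induction i with
  | zero => rfl
  | succ i ih => rw [Function.iterate_succ_apply', ih, D.shift_smul, Function.iterate_succ_apply']

lemma shift_iterate_mk (i : ℕ) (g : G) :
    D.shift^[i] (QuotientGroup.mk g) = QuotientGroup.mk (g * D.gen ^ i) := by
  induction i with
  | zero => simp
  | succ i ih => rw [Function.iterate_succ_apply', ih, shift_mk, pow_succ, mul_assoc]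

lemma shift_iterate_prime (y : G ⧸ U') : D.shift^[p] y = y := by
  induction y using QuotientGroup.induction_on with
  | _ g =>
    rw [D.shift_iterate_mk, QuotientGroup.eq]
    simpa [mul_assoc] using U'.inv_mem D.pow_prime_mem

lemma shift_iterate_eq_iff {i j : ℕ} (hi : i < p) (hj : j < p) (y : G ⧸ U') :
    D.shift^[i] y = D.shift^[j] y ↔ i = j := by
  refine ⟨fun h => ?_, fun h => by rw [h]⟩
  induction y using QuotientGroup.induction_on with
  | _ g =>
    rw [D.shift_iterate_mk, D.shift_iterate_mk, QuotientGroup.eq, mul_inv_rev, mul_assoc,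
      inv_mul_cancel_left] at h
    wlog hij : i ≤ j generalizing i j
    · exact (this hj hi (by simpa using U'.inv_mem h) (le_of_not_ge hij)).symm
    obtain ⟨d, rfl⟩ := Nat.exists_eq_add_of_le hij
    rw [pow_add, inv_mul_cancel_left, D.pow_mem_iff] at h
    rcases Nat.eq_zero_or_pos d with rfl | hd
    · rfl
    · exact absurd (Nat.le_of_dvd hd h) (by omega)

@[simp] lemma proj_shift (y : G ⧸ U') : D.proj (D.shift y) = D.proj y := by
  induction y using QuotientGroup.induction_on with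
  | _ g =>
    rw [D.shift_mk, D.proj_mk, D.proj_mk, QuotientGroup.eq]
    simpa [mul_assoc] using D.gen_mem

lemma proj_shift_iterate (i : ℕ) (y : G ⧸ U') : D.proj (D.shift^[i] y) = D.proj y := by
  induction i with
  | zero => rfl
  | succ i ih => rw [Function.iterate_succ_apply', D.proj_shift, ih]

lemma exists_iterate_of_proj_eq {y y' : G ⧸ U'} (h : D.proj y' = D.proj y) :
    ∃ i < p, D.shift^[i] y = y' := by
  induction y using QuotientGroup.induction_on with
  | _ g =>
    induction y' using QuotientGroup.induction_on with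
    | _ g' =>
      rw [D.proj_mk, D.proj_mk] at h
      obtain ⟨i, hi, hiU⟩ := D.exists_pow_of_mem (QuotientGroup.eq.1 h.symm)
      refine ⟨i, hi, ?_⟩
      rw [D.shift_iterate_mk, QuotientGroup.eq]
      simpa [mul_assoc] using hiU

/-- The fibres of `proj` are the shift orbits. -/
lemma finprod_fibre {X : Type*} [CommMonoid X] (f : G ⧸ U' → X) (y : G ⧸ U') :
    ∏ᶠ (z : G ⧸ U') (_ : D.proj z = D.proj y), f z = ∏ i ∈ Finset.range p, f (D.shift^[i] y) := by
  classical
  rw [← Finset.prod_image (f := f) (g := fun i => D.shift^[i] y) fun i hi j hj h =>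
    (D.shift_iterate_eq_iff (Finset.mem_range.1 hi) (Finset.mem_range.1 hj) y).1 h,
    finprod_cond_eq_prod_of_cond_iff]
  intro z _
  simp only [Finset.mem_image, Finset.mem_range]
  exact ⟨fun h => D.exists_iterate_of_proj_eq h, fun ⟨i, _, hi⟩ => hi ▸ D.proj_shift_iterate i y⟩

end CosetStep

end Fermat.Agent.CFT
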