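import Fermat.Agent.CFT.Global.Defs
import Fermat.Agent.CFT.GlobalFinite
import Fermat.Agent.CFT.Herbrand
import Fermat.Agent.CFT.Global.CosetStep

/-!
# The modules `∏_{v ∣ S} L'_vˣ` and `S`-units attached to a step `U' ≤ U`
-/

set_option autoImplicit false

open CategoryTheory groupCohomology ExtCitation

noncomputable section

namespace Fermat.Agent.CFT

local instance stepFactPrime (q : Nat.Primes) : Fact (q : ℕ).Prime := ⟨q.2⟩

section diag

variable {U : Subgroup GQ}

lemma padicEmb_primeLocalToGlobal (q : Nat.Primes) (τ : primeLocalGaloisGroup q)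
    (x : AlgebraicClosure ℚ) :
    padicEmbedding (q : ℕ) (primeLocalToGlobal q τ x) =
      locAct q τ (padicEmbedding (q : ℕ) x) :=
  padicEmbedding_localGaloisToGlobal (q : ℕ) τ x

/-- The image of a `U`-fixed element at the coset of `g`. -/
lemma diag_mk (q : Nat.Primes) {a : (AlgebraicClosure ℚ)ˣ} (ha : a ∈ fixedUnits U) (g : GQ) :
    ((diag q U a (QuotientGroup.mk g) : (Omega q)ˣ) : Omega q) =
      padicEmbedding (q : ℕ) (g (a : AlgebraicClosure ℚ)) := by
  show padicEmbedding (q : ℕ) ((Quotient.out (QuotientGroup.mk g : GQ ⧸ U) : GQ) a) = _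
  obtain ⟨h, hh⟩ := QuotientGroup.mk_out_eq_mul U g
  rw [show Quotient.out (QuotientGroup.mk g : GQ ⧸ U) = g * h from hh, AlgEquiv.mul_apply,
    ha h h.2]

lemma stepDiag_mem_placePts (q : Nat.Primes) {a : (AlgebraicClosure ℚ)ˣ} (ha : a ∈ fixedUnits U) :
    diag q U a ∈ placePts q U := by
  intro τ x
  induction x using QuotientGroup.induction_on with
  | _ g =>
    rw [MulAction.Quotient.smul_mk, smul_eq_mul, diag_mk q ha, diag_mk q ha, AlgEquiv.mul_apply,
      padicEmb_primeLocalToGlobal]

lemma diag_injective_of_fixed (q : Nat.Primes) {a b : (AlgebraicClosure ℚ)ˣ}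
    (ha : a ∈ fixedUnits U) (hb : b ∈ fixedUnits U) (h : diag q U a = diag q U b) : a = b := by
  have h1 := congrArg Units.val (congrFun h (QuotientGroup.mk (1 : GQ)))
  rw [diag_mk q ha, diag_mk q hb] at h1
  exact Units.ext ((padicEmbedding (q : ℕ)).toRingHom.injective h1)

lemma out_apply_fixed (g : GQ) (a : IntermediateField.fixedField U) :
    (Quotient.out (QuotientGroup.mk g : GQ ⧸ U) : GQ) (a : AlgebraicClosure ℚ) =
      g (a : AlgebraicClosure ℚ) := by
  obtain ⟨h, hh⟩ := QuotientGroup.mk_out_eq_mul U g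
  rw [hh, AlgEquiv.mul_apply]
  exact congrArg g (a.2 h)

lemma padicEmb_out_smul (q : Nat.Primes) (τ : primeLocalGaloisGroup q) (x : GQ ⧸ U)
    (a : IntermediateField.fixedField U) :
    padicEmbedding (q : ℕ) ((Quotient.out (primeLocalToGlobal q τ • x) : GQ)
        (a : AlgebraicClosure ℚ)) =
      locAct q τ (padicEmbedding (q : ℕ) ((Quotient.out x : GQ) (a : AlgebraicClosure ℚ))) := by
  induction x using QuotientGroup.induction_on with
  | _ g =>
    rw [MulAction.Quotient.smul_mk, smul_eq_mul, out_apply_fixed, out_apply_fixed,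
      AlgEquiv.mul_apply, padicEmb_primeLocalToGlobal]

end diag

variable {U' U : Subgroup GQ} {p : ℕ}

namespace CosetStep

variable (D : CosetStep p U' U) (S : Finset Nat.Primes)
include D

/-- Translation by the generator on `placePts`. -/
lemma shift_mem_placePts {q : Nat.Primes} {f : GQ ⧸ U' → (Omega q)ˣ} (hf : f ∈ placePts q U') :
    (fun y => f (D.shift y)) ∈ placePts q U' := fun τ y => by
  show (f (D.shift _) : Omega q) = _
  rw [D.shift_smul]
  exact hf τ (D.shift y)

lemma pull_mem_placePts {q : Nat.Primes} {f : GQ ⧸ U → (Omega q)ˣ} (hf : f ∈ placePts q U) :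
    (fun y => f (D.proj y)) ∈ placePts q U' := fun τ y => by
  show (f (D.proj _) : Omega q) = _
  rw [D.proj_smul]
  exact hf τ (D.proj y)

/-- The generator acting on `∏_{v ∣ S} L'_vˣ`. -/
def shiftPlace : AddMonoid.End (Additive ↥(placeS S U')) :=
  MonoidHom.toAdditive
    { toFun := fun f => ⟨fun q y => f.1 q (D.shift y),
        fun q _ => D.shift_mem_placePts (f.2 q (Set.mem_univ q))⟩
      map_one' := rfl
      map_mul' := fun _ _ => rfl }

lemma shiftPlace_iterate_apply (i : ℕ) (f : Additive ↥(placeS S U')) (q : ↥S) (y : GQ ⧸ U') :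
    ((⇑(D.shiftPlace S))^[i] f).toMul.1 q y = f.toMul.1 q (D.shift^[i] y) := by
  induction i generalizing y with
  | zero => rfl
  | succ i ih =>
    rw [Function.iterate_succ_apply', Function.iterate_succ_apply]
    exact ih (D.shift y)

lemma shiftPlace_iterate_prime (f : Additive ↥(placeS S U')) :
    (⇑(D.shiftPlace S))^[p] f = f := by
  apply Additive.toMul.injective
  refine Subtype.ext (funext fun q => funext fun y => ?_)
  rw [D.shiftPlace_iterate_apply, D.shift_iterate_prime]

/-- The Herbrand pair of `∏_{v ∣ S} L'_vˣ`. -/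
def placePair : HerbrandPair (Additive ↥(placeS S U')) :=
  cycPair (D.shiftPlace S) p (D.shiftPlace_iterate_prime S)

lemma placePair_g_apply (f : Additive ↥(placeS S U')) (q : ↥S) (y : GQ ⧸ U') :
    ((D.placePair S).g f).toMul.1 q y = ∏ i ∈ Finset.range p, f.toMul.1 q (D.shift^[i] y) := by
  rw [placePair, cycPair_g_apply]
  simp only [toMul_sum, SubmonoidClass.coe_finsetProd, Finset.prod_apply,
    D.shiftPlace_iterate_apply]

/-- Pulling back from `U` to `U'`. -/
def pullPlace : Additive ↥(placeS S U) →+ Additive ↥(placeS S U') :=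
  MonoidHom.toAdditive
    { toFun := fun f => ⟨fun q y => f.1 q (D.proj y),
        fun q _ => D.pull_mem_placePts (f.2 q (Set.mem_univ q))⟩
      map_one' := rfl
      map_mul' := fun _ _ => rfl }

lemma pullPlace_injective : Function.Injective (D.pullPlace S) := fun f f' h => by
  apply Additive.toMul.injective
  refine Subtype.ext (funext fun q => funext fun x => ?_)
  obtain ⟨y, rfl⟩ := D.proj_surjective x
  exact congrFun (congrFun (congrArg (fun t => (Additive.toMul t).1) h) q) y

lemma shift_fixed_iff {X : Type*} (f : GQ ⧸ U' → X) :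
    (∀ y, f (D.shift y) = f y) ↔ ∀ y y', D.proj y' = D.proj y → f y' = f y := by
  refine ⟨fun h y y' hy => ?_, fun h y => h _ _ (D.proj_shift y)⟩
  obtain ⟨i, -, rfl⟩ := D.exists_iterate_of_proj_eq hy
  clear hy
  induction i with
  | zero => rfl
  | succ i ih => rw [Function.iterate_succ_apply', h, ih]

/-- The fixed points are the pullbacks. -/
lemma mem_ker_f_iff (f : Additive ↥(placeS S U')) :
    (D.placePair S).f f = 0 ↔ ∃ F, D.pullPlace S F = f := by
  constructor
  · intro h
    have hfix : ∀ q y, f.toMul.1 q (D.shift y) = f.toMul.1 q y := fun q y => by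
      have h' : D.shiftPlace S f = f := sub_eq_zero.1 h
      exact congrFun (congrFun (congrArg (fun t => (Additive.toMul t).1) h') q) y
    choose r hr using D.proj_surjective
    have hpull : ∀ q y, f.toMul.1 q (r (D.proj y)) = f.toMul.1 q y := fun q y =>
      (D.shift_fixed_iff _).1 (hfix q) y _ (hr _)
    refine ⟨Additive.ofMul ⟨fun q x => f.toMul.1 q (r x), fun q _ τ x => ?_⟩, ?_⟩
    · show ((f.toMul.1 q (r (primeLocalToGlobal q.1 τ • x)) : (Omega q.1)ˣ) : Omega q.1) = _
      rw [show f.toMul.1 q (r (primeLocalToGlobal q.1 τ • x)) =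
          f.toMul.1 q (primeLocalToGlobal q.1 τ • r x) from
        (D.shift_fixed_iff _).1 (hfix q) _ _ (by rw [hr, D.proj_smul, hr])]
      exact f.toMul.2 q (Set.mem_univ q) τ (r x)
    · exact Additive.toMul.injective (Subtype.ext (funext fun q => funext fun y => hpull q y))
  · rintro ⟨F, rfl⟩
    refine sub_eq_zero.2 (Additive.toMul.injective (Subtype.ext (funext fun q => funext fun y => ?_)))
    show F.toMul.1 q (D.proj (D.shift y)) = F.toMul.1 q (D.proj y)
    rw [D.proj_shift]

/-- The norm map as an element of `∏_{v ∣ S} L_vˣ`. -/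
lemma normFun_mem_placePts {q : Nat.Primes} {f : GQ ⧸ U' → (Omega q)ˣ} (hf : f ∈ placePts q U') :
    normFun D.le f ∈ placePts q U := by
  intro τ x
  obtain ⟨y, rfl⟩ := D.proj_surjective x
  rw [← D.proj_smul, show normFun D.le f (D.proj (primeLocalToGlobal q τ • y)) = _ from
    D.finprod_fibre f _, show normFun D.le f (D.proj y) = _ from D.finprod_fibre f _,
    Units.coe_prod, Units.coe_prod, map_prod]
  exact Finset.prod_congr rfl fun i _ => by rw [D.shift_iterate_smul]; exact hf τ _

/-- `g = pull ∘ norm`. -/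
lemma g_apply_eq_pull (f : Additive ↥(placeS S U')) :
    (D.placePair S).g f = D.pullPlace S (Additive.ofMul
      ⟨fun q => normFun D.le (f.toMul.1 q),
        fun q _ => D.normFun_mem_placePts (f.toMul.2 q (Set.mem_univ q))⟩) := by
  refine Additive.toMul.injective (Subtype.ext (funext fun q => funext fun y => ?_))
  rw [D.placePair_g_apply]
  exact (D.finprod_fibre _ y).symm

/-- Membership of `γ a`. -/
lemma gen_mem_fixedUnits {a : (AlgebraicClosure ℚ)ˣ} (ha : a ∈ fixedUnits U') :
    Units.map D.gen.toRingEquiv.toRingHom.toMonoidHom a ∈ fixedUnits U' := fun g hg => by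
  show g (D.gen (a : AlgebraicClosure ℚ)) = D.gen (a : AlgebraicClosure ℚ)
  have h := ha _ (D.conj_mem' D.gen_mem hg)
  rw [AlgEquiv.mul_apply, AlgEquiv.mul_apply] at h
  have h2 := congrArg D.gen h
  rwa [← AlgEquiv.mul_apply D.gen D.gen⁻¹, mul_inv_cancel, AlgEquiv.one_apply] at h2

lemma diag_gen (q : Nat.Primes) {a : (AlgebraicClosure ℚ)ˣ} (ha : a ∈ fixedUnits U')
    (y : GQ ⧸ U') :
    diag q U' (Units.map D.gen.toRingEquiv.toRingHom.toMonoidHom a) y =
      diag q U' a (D.shift y) := by
  induction y using QuotientGroup.induction_on with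
  | _ g =>
    refine Units.ext ?_
    rw [D.shift_mk, diag_mk q (D.gen_mem_fixedUnits ha), diag_mk q ha, AlgEquiv.mul_apply]
    rfl

lemma gen_mem_sUnits {a : (AlgebraicClosure ℚ)ˣ} (ha : a ∈ sUnits S U') :
    Units.map D.gen.toRingEquiv.toRingHom.toMonoidHom a ∈ sUnits S U' :=
  ⟨D.gen_mem_fixedUnits ha.1, fun q hq y => by rw [D.diag_gen q ha.1]; exact ha.2 q hq _⟩

/-- The generator acting on `S`-units. -/
def shiftUnits : AddMonoid.End (Additive ↥(sUnits S U')) :=
  MonoidHom.toAdditive
    { toFun := fun a => ⟨_, D.gen_mem_sUnits S a.2⟩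
      map_one' := Subtype.ext (map_one _)
      map_mul' := fun _ _ => Subtype.ext (map_mul _ _ _) }

lemma shiftUnits_iterate_apply (i : ℕ) (a : Additive ↥(sUnits S U')) :
    ((((⇑(D.shiftUnits S))^[i] a).toMul.1 : (AlgebraicClosure ℚ)ˣ) : AlgebraicClosure ℚ) =
      (D.gen ^ i) (a.toMul.1 : AlgebraicClosure ℚ) := by
  induction i with
  | zero => simp
  | succ i ih =>
    rw [Function.iterate_succ_apply', pow_succ', AlgEquiv.mul_apply, ← ih]
    rfl

lemma shiftUnits_iterate_prime (a : Additive ↥(sUnits S U')) :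
    (⇑(D.shiftUnits S))^[p] a = a := by
  refine Additive.toMul.injective (Subtype.ext (Units.ext ?_))
  rw [D.shiftUnits_iterate_apply]
  exact a.toMul.2.1 _ D.pow_prime_mem

/-- The Herbrand pair of the `S`-units. -/
def unitsPair : HerbrandPair (Additive ↥(sUnits S U')) :=
  cycPair (D.shiftUnits S) p (D.shiftUnits_iterate_prime S)

omit D in
/-- The diagonal map on `S`-units. -/
def sDiag (S : Finset Nat.Primes) (U' : Subgroup GQ) :
    Additive ↥(sUnits S U') →+ Additive ↥(placeS S U') :=
  MonoidHom.toAdditive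
    { toFun := fun a => ⟨fun q => diag q.1 U' a.1,
        fun q _ => stepDiag_mem_placePts q.1 a.2.1⟩
      map_one' := Subtype.ext (funext fun q => map_one (diag q.1 U'))
      map_mul' := fun _ _ => Subtype.ext (funext fun q => map_mul (diag q.1 U') _ _) }

lemma sDiag_hom : HerbrandPair.Hom (D.unitsPair S) (D.placePair S) (sDiag S U') :=
  cycPair_hom _ _ _ fun a => Additive.toMul.injective
    (Subtype.ext (funext fun q => funext fun y => D.diag_gen q.1 a.toMul.2.1 y))

/-- Some element of the fixed field of `U'` has all the required local sums non-zero. -/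
lemma exists_sum_ne_zero (hU' : IsLevelSubgroup Levels.all (MonoidHom.id GQ) U') {ι : Type*}
    [Finite ι] (q : ι → Nat.Primes) (g : ι → GQ) (c : ∀ i, Fin p → Omega (q i))
    (hc : ∀ i, c i ≠ 0) :
    ∃ a : IntermediateField.fixedField U', ∀ i,
      ∑ j, c i j * padicEmbedding (q i : ℕ) ((g i * D.gen ^ (j : ℕ)) (a : AlgebraicClosure ℚ))
        ≠ 0 := by
  let ev : ∀ i, IntermediateField.fixedField U' →ₗ[ℚ] Omega (q i) := fun i =>
    { toFun := fun a =>
        ∑ j, c i j * padicEmbedding (q i : ℕ) ((g i * D.gen ^ (j : ℕ)) (a : AlgebraicClosure ℚ))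
      map_add' := fun a b => by simp [map_add, mul_add, Finset.sum_add_distrib]
      map_smul' := fun m a => by
        simp only [IntermediateField.coe_smul, map_rat_smul, mul_smul_comm, Finset.smul_sum,
          RingHom.id_apply] }
  suffices h : ∀ i, LinearMap.ker (ev i) ≠ ⊤ by
    obtain ⟨a, ha⟩ := Submodule.exists_forall_notMem_of_forall_ne_top _ h
    exact ⟨a, ha⟩
  intro i htop
  refine hc i ?_
  obtain ⟨F, hF, hFU⟩ := hU'
  have : FiniteDimensional ℚ F := hF
  have hfix := fixingSubgroup_fixedField_of_le (F := F) (H := U') hFU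
  let χ : Fin p → IntermediateField.fixedField U' →* Omega (q i) := fun j =>
    (((padicEmbedding (q i : ℕ)).comp (g i * D.gen ^ (j : ℕ)).toAlgHom).comp
      (IntermediateField.fixedField U').val).toRingHom.toMonoidHom
  have hχ : Function.Injective χ := by
    intro j k hjk
    by_contra hne
    have key : (D.gen ^ (j : ℕ))⁻¹ * D.gen ^ (k : ℕ) ∈ U' := by
      apply hfix.le
      rw [IntermediateField.mem_fixingSubgroup_iff]
      intro x hx
      have h1 := DFunLike.congr_fun hjk ⟨x, hx⟩
      have h2 : (g i * D.gen ^ (j : ℕ)) x = (g i * D.gen ^ (k : ℕ)) x :=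
        (padicEmbedding (q i : ℕ)).toRingHom.injective h1
      rw [AlgEquiv.mul_apply, AlgEquiv.mul_apply] at h2
      rw [AlgEquiv.mul_apply, ← (g i).injective h2, ← AlgEquiv.mul_apply, inv_mul_cancel,
        AlgEquiv.one_apply]
    refine hne (Fin.ext ((D.shift_iterate_eq_iff j.2 k.2 (QuotientGroup.mk (1 : GQ))).1 ?_))
    rw [D.shift_iterate_mk, D.shift_iterate_mk, one_mul, one_mul, QuotientGroup.eq]
    exact key
  have hli := (linearIndependent_monoidHom (IntermediateField.fixedField U') (Omega (q i))).comp χ hχ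
  rw [Fintype.linearIndependent_iff] at hli
  funext j
  refine hli (c i) (funext fun a => ?_) j
  have : ev i a = 0 := by rw [← LinearMap.mem_ker]; exact htop ▸ Submodule.mem_top
  simpa [ev, χ, Finset.sum_apply] using this

set_option maxHeartbeats 400000 in
/-- Hilbert 90 for `∏_{v ∣ S} L'_vˣ`. -/
lemma exists_shift_div (hU' : IsLevelSubgroup Levels.all (MonoidHom.id GQ) U')
    (f : Additive ↥(placeS S U')) (hf : (D.placePair S).g f = 0) :
    ∃ b, (D.placePair S).f b = f := by
  classical
  have : Finite (GQ ⧸ U') := by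
    obtain ⟨F, hF, hFU⟩ := hU'
    have : FiniteDimensional ℚ F := hF
    have := finiteIndex_fixingSubgroup F
    have hle : F.fixingSubgroup ≤ U' := hFU
    have := Subgroup.finiteIndex_of_le hle
    exact Subgroup.finite_quotient_of_finiteIndex
  have : NeZero p := ⟨D.prime.ne_zero⟩
  let F : ∀ q : ↥S, GQ ⧸ U' → ℕ → Omega q.1 := fun q y j =>
    ∏ i ∈ Finset.range j, ((f.toMul.1 q (D.shift^[i] y) : (Omega q.1)ˣ) : Omega q.1)
  obtain ⟨a, ha⟩ := D.exists_sum_ne_zero hU' (ι := ↥S × (GQ ⧸ U')) (fun i => i.1.1)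
    (fun i => Quotient.out i.2) (fun i j => F i.1 i.2 j)
    (fun i h => by
      have h0 := congrFun h ⟨0, D.prime.pos⟩
      simp only [F, Finset.range_zero, Finset.prod_empty, Pi.zero_apply] at h0
      exact one_ne_zero h0)
  let B : ∀ q : ↥S, GQ ⧸ U' → Omega q.1 := fun q y => ∑ j ∈ Finset.range p,
    F q y j * padicEmbedding (q.1 : ℕ)
      ((Quotient.out (D.shift^[j] y) : GQ) (a : AlgebraicClosure ℚ))
  have hout : ∀ (g : GQ), (Quotient.out (QuotientGroup.mk g : GQ ⧸ U') : GQ) (a : AlgebraicClosure ℚ)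
      = g (a : AlgebraicClosure ℚ) := fun g => by
    obtain ⟨h, hh⟩ := QuotientGroup.mk_out_eq_mul U' g
    rw [hh, AlgEquiv.mul_apply]
    exact congrArg g (a.2 h)
  have hB : ∀ (q : ↥S) (y : GQ ⧸ U'), B q y ≠ 0 := fun q y => by
    have := ha (q, y)
    rw [Fin.sum_univ_eq_sum_range (fun j => F q y j * padicEmbedding (q.1 : ℕ)
      ((Quotient.out y * D.gen ^ j : GQ) (a : AlgebraicClosure ℚ))) p] at this
    convert this using 1
    refine Finset.sum_congr rfl fun j _ => ?_
    congr 2
    conv_lhs => rw [← QuotientGroup.out_eq' y, D.shift_iterate_mk]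
    exact hout _
  have hF : ∀ (q : ↥S) (τ : primeLocalGaloisGroup q.1) y (j : ℕ),
      F q (primeLocalToGlobal q.1 τ • y) j = locAct q.1 τ (F q y j) := fun q τ y j => by
    show ∏ i ∈ Finset.range j, _ = locAct q.1 τ (∏ i ∈ Finset.range j, _)
    rw [map_prod]
    refine Finset.prod_congr rfl fun i _ => ?_
    rw [D.shift_iterate_smul]
    exact f.toMul.2 q (Set.mem_univ q) τ _
  have hequiv : ∀ (q : ↥S) (τ : primeLocalGaloisGroup q.1) y,
      B q (primeLocalToGlobal q.1 τ • y) = locAct q.1 τ (B q y) := fun q τ y => by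
    refine Eq.trans (Finset.sum_congr rfl fun j _ => ?_) (map_sum (locAct q.1 τ) _ _).symm
    refine Eq.trans (congrArg₂ (· * ·) (hF q τ y j) ?_) (map_mul (locAct q.1 τ) _ _).symm
    rw [D.shift_iterate_smul]
    exact padicEmb_out_smul q.1 τ _ a
  have hrec : ∀ (q : ↥S) (y : GQ ⧸ U'), ((f.toMul.1 q y : (Omega q.1)ˣ) : Omega q.1) * B q (D.shift y) = B q y := by
    intro q y
    have hprod : ∏ i ∈ Finset.range p,
        ((f.toMul.1 q (D.shift^[i] y) : (Omega q.1)ˣ) : Omega q.1) = 1 := by
      rw [← Units.coe_prod, ← D.placePair_g_apply, hf]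
      rfl
    have hstep : ∀ j, ((f.toMul.1 q y : (Omega q.1)ˣ) : Omega q.1) * F q (D.shift y) j
        = F q y (j + 1) := fun j => by
      simp only [F, Finset.prod_range_succ', Function.iterate_zero_apply, mul_comm,
        Function.iterate_succ_apply]
    simp only [B, Finset.mul_sum, ← mul_assoc, hstep, ← Function.iterate_succ_apply]
    let T : ℕ → Omega q.1 := fun j => F q y j *
      padicEmbedding (q.1 : ℕ) ((Quotient.out (D.shift^[j] y) : GQ) (a : AlgebraicClosure ℚ))
    show ∑ j ∈ Finset.range p, T (j + 1) = ∑ j ∈ Finset.range p, T j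
    have hT : T p = T 0 := by
      simp only [T, F, hprod, D.shift_iterate_prime, Function.iterate_zero_apply,
        Finset.range_zero, Finset.prod_empty]
    have h1 := Finset.sum_range_succ' T p
    rw [Finset.sum_range_succ, hT, add_left_inj] at h1
    exact h1.symm
  refine ⟨-Additive.ofMul ⟨fun q y => Units.mk0 (B q y) (hB q y),
    fun q _ τ y => hequiv q τ y⟩, ?_⟩
  refine Additive.toMul.injective (Subtype.ext (funext fun q => funext fun y => Units.ext ?_))
  show ((Units.mk0 (B q (D.shift y)) (hB q _))⁻¹ / (Units.mk0 (B q y) (hB q y))⁻¹ :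
    (Omega q.1)ˣ).val = _
  rw [Units.val_div_eq_div_val, Units.val_inv_eq_inv_val, Units.val_inv_eq_inv_val, Units.val_mk0,
    Units.val_mk0, div_inv_eq_mul, ← hrec q y, mul_comm, mul_assoc, mul_inv_cancel₀ (hB q _),
    mul_one]

end CosetStep

end Fermat.Agent.CFT
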