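import Fermat.Agent.CFT.Global.PlaceBasic
import Fermat.Agent.CFT.Global.StepModules
import Fermat.Agent.CFT.LocalInst.NormIndex

/-!
# The norm index of a step at one place
-/

set_option autoImplicit false

open groupCohomology ExtCitation

noncomputable section

namespace Fermat.Agent.CFT

variable {U' U : Subgroup GQ} {q : Nat.Primes}

/-- The stabiliser of a point of `GQ ⧸ U'` is a local level. -/
theorem isLocLevel_placeStab (hU' : IsLevelSubgroup Levels.all (MonoidHom.id GQ) U')
    (y : GQ ⧸ U') : IsLocLevel q (placeStab q U' y) := by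
  obtain ⟨F, hF, hFU⟩ := hU'
  obtain ⟨g, rfl⟩ := QuotientGroup.mk_surjective y
  have : FiniteDimensional ℚ F := hF
  have : FiniteDimensional ℚ ↥(F.map g.toAlgHom) :=
    FiniteDimensional.of_surjective (F.intermediateFieldMap g).toLinearMap
      (F.intermediateFieldMap g).surjective
  refine ⟨F.map g.toAlgHom, (inferInstance : FiniteDimensional ℚ _), fun τ hτ => ?_⟩
  show primeLocalToGlobal q τ • (QuotientGroup.mk g : GQ ⧸ U') = QuotientGroup.mk g
  rw [MulAction.Quotient.smul_mk, eq_comm, QuotientGroup.eq, smul_eq_mul]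
  refine hFU _ ?_
  show g⁻¹ * (primeLocalToGlobal q τ * g) ∈ F.fixingSubgroup
  rw [IntermediateField.mem_fixingSubgroup_iff] at hτ ⊢
  intro a ha
  have := hτ _ ((IntermediateField.mem_map _).2 ⟨a, ha, rfl⟩)
  rw [AlgEquiv.mul_apply, AlgEquiv.mul_apply,
    show primeLocalToGlobal q τ (g a) = g a from this]
  exact g.symm_apply_apply a

/-- The norm, evaluated at `x`. -/
def normAt (h : U' ≤ U) [Finite (GQ ⧸ U')] (q : Nat.Primes) (x : GQ ⧸ U) :
    (GQ ⧸ U' → (Omega q)ˣ) →* (Omega q)ˣ where
  toFun g := normFun h g x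
  map_one' := by rw [normFun_one]; rfl
  map_mul' g g' := by rw [normFun_mul]; rfl

/-- The norms from the places over `x`. -/
def normsAt (h : U' ≤ U) [Finite (GQ ⧸ U')] (q : Nat.Primes) (x : GQ ⧸ U) :
    Subgroup (Omega q)ˣ :=
  (placePts q U').map (normAt h q x)

theorem normsAt_le (h : U' ≤ U) [Finite (GQ ⧸ U')] (x : GQ ⧸ U) :
    normsAt h q x ≤ locUnits q (placeStab q U x) := by
  rintro _ ⟨g, hg, rfl⟩
  exact placePts_apply_mem (normFun_mem_placePts h hg) x

namespace CosetStep

variable {p : ℕ} (D : CosetStep p U' U)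
include D

lemma quotProj_shift_iterate (i : ℕ) (y : GQ ⧸ U') :
    quotProj D.le (D.shift^[i] y) = quotProj D.le y :=
  D.proj_shift_iterate i y

lemma exists_shift_of_quotProj_eq {y y' : GQ ⧸ U'} (h : quotProj D.le y' = quotProj D.le y) :
    ∃ i < p, D.shift^[i] y = y' :=
  D.exists_iterate_of_proj_eq h

/-- If `shift y` is not in the local orbit of `y`, the stabiliser fixes the whole fibre. -/
lemma fixes_fibre_of_not_samePlace {y : GQ ⧸ U'} (hy : ¬ samePlace q y (D.shift y))
    {τ : primeLocalGaloisGroup q} (hτ : τ ∈ placeStab q U (quotProj D.le y))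
    {y' : GQ ⧸ U'} (hy' : quotProj D.le y' = quotProj D.le y) :
    primeLocalToGlobal q τ • y' = y' := by
  have hτ' : primeLocalToGlobal q τ • quotProj D.le y = quotProj D.le y := hτ
  obtain ⟨i, hi, hiy⟩ := D.exists_shift_of_quotProj_eq
    (y := y) (y' := primeLocalToGlobal q τ • y) (by rw [quotProj_smul, hτ'])
  have hi0 : i = 0 := by
    by_contra hi0
    apply hy
    have hpow : ∀ k : ℕ, primeLocalToGlobal q (τ ^ k) • y = D.shift^[i * k] y := fun k => by
      induction k with
      | zero => simp
      | succ k ih =>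
        rw [pow_succ', map_mul, mul_smul, ih, ← D.shift_iterate_smul, ← hiy,
          ← Function.iterate_add_apply, Nat.mul_succ]
    obtain ⟨k, hk⟩ : ∃ k : ℕ, (i * k) % p = 1 := by
      have hcop : Nat.Coprime i p :=
        Nat.Coprime.symm (D.prime.coprime_iff_not_dvd.2 fun h =>
          absurd (Nat.le_of_dvd (Nat.pos_of_ne_zero hi0) h) (by omega))
      obtain ⟨k, -, hk⟩ := Nat.exists_mul_mod_eq_one_of_coprime hcop D.prime.one_lt
      exact ⟨k, hk⟩
    refine ⟨τ ^ k, ?_⟩
    rw [hpow, ← Nat.mod_add_div (i * k) p, hk, add_comm, Function.iterate_add_apply]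
    have hper : ∀ m z, D.shift^[p * m] z = z := fun m z => by
      induction m with
      | zero => rfl
      | succ m ih => rw [Nat.mul_succ, Function.iterate_add_apply, D.shift_iterate_prime, ih]
    rw [hper]
    simp
  subst hi0
  obtain ⟨j, -, rfl⟩ := D.exists_shift_of_quotProj_eq hy'
  rw [← D.shift_iterate_smul, ← hiy]
  rfl

lemma fixes_fibre_split {x : GQ ⧸ U} {y : GQ ⧸ U'} (hyx : quotProj D.le y = x)
    (hy : ¬ samePlace q y (D.shift y)) :
    ∀ τ ∈ placeStab q U x, ∀ y', quotProj D.le y' = x → primeLocalToGlobal q τ • y' = y' := by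
  subst hyx
  exact fun τ hτ y' hy' => D.fixes_fibre_of_not_samePlace hy hτ hy'

/-- Split place: everything is a norm. -/
lemma normsAt_eq_of_split [Finite (GQ ⧸ U')] {x : GQ ⧸ U} {y : GQ ⧸ U'}
    (hyx : quotProj D.le y = x) (hy : ¬ samePlace q y (D.shift y)) :
    normsAt D.le q x = locUnits q (placeStab q U x) := by
  refine le_antisymm (normsAt_le D.le x) fun z hz => ?_
  obtain ⟨g, hg, hgx⟩ := exists_norm_split D.le (D.fixes_fibre_split hyx hy) hz
  exact ⟨g, hg, hgx⟩

lemma stab_transitive {x : GQ ⧸ U} {y : GQ ⧸ U'} (hyx : quotProj D.le y = x)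
    (hy : samePlace q y (D.shift y)) {y' : GQ ⧸ U'} (hy' : quotProj D.le y' = x) :
    ∃ τ ∈ placeStab q U x, primeLocalToGlobal q τ • y = y' := by
  subst hyx
  obtain ⟨τ, hτ⟩ := hy
  have hτU : τ ∈ placeStab q U (quotProj D.le y) := by
    show primeLocalToGlobal q τ • quotProj D.le y = quotProj D.le y
    rw [← quotProj_smul, hτ]
    exact D.proj_shift y
  obtain ⟨i, -, rfl⟩ := D.exists_shift_of_quotProj_eq hy'
  refine ⟨τ ^ i, pow_mem hτU i, ?_⟩
  clear hy'
  induction i with
  | zero => simp
  | succ i ih =>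
    rw [pow_succ', map_mul, mul_smul, ih, ← D.shift_iterate_smul, hτ, Function.iterate_succ_apply]

lemma placeStab_le (y : GQ ⧸ U') :
    placeStab q U' y ≤ placeStab q U (quotProj D.le y) := fun τ hτ => by
  have h : primeLocalToGlobal q τ • y = y := hτ
  show primeLocalToGlobal q τ • quotProj D.le y = quotProj D.le y
  rw [← quotProj_smul, h]

lemma placeStab_normal (y : GQ ⧸ U') :
    ((placeStab q U' y).subgroupOf (placeStab q U (quotProj D.le y))).Normal := by
  constructor
  intro h hh v
  rw [Subgroup.mem_subgroupOf] at hh ⊢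
  have hh' : primeLocalToGlobal q (h : primeLocalGaloisGroup q) • y = y := hh
  have hv : primeLocalToGlobal q (v : primeLocalGaloisGroup q) • quotProj D.le y =
      quotProj D.le y := v.2
  obtain ⟨i, -, hi⟩ := D.exists_shift_of_quotProj_eq (y := y)
    (y' := (primeLocalToGlobal q (v : primeLocalGaloisGroup q))⁻¹ • y)
    (by rw [quotProj_smul, inv_smul_eq_iff, hv])
  show primeLocalToGlobal q ((v : primeLocalGaloisGroup q) * h * (v : primeLocalGaloisGroup q)⁻¹)
    • y = y
  rw [map_mul, map_mul, map_inv, mul_smul, mul_smul, ← hi, ← D.shift_iterate_smul, hh', hi,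
    smul_inv_smul]

/-- At a non-split place the local step has index `p` and its norms are the local norms. -/
theorem normsAt_of_samePlace_aux [Finite (GQ ⧸ U')] {y : GQ ⧸ U'}
    (hy : samePlace q y (D.shift y)) :
    (placeStab q U' y).relIndex (placeStab q U (quotProj D.le y)) = p ∧
      normsAt D.le q (quotProj D.le y) =
        locNormSubgroup q (placeStab q U' y) (placeStab q U (quotProj D.le y)) := by
  classical
  set V := placeStab q U (quotProj D.le y)
  set V' := placeStab q U' y with hV'
  have hle : V' ≤ V := D.placeStab_le y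
  have hn := D.placeStab_normal (q := q) y
  let ψ : ↥V ⧸ V'.subgroupOf V → projFibre D.le (quotProj D.le y) := fun u =>
    Quotient.liftOn' u
      (fun τ => ⟨primeLocalToGlobal q (τ : primeLocalGaloisGroup q) • y, by
        have h : primeLocalToGlobal q (τ : primeLocalGaloisGroup q) • quotProj D.le y =
          quotProj D.le y := τ.2
        rw [mem_projFibre, quotProj_smul, h]⟩)
      fun a b hab => by
        rw [QuotientGroup.leftRel_apply, Subgroup.mem_subgroupOf] at hab
        have h : primeLocalToGlobal q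
            (((a : primeLocalGaloisGroup q))⁻¹ * (b : primeLocalGaloisGroup q)) • y = y := hab
        rw [map_mul, map_inv, mul_smul, inv_smul_eq_iff] at h
        exact Subtype.ext h.symm
  have hψ : Function.Bijective ψ := by
    refine ⟨fun a b hab => ?_, fun z => ?_⟩
    · induction a using QuotientGroup.induction_on with
      | _ a =>
        induction b using QuotientGroup.induction_on with
        | _ b =>
          have h : primeLocalToGlobal q (a : primeLocalGaloisGroup q) • y =
              primeLocalToGlobal q (b : primeLocalGaloisGroup q) • y := congrArg Subtype.val hab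
          rw [QuotientGroup.eq, Subgroup.mem_subgroupOf]
          show primeLocalToGlobal q _ • y = y
          rw [Subgroup.coe_mul, Subgroup.coe_inv, map_mul, map_inv, mul_smul, inv_smul_eq_iff, h]
    · obtain ⟨τ, hτ, hτz⟩ := D.stab_transitive rfl hy ((mem_projFibre D.le).1 z.2)
      exact ⟨QuotientGroup.mk ⟨τ, hτ⟩, Subtype.ext hτz⟩
  have hidx : V'.relIndex V = p := by
    rw [Subgroup.relIndex, Subgroup.index, Nat.card_eq_of_bijective ψ hψ, Nat.card_eq_finsetCard,
      card_projFibre, D.index]
  have : Fintype (↥V ⧸ V'.subgroupOf V) :=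
    Fintype.ofBijective (fun z => (Equiv.ofBijective ψ hψ).symm z)
      (Equiv.ofBijective ψ hψ).symm.bijective
  have hnorm : ∀ g ∈ placePts q U',
      ((normFun D.le g (quotProj D.le y) : (Omega q)ˣ) : Omega q) = locNorm q V' V (g y) := by
    intro g hg
    rw [normFun_eq_prod, Units.coe_prod, locNorm, finprod_eq_prod_of_fintype,
      ← Finset.prod_coe_sort]
    refine (Fintype.prod_bijective ψ hψ _ _ fun u => ?_).symm
    induction u using QuotientGroup.induction_on with
    | _ τ =>
      obtain ⟨w, hw⟩ := QuotientGroup.mk_out_eq_mul (V'.subgroupOf V) τ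
      have hw' : primeLocalToGlobal q ((w : ↥V) : primeLocalGaloisGroup q) • y = y :=
        Subgroup.mem_subgroupOf.1 w.2
      show locAct q ((Quotient.out (QuotientGroup.mk τ : ↥V ⧸ V'.subgroupOf V) : ↥V) :
          primeLocalGaloisGroup q) (g y : Omega q) = (g (primeLocalToGlobal q _ • y) : Omega q)
      rw [show (Quotient.out (QuotientGroup.mk τ : ↥V ⧸ V'.subgroupOf V) : ↥V) = τ * w from hw,
        ← hg, Subgroup.coe_mul, map_mul, mul_smul, hw']
  have heq : normsAt D.le q (quotProj D.le y) = locNormSubgroup q V' V := by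
    refine le_antisymm ?_ ?_
    · rintro _ ⟨g, hg, rfl⟩
      exact Subgroup.subset_closure ⟨g y, placePts_apply_mem hg y, hnorm g hg⟩
    · rw [locNormSubgroup, Subgroup.closure_le]
      rintro b ⟨a, ha, hb⟩
      obtain ⟨g, hg, hgy, -⟩ := exists_placePts_extend ha
      refine ⟨g, hg, Units.ext ?_⟩
      show ((normFun D.le g (quotProj D.le y) : (Omega q)ˣ) : Omega q) = b
      rw [hnorm g hg, hgy, hb]
  exact ⟨hidx, heq⟩

/-- Non-split place: the norms have index `p`. -/
theorem relIndex_normsAt_of_samePlace [Fact p.Prime] [Finite (GQ ⧸ U')]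
    (hU' : IsLevelSubgroup Levels.all (MonoidHom.id GQ) U') {x : GQ ⧸ U} {y : GQ ⧸ U'}
    (hyx : quotProj D.le y = x) (hy : samePlace q y (D.shift y)) :
    (normsAt D.le q x).relIndex (locUnits q (placeStab q U x)) = p := by
  subst hyx
  obtain ⟨hidx, heq⟩ := D.normsAt_of_samePlace_aux hy
  rw [heq]
  exact LocalInst.locNorm_index (isLocLevel_placeStab hU' y) (D.placeStab_le y)
    (D.placeStab_normal y) hidx

end CosetStep

end Fermat.Agent.CFT
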