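import Fermat.Agent.CFT.Global.AuxTarget
import Fermat.Agent.CFT.Global.StepLocalIndex

/-!
# The number of `p`-th power classes of `∏_{v ∣ S} L_vˣ`
-/

set_option autoImplicit false

open groupCohomology ExtCitation NumberField IsDedekindDomain

noncomputable section

namespace Fermat.Agent.CFT

variable {p : ℕ} [Fact p.Prime] {U : Subgroup GQ}

/-- The local orbits on `GQ ⧸ U`. -/
abbrev placeSetoid (q : Nat.Primes) (U : Subgroup GQ) : Setoid (GQ ⧸ U) :=
  ⟨samePlace q, samePlace_equivalence⟩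

/-- The places over `q`. -/
abbrev PlaceCl (q : Nat.Primes) (U : Subgroup GQ) : Type := Quotient (placeSetoid q U)

theorem samePlace_out_mk (q : Nat.Primes) (x : GQ ⧸ U) :
    samePlace q (Quotient.out (Quotient.mk (placeSetoid q U) x)) x :=
  Quotient.exact (Quotient.out_eq (Quotient.mk (placeSetoid q U) x))

/-- The `p`-th powers in `∏_{v ∣ S} L_vˣ`. -/
def powS (p : ℕ) (S : Finset Nat.Primes) (U : Subgroup GQ) :
    Subgroup (∀ q : ↥S, GQ ⧸ U → (Omega q.1)ˣ) :=
  (placeS S U).map (powMonoidHom p)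

omit [Fact p.Prime] in
theorem powS_le (S : Finset Nat.Primes) : powS p S U ≤ placeS S U := by
  rintro _ ⟨f, hf, rfl⟩
  exact pow_mem hf p

omit [Fact p.Prime] in
/-- Powers may be checked place by place. -/
theorem mem_powS_of_forall [Finite (GQ ⧸ U)] {S : Finset Nat.Primes}
    {f : ∀ q : ↥S, GQ ⧸ U → (Omega q.1)ˣ} (hf : f ∈ placeS S U)
    (h : ∀ q : ↥S, ∀ c : PlaceCl q.1 U, f q c.out ∈ powAt p q.1 U c.out) : f ∈ powS p S U := by
  classical
  haveI := fun q : ↥S => Fintype.ofFinite (PlaceCl q.1 U)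
  choose w hw hwp using h
  choose F hF hFx hF1 using fun (q : ↥S) (c : PlaceCl q.1 U) => exists_placePts_extend (hw q c)
  refine ⟨fun q => ∏ c, F q c, fun q _ => Subgroup.prod_mem _ fun c _ => hF q c, ?_⟩
  funext q y
  show (∏ c, F q c) y ^ p = f q y
  set c₀ := Quotient.mk (placeSetoid q.1 U) y
  rw [Finset.prod_apply, Finset.prod_eq_single c₀]
  · obtain ⟨τ, hτ⟩ := samePlace_out_mk q.1 y
    rw [← hτ, placePts_apply (hF q c₀), placePts_apply (hf q (Set.mem_univ q)), ← map_pow, hFx]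
    exact congrArg _ (hwp q c₀)
  · intro c _ hne
    refine hF1 q c y fun hcy => hne ?_
    rw [← Quotient.out_eq c]
    exact Quotient.sound hcy
  · exact fun h => absurd (Finset.mem_univ _) h

theorem index_placeStab (q : Nat.Primes) [Finite (GQ ⧸ U)] (x : GQ ⧸ U) :
    (placeStab q U x).index = Nat.card {y // samePlace q x y} := by
  letI := MulAction.compHom (GQ ⧸ U) (primeLocalToGlobal q)
  have hs : MulAction.stabilizer (primeLocalGaloisGroup q) x = placeStab q U x := rfl
  rw [← hs, MulAction.index_stabilizer, ← Nat.card_coe_set_eq]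
  rfl

theorem sum_index_placeStab (q : Nat.Primes) [Finite (GQ ⧸ U)] [Fintype (PlaceCl q U)] :
    ∑ c : PlaceCl q U, (placeStab q U c.out).index = U.index := by
  classical
  haveI := Fintype.ofFinite (GQ ⧸ U)
  show _ = Nat.card (GQ ⧸ U)
  rw [Nat.card_congr (Equiv.sigmaFiberEquiv (Quotient.mk (placeSetoid q U))).symm, Nat.card_sigma]
  refine Finset.sum_congr rfl fun c _ => ?_
  rw [index_placeStab]
  refine Nat.card_congr (Equiv.subtypeEquivRight fun y => ?_)
  constructor
  · exact fun h => (Quotient.sound (samePlace_equivalence.symm h)).trans (Quotient.out_eq c)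
  · rintro rfl
    exact samePlace_out_mk q y

variable [NumberField (fxFld U)] [Finite (GQ ⧸ U)]

theorem card_placesAbove (hU : IsLevelSubgroup Levels.all (MonoidHom.id GQ) U)
    (S : Finset Nat.Primes) [∀ q : ↥S, Fintype (PlaceCl q.1 U)] :
    Fintype.card (Σ q : ↥S, PlaceCl q.1 U) = (placesAbove U S).card := by
  classical
  rw [← Fintype.card_coe (placesAbove U S)]
  refine Fintype.card_of_bijective (f := fun z => (⟨placeOf U z.1.1 z.2.out,
    (placeOf_mem_placesAbove_iff hU).2 z.1.2⟩ : ↥(placesAbove U S))) ⟨?_, ?_⟩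
  · rintro ⟨⟨q, hq⟩, c⟩ ⟨⟨q', hq'⟩, c'⟩ h
    obtain ⟨hqq, hsame⟩ := (placeOf_eq_iff hU).1 (congrArg Subtype.val h)
    simp only at hqq hsame
    subst hqq
    have hcc : c = c' := by
      rw [← Quotient.out_eq c, ← Quotient.out_eq c']
      exact Quotient.sound hsame
    rw [hcc]
  · rintro ⟨v, hv⟩
    obtain ⟨q, hq, x, rfl⟩ := mem_placesAbove.1 hv
    exact ⟨⟨⟨q, hq⟩, Quotient.mk _ x⟩,
      Subtype.ext ((placeOf_eq_iff hU).2 ⟨rfl, samePlace_out_mk q x⟩)⟩

/-- At most `p ^ (2 #S + [L : ℚ])` classes. -/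
theorem powS_relIndex_dvd (hU : IsLevelSubgroup Levels.all (MonoidHom.id GQ) U)
    (hμ : ∀ g ∈ U, cycloChar p g = 1) {S : Finset Nat.Primes} (hpS : pPrime p ∈ S) :
    (powS p S U).relIndex (placeS S U) ∣ p ^ (2 * (placesAbove U S).card + U.index) := by
  classical
  haveI := fun q : ↥S => Fintype.ofFinite (PlaceCl q.1 U)
  let Φ : ↥(placeS S U) →* ((z : Σ q : ↥S, PlaceCl q.1 U) →
      locUnits z.1.1 (placeStab z.1.1 U z.2.out) ⧸
        (powAt p z.1.1 U z.2.out).subgroupOf (locUnits z.1.1 (placeStab z.1.1 U z.2.out))) :=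
    MonoidHom.pi fun z => (QuotientGroup.mk' _).comp
      ((((Pi.evalMonoidHom _ z.2.out).comp (Pi.evalMonoidHom _ z.1)).comp
        (placeS S U).subtype).codRestrict _
        fun f => placePts_apply_mem (f.2 z.1 (Set.mem_univ _)) z.2.out)
  have hker : Φ.ker = (powS p S U).subgroupOf (placeS S U) := by
    ext f
    rw [MonoidHom.mem_ker, Subgroup.mem_subgroupOf, funext_iff]
    constructor
    · exact fun h => mem_powS_of_forall f.2 fun q c =>
        Subgroup.mem_subgroupOf.1 ((QuotientGroup.eq_one_iff _).1 (h ⟨q, c⟩))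
    · rintro ⟨F, hF, hFf⟩ z
      refine (QuotientGroup.eq_one_iff _).2 (Subgroup.mem_subgroupOf.2 ?_)
      exact ⟨_, placePts_apply_mem (hF z.1 (Set.mem_univ _)) z.2.out,
        congrFun (congrFun hFf z.1) z.2.out⟩
  have hz : ∀ z : Σ q : ↥S, PlaceCl q.1 U,
      Nat.card (locUnits z.1.1 (placeStab z.1.1 U z.2.out) ⧸
        (powAt p z.1.1 U z.2.out).subgroupOf (locUnits z.1.1 (placeStab z.1.1 U z.2.out))) =
      p ^ (2 + if (z.1.1 : ℕ) = p then (placeStab z.1.1 U z.2.out).index else 0) := by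
    intro z
    rw [← locUnits_pow_index (isLocLevel_placeStab hU _) fun τ hτ => cycloChar_placeStab hμ hτ]
    rw [Subgroup.relIndex, MonoidHom.range_comp, Subgroup.range_subtype]
    rfl
  have hcard : Nat.card ((z : Σ q : ↥S, PlaceCl q.1 U) →
      locUnits z.1.1 (placeStab z.1.1 U z.2.out) ⧸
        (powAt p z.1.1 U z.2.out).subgroupOf (locUnits z.1.1 (placeStab z.1.1 U z.2.out))) =
      p ^ (2 * (placesAbove U S).card + U.index) := by
    rw [Nat.card_pi, Finset.prod_congr rfl fun z _ => hz z, Finset.prod_pow_eq_pow_sum,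
      Finset.sum_add_distrib, Finset.sum_const, Finset.card_univ, card_placesAbove hU S,
      smul_eq_mul, mul_comm _ 2]
    congr 2
    rw [Fintype.sum_sigma, Finset.sum_eq_single ⟨pPrime p, hpS⟩]
    · refine Eq.trans (Finset.sum_congr rfl fun c _ => if_pos rfl) (sum_index_placeStab _)
    · intro q _ hne
      refine Finset.sum_eq_zero fun c _ => if_neg fun e => hne ?_
      exact Subtype.ext (Subtype.ext e)
    · exact fun h => absurd (Finset.mem_univ _) h
  rw [Subgroup.relIndex, ← hker, ← hcard, Subgroup.index_ker (G' := (z : Σ q : ↥S, PlaceCl q.1 U) →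
      locUnits z.1.1 (placeStab z.1.1 U z.2.out) ⧸
        (powAt p z.1.1 U z.2.out).subgroupOf (locUnits z.1.1 (placeStab z.1.1 U z.2.out))) Φ]
  exact Subgroup.card_subgroup_dvd_card _

end Fermat.Agent.CFT
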