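import Fermat.Agent.CFT.Global.StepNorms
import Fermat.Agent.CFT.Global.PlaceCount
import Fermat.Agent.CFT.SUnitsModP

/-!
# The second inequality for Kummer steps
-/

set_option autoImplicit false

open groupCohomology ExtCitation NumberField IsDedekindDomain

noncomputable section

namespace Fermat.Agent.CFT

variable {p : ℕ} [Fact p.Prime] {U' U : Subgroup GQ}

variable (p) in
/-- The statement of the first inequality. -/
def FirstIneqProp : Prop :=
  ∀ (U' U : Subgroup GQ) (h : KummerStep p U' U),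
    ∃ S₀ : Finset Nat.Primes, ∀ S, S₀ ⊆ S → p ∣ (unitsNormS S h.le).relIndex (placeS S U)

/-- The diagonal map into `∏_{v ∣ S} L_vˣ`. -/
def diagS (S : Finset Nat.Primes) (U : Subgroup GQ) :
    fixedUnits U →* (∀ q : ↥S, GQ ⧸ U → (Omega q.1)ˣ) :=
  MonoidHom.pi fun q => (diag q.1 U).comp (fixedUnits U).subtype

omit [Fact p.Prime] in
theorem diag_mem_unitsNormS {S : Finset Nat.Primes} (h : U' ≤ U) {a : fixedUnits U}
    (ha : (a : (AlgebraicClosure ℚ)ˣ) ∈ sUnits S U) : diagS S U a ∈ unitsNormS S h :=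
  Subgroup.subset_closure (Or.inl ⟨a, ha, fun _ => rfl⟩)

omit [Fact p.Prime] in
theorem mem_unitsNormS_of_normsAt (h : U' ≤ U) [Finite (GQ ⧸ U')] {S : Finset Nat.Primes}
    {f : ∀ q : ↥S, GQ ⧸ U → (Omega q.1)ˣ} (hf : f ∈ placeS S U)
    (hloc : ∀ (q : ↥S) x, f q x ∈ normsAt h q.1 x) : f ∈ unitsNormS S h := by
  choose g hg hgn using fun q : ↥S =>
    exists_norm_of_forall h (hf q (Set.mem_univ q)) fun x => hloc q x
  exact Subgroup.subset_closure (Or.inr ⟨g, fun q _ => hg q, fun q => (hgn q).symm⟩)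

omit [Fact p.Prime] in
theorem unitsNormS_le (h : U' ≤ U) [Finite (GQ ⧸ U')] (S : Finset Nat.Primes) :
    unitsNormS S h ≤ placeS S U := by
  refine (Subgroup.closure_le _).2 ?_
  rintro f (⟨a, ha, haf⟩ | ⟨g, hg, hgf⟩) q -
  · rw [haf q]; exact diag_mem_placePts ha.1
  · rw [hgf q]; exact normFun_mem_placePts h (hg q (Set.mem_univ q))

/-- The key step: an element which is a `p`-th power on `S` and a unit outside `S ∪ T` is a
`p`-th power. -/
theorem exists_pow_eq_of_aux (hfirst : FirstIneqProp p) [NumberField (fxFld U)]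
    [Finite (GQ ⧸ U)] (hU : IsLevelSubgroup Levels.all (MonoidHom.id GQ) U)
    (hμ : ∀ g ∈ U, cycloChar p g = 1) {S : Finset Nat.Primes} (hpS : pPrime p ∈ S)
    (hcl : ClassTrivialAt U S) {T : Finset (HeightOneSpectrum (𝓞 (fxFld U)))}
    (hST : Disjoint (placesAbove U S) T)
    (hidx : (Kummer.auxGroup (fxFld U) p (placesAbove U S) T).relIndex
      ((↑(placesAbove U S) : Set (HeightOneSpectrum (𝓞 (fxFld U)))).unit (fxFld U)) = p ^ T.card)
    {e : fixedUnits U}
    (he : ∀ q, q ∉ S → ∀ x, placeOf U q x ∉ T → ‖(diag q U e x : Omega q)‖ = 1)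
    (hpow : ∀ q ∈ S, ∀ x, diag q U e x ∈ powAt p q U x) :
    ∃ y : fixedUnits U, y ^ p = e := by
  classical
  have hp0 := (Fact.out : p.Prime).ne_zero
  obtain ⟨r, hr⟩ := IsAlgClosed.exists_pow_nat_eq
    ((e : (AlgebraicClosure ℚ)ˣ) : AlgebraicClosure ℚ) (Nat.pos_of_ne_zero hp0)
  have hr0 : r ≠ 0 := fun h => (e : (AlgebraicClosure ℚ)ˣ).ne_zero (by rw [← hr, h, zero_pow hp0])
  set α : (AlgebraicClosure ℚ)ˣ := Units.mk0 r hr0
  have hαp : α ^ p = (e : (AlgebraicClosure ℚ)ˣ) := Units.ext (by simpa [α] using hr)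
  by_contra hcon
  have hne : α ∉ fixedUnits U := fun hmem => hcon ⟨⟨α, hmem⟩, Subtype.ext hαp⟩
  obtain ⟨U₁, h₁, hα⟩ := kummerStep_of_root hU hμ (hαp ▸ e.2 : α ^ p ∈ fixedUnits U) hne
  haveI := h₁.finiteQuot
  obtain ⟨S₁, hS₁⟩ := hfirst U₁ U h₁
  set S' := S ∪ S₁
  suffices hle : placeS S' U ≤ unitsNormS S' h₁.le by
    have h1 := hS₁ S' Finset.subset_union_right
    rw [Subgroup.relIndex_eq_one.2 hle] at h1
    exact (Fact.out : p.Prime).ne_one (Nat.dvd_one.1 h1)
  intro f hf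
  let g : ∀ q : Nat.Primes, GQ ⧸ U → (Omega q)ˣ := fun q =>
    if h : q ∈ S' then f ⟨q, h⟩ else 1
  have hg : ∀ q, g q ∈ placePts q U := fun q => by
    simp only [g]
    split_ifs with h
    · exact hf ⟨q, h⟩ (Set.mem_univ _)
    · exact one_mem _
  obtain ⟨a₁, ha₁, ha₁T, ha₁u⟩ := exists_fixed_prescribed hU hcl (S' \ S)
    Finset.disjoint_sdiff g fun q _ => hg q
  have hunit : ∀ q ∉ S, ∀ x, ‖((g q / diag q U a₁) x : Omega q)‖ = 1 := by
    intro q hqS x
    rw [Pi.div_apply, Units.val_div_eq_div_val, norm_div]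
    by_cases hq : q ∈ S'
    · rw [ha₁T q (Finset.mem_sdiff.2 ⟨hq, hqS⟩) x,
        div_self (norm_ne_zero_iff.2 (Units.ne_zero _))]
    · rw [ha₁u q hqS (fun h => hq (Finset.mem_sdiff.1 h).1) x]
      simp [g, hq]
  obtain ⟨ε, hε, hεT⟩ := exists_unit_adjust hU hμ hpS hST hidx
    (fun q => g q / diag q U a₁) fun q x hT =>
      ⟨div_mem (hg q) (diag_mem_placePts ha₁), hunit q
        (fun hq => Finset.disjoint_right.1 hST hT ((placeOf_mem_placesAbove_iff hU).2 hq)) x⟩
  set c : fixedUnits U := ⟨a₁, ha₁⟩ * ⟨ε, hε.1⟩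
  have hc : (c : (AlgebraicClosure ℚ)ˣ) ∈ sUnits S' U := by
    refine ⟨c.2, fun q hq x => ?_⟩
    rw [Finset.notMem_union] at hq
    rw [Subgroup.coe_mul, map_mul, Pi.mul_apply, Units.val_mul, norm_mul,
      ha₁u q hq.1 (fun h => (Finset.mem_union.1 (Finset.mem_sdiff.1 h).1).elim hq.1 hq.2) x,
      hε.2 q hq.1 x, one_mul]
  have hrest : f / diagS S' U c ∈ unitsNormS S' h₁.le := by
    have hfp : f / diagS S' U c ∈ placeS S' U := fun q _ =>
      div_mem (hf q (Set.mem_univ q)) (diag_mem_placePts c.2)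
    refine mem_unitsNormS_of_normsAt h₁.le hfp ?_
    rintro ⟨q, hq⟩ x
    have hz := placePts_apply_mem (hfp ⟨q, hq⟩ (Set.mem_univ _)) x
    by_cases hqS : q ∈ S
    · exact mem_normsAt_of_root_pow h₁ hα (by rw [hαp]; exact hpow q hqS x) hz
    have heq : (f / diagS S' U c) ⟨q, hq⟩ x = (g q / diag q U a₁) x / diag q U ε x := by
      show f ⟨q, hq⟩ x / diag q U (a₁ * ε) x = g q x / diag q U a₁ x / diag q U ε x
      rw [map_mul, Pi.mul_apply, div_mul_eq_div_div]
      simp only [g, dif_pos hq]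
    rw [heq] at hz ⊢
    by_cases hT : placeOf U q x ∈ T
    · exact pow_mem_normsAt h₁ (hεT q x hT)
    · refine mem_normsAt_of_unit h₁ hα
        (fun hqp => hqS ((show q = pPrime p from Subtype.ext hqp) ▸ hpS))
        (by rw [hαp]; exact he q hqS x hT) hz ?_
      rw [Units.val_div_eq_div_val, norm_div, hunit q hqS x, hε.2 q hqS x, div_one]
  have := mul_mem hrest (diag_mem_unitsNormS h₁.le hc)
  rwa [div_mul_cancel] at this

/-- The second inequality, from the first. -/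
theorem second_inequality_of_first (hp2 : p ≠ 2) (hfirst : FirstIneqProp p)
    (h : KummerStep p U' U) :
    ∃ S₀ : Finset Nat.Primes, ∀ S, S₀ ⊆ S →
      (unitsNormS S h.le).relIndex (placeS S U) = p := by
  classical
  have hp0 := (Fact.out : p.Prime).ne_zero
  have hU := h.levelU
  haveI := numberField_fxFld hU
  haveI := numberField_fxFld h.level
  haveI := h.finiteQuot
  haveI := finite_quot_of_isLevelSubgroup hU
  obtain ⟨α, hα, hαne⟩ := h.exists_isKummerRoot
  set a : fixedUnits U := ⟨α ^ p, hα.1⟩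
  obtain ⟨Sa, hSa⟩ := exists_finset_galNorm_eq_one (fxFld U) (fixToField U a : fxFld U)
    (Units.ne_zero _)
  obtain ⟨Sc, hSc⟩ := exists_classTrivialAt hU
  obtain ⟨Sc', hSc'⟩ := exists_classTrivialAt h.level
  obtain ⟨S₁, hS₁⟩ := hfirst U' U h
  refine ⟨insert (pPrime p) (Sa ∪ Sc ∪ Sc' ∪ S₁), fun S hS => ?_⟩
  simp only [Finset.insert_subset_iff, Finset.union_subset_iff] at hS
  obtain ⟨hpS, ⟨⟨hSaS, hScS⟩, hScS'⟩, hS₁S⟩ := hS
  obtain ⟨ζ, hζ⟩ := zetaP_primitive_fxFld h.mu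
  have haS : (a : (AlgebraicClosure ℚ)ˣ) ∈ sUnits S U :=
    ⟨a.2, fun q hq x => hSa q (fun hm => hq (hSaS hm)) _⟩
  have hanp : ∀ y : (fxFld U)ˣ, y ^ p ≠ fixToField U a := by
    intro y hy
    obtain ⟨y', rfl⟩ := (fixToField_bijective U).2 y
    rw [← map_pow] at hy
    have hy' : (y' : (AlgebraicClosure ℚ)ˣ) ^ p = α ^ p :=
      congrArg Subtype.val ((fixToField_bijective U).1 hy)
    obtain ⟨i, hi⟩ := exists_muInc_eq (p := p) (w := α / y')
      (by rw [div_pow, hy', div_self'])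
    refine hαne ?_
    rw [eq_comm, div_eq_iff_eq_mul] at hi
    rw [hi]
    exact mul_mem (pow_mem (zetaP_mem_fixedUnits h.mu) _) y'.2
  obtain ⟨T, hST, hTa, hTcard, hidx⟩ := Kummer.aux_exists hp2 hζ ((mem_sUnits_iff hU a).1 haS) hanp
  -- the units
  set Sk := placesAbove U S
  set E := (↑(Sk ∪ T) : Set (HeightOneSpectrum (𝓞 (fxFld U)))).unit (fxFld U)
  let eqv := MulEquiv.ofBijective (fixToField U) (fixToField_bijective U)
  let ψ : E →* (∀ q : ↥S, GQ ⧸ U → (Omega q.1)ˣ) :=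
    ((diagS S U).comp eqv.symm.toMonoidHom).comp E.subtype
  have hoff : ∀ e : E, ∀ q, q ∉ S → ∀ x, placeOf U q x ∉ T →
      ‖(diag q U (eqv.symm (e : (fxFld U)ˣ) : fixedUnits U) x : Omega q)‖ = 1 := by
    intro e q hq x hT
    refine (valuation_placeOf_eq_one_iff _ q x).1 ?_
    rw [show fixToField U (eqv.symm (e : (fxFld U)ˣ)) = (e : (fxFld U)ˣ) from
      eqv.apply_symm_apply _]
    exact e.2 _ fun hm => (Finset.mem_union.1 (Finset.mem_coe.1 hm)).elim
      (fun hm => hq ((placeOf_mem_placesAbove_iff hU).1 hm)) hT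
  have hker : (powS p S U).comap ψ ≤ (powMonoidHom p : E →* E).range := by
    intro e he
    obtain ⟨F, hF, hFe⟩ := Subgroup.mem_comap.1 he
    obtain ⟨y, hy⟩ := exists_pow_eq_of_aux hfirst hU h.mu hpS (hSc S hScS) hST hidx
      (hoff e) fun q hq x => ⟨_, placePts_apply_mem (hF ⟨q, hq⟩ (Set.mem_univ _)) x,
        congrFun (congrFun hFe ⟨q, hq⟩) x⟩
    have hy2 : fixToField U y ^ p = (e : (fxFld U)ˣ) := by
      rw [← map_pow, hy]; exact eqv.apply_symm_apply _
    have hyE : fixToField U y ∈ E := fun v hv => by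
      have h1 : v.valuation (fxFld U) ((e : (fxFld U)ˣ) : fxFld U) = 1 := e.2 v hv
      rw [← hy2, Units.val_pow_eq_pow_val, map_pow] at h1
      exact (pow_eq_one_iff_of_nonneg zero_le hp0).1 h1
    exact ⟨⟨_, hyE⟩, Subtype.ext hy2⟩
  set r2 := InfinitePlace.nrComplexPlaces (fxFld U)
  have hr2 : U.index = 2 * r2 := by
    rw [← finrank_fixedField hU, ← InfinitePlace.card_add_two_mul_card_eq_rank]
    have h3 : 2 < p := lt_of_le_of_ne (Fact.out : p.Prime).two_le (Ne.symm hp2)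
    rw [InfinitePlace.IsPrimitiveRoot.nrRealPlaces_eq_zero_of_two_lt h3 hζ, zero_add]
  have hEidx : (powMonoidHom p : E →* E).range.index = p ^ (Sk.card + T.card + r2) := by
    rw [supm_index (Sk ∪ T) hp2 hζ, Finset.card_union_of_disjoint hST]
  have hB : p ^ (Sk.card + T.card + r2) ∣ (powS p S U).relIndex ψ.range := by
    rw [← Subgroup.index_comap, ← hEidx]
    exact Subgroup.index_dvd_of_le hker
  have hψle : ψ.range ≤ placeS S U := by
    rintro _ ⟨e, rfl⟩ q -
    exact diag_mem_placePts (eqv.symm (e : (fxFld U)ˣ)).2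
  have hPle : powS p S U ≤ placeS S U := powS_le S
  have hM : (powS p S U ⊔ ψ.range).relIndex (placeS S U) ∣ p := by
    have h1 := Subgroup.relIndex_mul_relIndex _ _ _
      (le_sup_left : powS p S U ≤ powS p S U ⊔ ψ.range) (sup_le hPle hψle)
    rw [sup_comm, Subgroup.relIndex_sup_right, sup_comm] at h1
    have h2 := powS_relIndex_dvd hU h.mu hpS
    rw [← h1, hr2] at h2
    have h3 := (Nat.mul_dvd_mul hB dvd_rfl).trans h2
    rw [show 2 * (placesAbove U S).card + 2 * r2 = (Sk.card + T.card + r2) + 1 by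
      simp only [Sk, r2] at hTcard ⊢; omega, pow_succ] at h3
    exact Nat.dvd_of_mul_dvd_mul_left (Nat.pow_pos (Fact.out : p.Prime).pos) h3
  refine Nat.dvd_antisymm ((Subgroup.relIndex_dvd_of_le_left _ (sup_le ?_ ?_)).trans hM)
    (hS₁ S hS₁S)
  · rintro _ ⟨F, hF, rfl⟩
    refine mem_unitsNormS_of_normsAt h.le (hPle ⟨F, hF, rfl⟩) fun q x => ?_
    exact pow_mem_normsAt h ⟨_, placePts_apply_mem (hF q (Set.mem_univ q)) x, rfl⟩
  -- global elements
  rintro _ ⟨e, rfl⟩
  set e' : fixedUnits U := eqv.symm (e : (fxFld U)ˣ)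
  choose qv xv hv using placeOf_surjective (U := U) hU
  set Tq := T.image qv
  have hTq : ∀ q x, placeOf U q x ∈ T → q ∈ Tq := fun q x hT =>
    Finset.mem_image.2 ⟨_, hT, ((placeOf_eq_iff hU).1 (hv (placeOf U q x))).1⟩
  have hTqS : Disjoint S Tq := Finset.disjoint_left.2 fun q hq hq' => by
    obtain ⟨v, hvT, rfl⟩ := Finset.mem_image.1 hq'
    exact Finset.disjoint_right.1 hST hvT (hv v ▸ (placeOf_mem_placesAbove_iff hU).2 hq)
  have hnorm : ∀ q ∈ Tq, ∃ g ∈ placePts q U', normFun h.le g = diag q U e' := by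
    intro q hq
    have hqS : q ∉ S := Finset.disjoint_right.1 hTqS hq
    have hqp : (q : ℕ) ≠ p := fun e => hqS ((show q = pPrime p from Subtype.ext e) ▸ hpS)
    refine exists_norm_of_forall h.le (diag_mem_placePts e'.2) fun x => ?_
    have hz := placePts_apply_mem (diag_mem_placePts (q := q) e'.2) x
    have ha1 : ‖(diag q U (α ^ p) x : Omega q)‖ = 1 := haS.2 q hqS x
    by_cases hT : placeOf U q x ∈ T
    · exact mem_normsAt_of_root_pow h hα
        ((diag_mem_powAt_iff hU h.mu hqp a ha1).2 (hTa _ hT).2) hz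
    · exact mem_normsAt_of_unit h hα hqp ha1 hz (hoff e q hqS x hT)
  choose! gq hgq hgn using hnorm
  obtain ⟨b, hb, hbT, hbu⟩ := exists_fixed_prescribed h.level (hSc' S hScS') Tq hTqS gq hgq
  set nb : fixedUnits U := ⟨normUnit h.le b, normUnit_mem h.le hb⟩
  have hnb : ∀ q x, ‖(diag q U nb x : Omega q)‖ =
      ∏ y ∈ projFibre h.le x, ‖(diag q U' b y : Omega q)‖ := fun q x => by
    show ‖(diag q U (normUnit h.le b) x : Omega q)‖ = _
    rw [← normFun_diag h.le hb, normFun_eq_prod, Units.coe_prod, norm_prod]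
  have hc : ((e' / nb : fixedUnits U) : (AlgebraicClosure ℚ)ˣ) ∈ sUnits S U := by
    refine ⟨(e' / nb).2, fun q hq x => ?_⟩
    rw [Subgroup.coe_div, map_div, Pi.div_apply, Units.val_div_eq_div_val, norm_div, hnb]
    by_cases hqT : q ∈ Tq
    · rw [Finset.prod_congr rfl fun y _ => hbT q hqT y, ← norm_prod, ← Units.coe_prod,
        ← normFun_eq_prod h.le, hgn q hqT, div_self (norm_ne_zero_iff.2 (Units.ne_zero _))]
    · rw [hoff e q hq x (fun hT => hqT (hTq q x hT)),
        Finset.prod_eq_one fun y _ => hbu q hq hqT y, div_one]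
  have hN : diagS S U nb ∈ unitsNormS S h.le :=
    Subgroup.subset_closure (Or.inr ⟨fun q => diag q.1 U' b, fun q _ => diag_mem_placePts hb,
      fun q => (normFun_diag h.le hb).symm⟩)
  have := mul_mem (diag_mem_unitsNormS h.le hc) hN
  rwa [← map_mul, div_mul_cancel] at this

end Fermat.Agent.CFT
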