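import Fermat.Agent.CFT.Setup

/-!
# Finite products over places: definitions
-/

set_option autoImplicit false

open CategoryTheory groupCohomology ExtCitation

noncomputable section

namespace Fermat.Agent.CFT

/-- `∏_{v ∣ S} L_vˣ`. -/
def placeS (S : Finset Nat.Primes) (U : Subgroup GQ) :
    Subgroup (∀ q : ↥S, GQ ⧸ U → (Omega q.1)ˣ) :=
  Subgroup.pi Set.univ fun q => placePts q.1 U

/-- `L'ˣ`-norms and `S`-units inside `∏_{v ∣ S} L_vˣ`. -/
def unitsNormS (S : Finset Nat.Primes) {U' U : Subgroup GQ} (h : U' ≤ U) :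
    Subgroup (∀ q : ↥S, GQ ⧸ U → (Omega q.1)ˣ) :=
  Subgroup.closure
    ({f | ∃ a ∈ sUnits S U, ∀ q : ↥S, f q = diag q.1 U a} ∪
      {f | ∃ g ∈ placeS S U', ∀ q : ↥S, f q = normFun h (g q)})

/-- A degree `p` Galois step over a field containing `ζ_p`. -/
structure KummerStep (p : ℕ) [Fact p.Prime] (U' U : Subgroup GQ) : Prop where
  le : U' ≤ U
  level : IsLevelSubgroup Levels.all (MonoidHom.id GQ) U'
  normal : (U'.subgroupOf U).Normal
  index : U'.relIndex U = p
  mu : ∀ g ∈ U, cycloChar p g = 1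

end Fermat.Agent.CFT
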