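import Fermat.Agent.CFT.Global.LocalPowers
import Fermat.Agent.CFT.Global.StepH1
import Fermat.Agent.CFT.Global.StepLocalIndex

/-!
# Kummer steps as `U ⊓ Stab α`
-/

set_option autoImplicit false

open groupCohomology ExtCitation

noncomputable section

namespace Fermat.Agent.CFT

variable {p : ℕ} [Fact p.Prime] {U' U : Subgroup GQ} {q : Nat.Primes}

theorem isLevelSubgroup_mono (hle : U' ≤ U)
    (hU' : IsLevelSubgroup Levels.all (MonoidHom.id GQ) U') :
    IsLevelSubgroup Levels.all (MonoidHom.id GQ) U :=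
  let ⟨F, hF, h⟩ := hU'
  ⟨F, hF, fun s hs => hle (h s hs)⟩

theorem KummerStep.levelU (h : KummerStep p U' U) :
    IsLevelSubgroup Levels.all (MonoidHom.id GQ) U :=
  isLevelSubgroup_mono h.le h.level

theorem KummerStep.finiteQuot (h : KummerStep p U' U) : Finite (GQ ⧸ U') :=
  finite_quot_of_isLevelSubgroup h.level

theorem KummerStep.nonempty_cosetStep (h : KummerStep p U' U) : Nonempty (CosetStep p U' U) :=
  CosetStep.nonempty_of p Fact.out h.le h.normal h.index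

theorem zetaP_mem_fixedUnits (hμ : ∀ g ∈ U, cycloChar p g = 1) : zetaP p ∈ fixedUnits U :=
  fun g hg => by
    have := gal_muInc_of_eq_one (p := p) (hμ g hg) ((1 : ℕ) : ZMod p)
    rwa [muInc_natCast, pow_one] at this

/-- `U'` is the stabiliser in `U` of a `p`-th root of an element of the fixed field. -/
def IsKummerRoot (p : ℕ) (U' U : Subgroup GQ) (α : (AlgebraicClosure ℚ)ˣ) : Prop :=
  α ^ p ∈ fixedUnits U ∧
    ∀ g, g ∈ U' ↔ g ∈ U ∧ g (α : AlgebraicClosure ℚ) = (α : AlgebraicClosure ℚ)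

theorem KummerStep.exists_isKummerRoot (h : KummerStep p U' U) :
    ∃ α : (AlgebraicClosure ℚ)ˣ, IsKummerRoot p U' U α ∧ α ∉ fixedUnits U := by
  obtain ⟨D⟩ := h.nonempty_cosetStep
  obtain ⟨β, hβ, hβγ⟩ := D.exists_kummer_gen h.level h.mu
  have hz : IsPrimitiveRoot (zetaP p : AlgebraicClosure ℚ) p :=
    IsPrimitiveRoot.coe_units_iff.2 zetaP_isPrimitiveRoot
  have hpow : ∀ i : ℕ, (zetaP p : AlgebraicClosure ℚ) ^ i *
      (D.gen ^ i) (β : AlgebraicClosure ℚ) = β := fun i => by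
    induction i with
    | zero => simp
    | succ i ih =>
      have h1 := congrArg (D.gen ^ i) hβγ
      rw [map_mul, zetaP_mem_fixedUnits h.mu _ (U.pow_mem D.gen_mem i), ← AlgEquiv.mul_apply,
        ← pow_succ] at h1
      rw [pow_succ (zetaP p : AlgebraicClosure ℚ), mul_assoc, h1, ih]
  refine ⟨β, ⟨fun g hg => ?_, fun g => ⟨fun hg => ⟨h.le hg, hβ g hg⟩, ?_⟩⟩, fun hfix => ?_⟩
  · rw [Units.val_pow_eq_pow_val]
    refine D.fixed_of_gen_fixed (fun g' hg' => by rw [map_pow, hβ g' hg']) ?_ g hg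
    conv_rhs => rw [← hβγ, mul_pow, hz.pow_eq_one, one_mul]
    rw [map_pow]
  · rintro ⟨hgU, hgβ⟩
    obtain ⟨i, hip, hi⟩ := D.exists_pow_of_mem hgU
    suffices h0 : i = 0 by simpa [h0] using hi
    have h1 : g (β : AlgebraicClosure ℚ) = (D.gen ^ i) (β : AlgebraicClosure ℚ) := by
      conv_lhs => rw [show g = D.gen ^ i * ((D.gen ^ i)⁻¹ * g) by group, AlgEquiv.mul_apply,
        hβ _ hi]
    have h2 := hpow i
    rw [← h1, hgβ] at h2
    have h3 : (zetaP p : AlgebraicClosure ℚ) ^ i = 1 :=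
      (mul_eq_right₀ β.ne_zero).1 h2
    by_contra h0
    exact hz.pow_ne_one_of_pos_of_lt h0 hip h3
  · rw [hfix _ D.gen_mem] at hβγ
    exact hz.ne_one (Fact.out : p.Prime).one_lt ((mul_eq_right₀ β.ne_zero).1 hβγ)

/-- A non-trivial `p`-th root gives a step. -/
theorem kummerStep_of_root (hU : IsLevelSubgroup Levels.all (MonoidHom.id GQ) U)
    (hμ : ∀ g ∈ U, cycloChar p g = 1) {α : (AlgebraicClosure ℚ)ˣ} (hα : α ^ p ∈ fixedUnits U)
    (hne : α ∉ fixedUnits U) :
    ∃ U₁, KummerStep p U₁ U ∧ IsKummerRoot p U₁ U α := by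
  have hfix : ∀ g ∈ U, g ((α : AlgebraicClosure ℚ) ^ p) = (α : AlgebraicClosure ℚ) ^ p := by
    intro g hg
    have := hα g hg
    rwa [Units.val_pow_eq_pow_val] at this
  let φ : U →* Multiplicative (ZMod p) :=
    MonoidHom.mk' (fun g => Multiplicative.ofAdd (kummerFun α (g : GQ))) fun a b => by
      rw [← ofAdd_add, Subgroup.coe_mul, kummerFun_mul (hμ a a.2) (hfix a a.2) (hfix b b.2),
        add_comm]
  have hker : ∀ g : U, g ∈ φ.ker ↔ (g : GQ) (α : AlgebraicClosure ℚ) = α := fun g => by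
    rw [MonoidHom.mem_ker, ← kummerFun_eq_zero_iff (p := p) (hfix g g.2)]
    rfl
  let U₁ : Subgroup GQ := φ.ker.map U.subtype
  have hmem : ∀ g, g ∈ U₁ ↔ g ∈ U ∧ g (α : AlgebraicClosure ℚ) = α := fun g =>
    ⟨by rintro ⟨u, hu, rfl⟩; exact ⟨u.2, (hker u).1 hu⟩,
      fun hg => ⟨⟨g, hg.1⟩, (hker _).2 hg.2, rfl⟩⟩
  have hsub : U₁.subgroupOf U = φ.ker :=
    Subgroup.comap_map_eq_self_of_injective U.subtype_injective _
  refine ⟨U₁, ⟨Subgroup.map_subtype_le _, ?_, ?_, ?_, hμ⟩, hα, hmem⟩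
  · obtain ⟨F, hF, hle⟩ := hU
    haveI : FiniteDimensional ℚ (IntermediateField.adjoin ℚ {(α : AlgebraicClosure ℚ)}) :=
      IntermediateField.adjoin.finiteDimensional (Algebra.IsIntegral.isIntegral _)
    refine ⟨F ⊔ IntermediateField.adjoin ℚ {(α : AlgebraicClosure ℚ)},
      Levels.all.sup _ _ hF (inferInstanceAs (FiniteDimensional ℚ _)), fun s hs => ?_⟩
    simp only [MonoidHom.id_apply, IntermediateField.fixingSubgroup_sup] at hs
    exact (hmem s).2 ⟨hle s hs.1, (IntermediateField.mem_fixingSubgroup_iff _ _).1 hs.2 _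
      (IntermediateField.mem_adjoin_simple_self ℚ _)⟩
  · rw [hsub]; infer_instance
  · rw [Subgroup.relIndex, hsub, Subgroup.index_ker]
    have hdvd : Nat.card φ.range ∣ p := by
      have := Subgroup.card_subgroup_dvd_card φ.range
      simpa using this
    refine ((Fact.out : p.Prime).eq_one_or_self_of_dvd _ hdvd).resolve_left fun h1 => hne ?_
    intro g hg
    refine (hker ⟨g, hg⟩).1 ?_
    have hb : φ.range = ⊥ := Subgroup.card_eq_one.1 h1
    have : φ ⟨g, hg⟩ ∈ φ.range := ⟨_, rfl⟩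
    rw [hb, Subgroup.mem_bot] at this
    exact this

/-- At a place where `α ^ p` is a `p`-th power the step splits completely. -/
theorem isKummerRoot_split (h : KummerStep p U' U) {α : (AlgebraicClosure ℚ)ˣ}
    (hα : IsKummerRoot p U' U α) {x : GQ ⧸ U} (hpow : diag q U (α ^ p) x ∈ powAt p q U x) :
    ∀ τ ∈ placeStab q U x, ∀ y, quotProj h.le y = x → primeLocalToGlobal q τ • y = y := by
  intro τ hτ y hy
  obtain ⟨z, hz, hzp⟩ := hpow
  obtain ⟨g, rfl⟩ := QuotientGroup.mk_surjective y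
  rw [quotProj_mk] at hy
  subst hy
  have hτ' : primeLocalToGlobal q τ • (QuotientGroup.mk g : GQ ⧸ U) = QuotientGroup.mk g := hτ
  rw [MulAction.Quotient.smul_mk, eq_comm, QuotientGroup.eq, smul_eq_mul] at hτ'
  rw [MulAction.Quotient.smul_mk, eq_comm, QuotientGroup.eq, smul_eq_mul, hα.2]
  refine ⟨hτ', ?_⟩
  set w := padicEmbedding (q : ℕ) (g (α : AlgebraicClosure ℚ)) with hw
  have hwz : (w / (z : Omega q)) ^ p = 1 := by
    have h1 : ((diag q U (α ^ p) (QuotientGroup.mk g) : (Omega q)ˣ) : Omega q) = (z : Omega q) ^ p :=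
      by rw [← hzp]; rfl
    rw [diag_apply, globFun_mk hα.1] at h1
    change padicEmbedding (q : ℕ) (g ((α ^ p : (AlgebraicClosure ℚ)ˣ) : AlgebraicClosure ℚ)) = _ at h1
    rw [Units.val_pow_eq_pow_val, map_pow, map_pow, ← hw] at h1
    rw [div_pow, h1, div_self (pow_ne_zero _ z.ne_zero)]
  obtain ⟨i, hi⟩ := exists_eq_iota_muInc q hwz
  rw [div_eq_iff z.ne_zero] at hi
  have hfixw : locAct q τ w = w := by
    rw [hi, map_mul, locAct_muInc h.mu hτ, hz τ hτ]
  have h2 : primeLocalToGlobal q τ (g (α : AlgebraicClosure ℚ)) = g (α : AlgebraicClosure ℚ) :=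
    (padicEmbedding (q : ℕ)).toRingHom.injective
      ((padicEmbedding_localGaloisToGlobal (q : ℕ) τ _).trans hfixw)
  rw [AlgEquiv.mul_apply, AlgEquiv.mul_apply, h2]
  exact g.symm_apply_apply _

/-- Where `α ^ p` is a unit and `q ≠ p` the step is unramified. -/
theorem isKummerRoot_inertia (h : KummerStep p U' U) {α : (AlgebraicClosure ℚ)ˣ}
    (hα : IsKummerRoot p U' U α) (hqp : (q : ℕ) ≠ p) {y : GQ ⧸ U'}
    (hunit : ‖(diag q U (α ^ p) (quotProj h.le y) : Omega q)‖ = 1)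
    {τ : primeLocalGaloisGroup q} (hτ : τ ∈ placeStab q U (quotProj h.le y))
    (hI : ∀ z : Omega q, ‖z‖ ≤ 1 → ‖locAct q τ z - z‖ < 1) : τ ∈ placeStab q U' y := by
  have hτ0 := hτ
  obtain ⟨g, rfl⟩ := QuotientGroup.mk_surjective y
  rw [quotProj_mk] at hτ hunit hτ0
  have hτ' : primeLocalToGlobal q τ • (QuotientGroup.mk g : GQ ⧸ U) = QuotientGroup.mk g := hτ
  rw [MulAction.Quotient.smul_mk, eq_comm, QuotientGroup.eq, smul_eq_mul] at hτ'
  show primeLocalToGlobal q τ • (QuotientGroup.mk g : GQ ⧸ U') = QuotientGroup.mk g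
  rw [MulAction.Quotient.smul_mk, eq_comm, QuotientGroup.eq, smul_eq_mul, hα.2]
  refine ⟨hτ', ?_⟩
  set w := padicEmbedding (q : ℕ) (g (α : AlgebraicClosure ℚ)) with hw
  have hwp : ((diag q U (α ^ p) (QuotientGroup.mk g) : (Omega q)ˣ) : Omega q) = w ^ p := by
    rw [diag_apply, globFun_mk hα.1]
    change padicEmbedding (q : ℕ) (g ((α ^ p : (AlgebraicClosure ℚ)ˣ) : AlgebraicClosure ℚ)) = _
    rw [Units.val_pow_eq_pow_val, map_pow, map_pow]
  rw [hwp, norm_pow] at hunit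
  have hwn : ‖w‖ = 1 :=
    (pow_eq_one_iff_of_nonneg (norm_nonneg _) (Fact.out : p.Prime).ne_zero).1 hunit
  have hfix : locAct q τ (w ^ p) = w ^ p := by
    rw [← hwp]
    exact placePts_apply_mem (diag_mem_placePts hα.1) _ τ hτ0
  have hfixw := locAct_root_eq hqp hwn hfix (hI w hwn.le)
  have h2 : primeLocalToGlobal q τ (g (α : AlgebraicClosure ℚ)) = g (α : AlgebraicClosure ℚ) :=
    (padicEmbedding (q : ℕ)).toRingHom.injective
      ((padicEmbedding_localGaloisToGlobal (q : ℕ) τ _).trans hfixw)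
  rw [AlgEquiv.mul_apply, AlgEquiv.mul_apply, h2]
  exact g.symm_apply_apply _

end Fermat.Agent.CFT
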