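import Fermat.Agent.CFT.Global.PlaceBasic
import Fermat.Agent.CFT.PrimeBridge
import Mathlib.FieldTheory.Galois.Infinite

/-!
# The fixed field is dense in its completions
-/

set_option autoImplicit false

open groupCohomology ExtCitation

noncomputable section

namespace Fermat.Agent.CFT

variable {U : Subgroup GQ} {q : Nat.Primes}

/-- The place of `g`, as a `ℚ`-linear map on the fixed field. -/
def fixEmb (q : Nat.Primes) (U : Subgroup GQ) (g : GQ) :
    IntermediateField.fixedField U →ₗ[ℚ] Omega q :=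
  ((padicEmbedding (q : ℕ)).comp (g.toAlgHom.comp (IntermediateField.fixedField U).val)).toLinearMap

theorem fixEmb_apply (g : GQ) (a : IntermediateField.fixedField U) :
    fixEmb q U g a = padicEmbedding (q : ℕ) (g (a : AlgebraicClosure ℚ)) := rfl

theorem mem_closure_fixEmb (hU : IsLevelSubgroup Levels.all (MonoidHom.id GQ) U) (g : GQ)
    {z : (Omega q)ˣ} (hz : z ∈ locUnits q (placeStab q U (QuotientGroup.mk g))) :
    (z : Omega q) ∈ closure (Set.range (fixEmb q U g)) := by
  set R : Set (Omega q) := Set.range (fixEmb q U g) with hR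
  set E : IntermediateField ℚ_[(q : ℕ)] (Omega q) := IntermediateField.adjoin ℚ_[(q : ℕ)] R
  have hfix : (IntermediateField.fixedField U).fixingSubgroup = U :=
    fixingSubgroup_fixedField_of_level hU
  have hzE : (z : Omega q) ∈ E := by
    rw [← InfiniteGalois.fixedField_fixingSubgroup E]
    intro τ
    refine hz (τ : Omega q ≃ₐ[ℚ_[(q : ℕ)]] Omega q) ?_
    show primeLocalToGlobal q (τ : Omega q ≃ₐ[ℚ_[(q : ℕ)]] Omega q) •
      (QuotientGroup.mk g : GQ ⧸ U) = QuotientGroup.mk g
    rw [MulAction.Quotient.smul_mk, eq_comm, QuotientGroup.eq]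
    have key : g⁻¹ * primeLocalToGlobal q (τ : Omega q ≃ₐ[ℚ_[(q : ℕ)]] Omega q) * g ∈
        (IntermediateField.fixedField U).fixingSubgroup := by
      rw [IntermediateField.mem_fixingSubgroup_iff]
      intro a ha
      have h1 : (τ : Omega q ≃ₐ[ℚ_[(q : ℕ)]] Omega q) (fixEmb q U g ⟨a, ha⟩) =
          fixEmb q U g ⟨a, ha⟩ :=
        τ.2 ⟨_, IntermediateField.subset_adjoin _ _ ⟨⟨a, ha⟩, rfl⟩⟩
      rw [fixEmb_apply, ← padicEmbedding_localGaloisToGlobal] at h1
      have h2 := (padicEmbedding (q : ℕ)).injective h1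
      rw [AlgEquiv.mul_apply, AlgEquiv.mul_apply]
      change g⁻¹ (localGaloisToGlobal (q : ℕ) (τ : Omega q ≃ₐ[ℚ_[(q : ℕ)]] Omega q) (g a)) = a
      rw [h2]
      exact g.symm_apply_apply a
    rw [hfix] at key
    simpa [smul_eq_mul, mul_assoc] using key
  rw [← IntermediateField.mem_toSubalgebra,
    IntermediateField.adjoin_toSubalgebra_of_isAlgebraic (fun x _ =>
      Algebra.IsAlgebraic.isAlgebraic x), ← Subalgebra.mem_toSubmodule,
    Algebra.adjoin_eq_span] at hzE
  have hmon : (Submonoid.closure R : Set (Omega q)) ⊆ R := by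
    intro x hx
    induction hx using Submonoid.closure_induction with
    | mem y hy => exact hy
    | one => exact ⟨1, by simp [fixEmb_apply]⟩
    | mul x y _ _ hx hy =>
      obtain ⟨a, rfl⟩ := hx
      obtain ⟨b, rfl⟩ := hy
      exact ⟨a * b, by simp [fixEmb_apply]⟩
  generalize (z : Omega q) = w at hzE ⊢
  induction hzE using Submodule.span_induction with
  | mem y hy => exact subset_closure (hmon hy)
  | zero => exact subset_closure ⟨0, map_zero _⟩
  | add x y _ _ hx hy =>
    refine map_mem_closure₂ continuous_add hx hy ?_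
    rintro _ ⟨a, rfl⟩ _ ⟨b, rfl⟩
    exact ⟨a + b, map_add _ _ _⟩
  | smul c x _ hx =>
    refine map_mem_closure₂ continuous_smul (Padic.denseRange_ratCast (q : ℕ) c) hx ?_
    rintro _ ⟨r, rfl⟩ _ ⟨a, rfl⟩
    refine ⟨r • a, ?_⟩
    rw [map_smul, Rat.cast_smul_eq_qsmul]

/-- Every local element is approximated by an element of the fixed field. -/
theorem exists_fixedUnits_approx (hU : IsLevelSubgroup Levels.all (MonoidHom.id GQ) U)
    (x : GQ ⧸ U) {z : (Omega q)ˣ} (hz : z ∈ locUnits q (placeStab q U x)) {ε : ℝ} (hε : 0 < ε) :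
    ∃ a ∈ fixedUnits U, ‖(diag q U a x : Omega q) - z‖ < ε ∧
      ‖(diag q U a x : Omega q)‖ = ‖(z : Omega q)‖ := by
  rw [← QuotientGroup.out_eq' x] at hz
  have hmem := mem_closure_fixEmb hU (Quotient.out x) hz
  rw [Metric.mem_closure_iff] at hmem
  obtain ⟨_, ⟨a, rfl⟩, ha⟩ := hmem (min ε ‖(z : Omega q)‖)
    (lt_min hε (norm_pos_iff.2 z.ne_zero))
  rw [dist_eq_norm, ← norm_sub_rev, lt_min_iff] at ha
  have hnorm : ‖fixEmb q U (Quotient.out x) a‖ = ‖(z : Omega q)‖ :=
    by
      have h := IsUltrametricDist.norm_add_eq_max_of_norm_ne_norm ha.2.ne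
      rw [sub_add_cancel, max_eq_right ha.2.le] at h
      exact h
  have ha0 : (a : AlgebraicClosure ℚ) ≠ 0 := by
    intro h
    rw [fixEmb_apply, h, map_zero, map_zero, norm_zero] at hnorm
    exact (norm_pos_iff.2 z.ne_zero).ne hnorm
  exact ⟨Units.mk0 _ ha0, fun g hg => a.2 ⟨g, hg⟩, ha.1, hnorm⟩

end Fermat.Agent.CFT
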