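import Fermat.Agent.CFT.Global.PlaceField
import Fermat.Agent.CFT.GlobalPerm.Kummer
import Fermat.Agent.CFT.Kummer.AuxPrimes

/-!
# `p`-th powers at a place of the fixed field

At a place prime to `p`, in a field with `ζ_p`, being a `p`-th power is a condition on the residue.
-/

set_option autoImplicit false

open groupCohomology ExtCitation NumberField IsDedekindDomain

noncomputable section

namespace Fermat.Agent.CFT

variable {p : ℕ} [Fact p.Prime] {q : Nat.Primes} {U : Subgroup GQ}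

/-- The local group of a place fixes `μ_p` if `U` does. -/
theorem cycloChar_placeStab (hμ : ∀ g ∈ U, cycloChar p g = 1) {x : GQ ⧸ U}
    {τ : primeLocalGaloisGroup q} (hτ : τ ∈ placeStab q U x) :
    cycloChar p (primeLocalToGlobal q τ) = 1 := by
  have h := hμ _ (placeStab_conj_mem (U := U) (⟨τ, hτ⟩ : placeStab q U x))
  rw [map_mul, map_mul, map_inv, mul_comm (cycloChar p (Quotient.out x : GQ))⁻¹,
    inv_mul_cancel_right] at h
  exact h

theorem iota_zetaP_primitive (q : Nat.Primes) :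
    IsPrimitiveRoot (padicEmbedding (q : ℕ) (zetaP p : AlgebraicClosure ℚ)) p :=
  (IsPrimitiveRoot.coe_units_iff.2 zetaP_isPrimitiveRoot).map_of_injective
    (padicEmbedding (q : ℕ)).toRingHom.injective

theorem exists_eq_iota_muInc (q : Nat.Primes) {w : Omega q} (hw : w ^ p = 1) :
    ∃ i : ZMod p, w = padicEmbedding (q : ℕ) (muInc p i : AlgebraicClosure ℚ) := by
  haveI : NeZero p := ⟨(Fact.out : p.Prime).ne_zero⟩
  obtain ⟨i, -, hi⟩ := (iota_zetaP_primitive q).eq_pow_of_pow_eq_one hw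
  exact ⟨(i : ZMod p), by rw [muInc_natCast, Units.val_pow_eq_pow_val, map_pow]; exact hi.symm⟩

theorem locAct_muInc (hμ : ∀ g ∈ U, cycloChar p g = 1) {x : GQ ⧸ U}
    {τ : primeLocalGaloisGroup q} (hτ : τ ∈ placeStab q U x) (i : ZMod p) :
    locAct q τ (padicEmbedding (q : ℕ) (muInc p i : AlgebraicClosure ℚ)) =
      padicEmbedding (q : ℕ) (muInc p i : AlgebraicClosure ℚ) := by
  refine (padicEmbedding_localGaloisToGlobal (q : ℕ) τ _).symm.trans ?_
  exact congrArg _ (gal_muInc_of_eq_one (cycloChar_placeStab hμ hτ) i)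

/-- Roots of units move by roots of unity which are not congruent to `1`. -/
theorem locAct_root_eq (hqp : (q : ℕ) ≠ p) {τ : primeLocalGaloisGroup q} {w : Omega q}
    (hw : ‖w‖ = 1) (hfix : locAct q τ (w ^ p) = w ^ p) (hlt : ‖locAct q τ w - w‖ < 1) :
    locAct q τ w = w := by
  have hw0 : w ≠ 0 := fun h => by rw [h, norm_zero] at hw; exact zero_ne_one hw
  have hpow : (locAct q τ w / w) ^ p = 1 := by
    rw [div_pow, ← map_pow, hfix, div_self (pow_ne_zero _ hw0)]
  obtain ⟨i, hi⟩ := exists_eq_iota_muInc q hpow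
  have h1 : i = 0 := by
    refine muInc_eq_zero_of_sub_mem
      (Fermat.Agent.Galois.padicPlace_liesOverPrime (q : ℕ)) hqp ?_
    rw [mem_nonunits_padicPlace_iff, map_sub, map_one, ← hi, div_sub_one hw0, norm_div, hw,
      div_one]
    exact hlt
  rw [h1, muInc_zero, Units.val_one, map_one, div_eq_one_iff_eq hw0] at hi
  exact hi

/-- A unit congruent to a `p`-th power is a `p`-th power. -/
theorem exists_root_of_close (hμ : ∀ g ∈ U, cycloChar p g = 1) (hqp : (q : ℕ) ≠ p)
    {x : GQ ⧸ U} {c : (Omega q)ˣ} (hc : c ∈ locUnits q (placeStab q U x))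
    (hc1 : ‖(c : Omega q)‖ = 1) {r : Omega q}
    (hr : ∀ τ ∈ placeStab q U x, locAct q τ r = r) (hlt : ‖r ^ p - c‖ < 1) :
    ∃ w ∈ locUnits q (placeStab q U x), w ^ p = c := by
  classical
  have hp0 := (Fact.out : p.Prime).ne_zero
  obtain ⟨y, hy⟩ := IsAlgClosed.exists_pow_nat_eq (c : Omega q) (Nat.pos_of_ne_zero hp0)
  rw [← hy, (iota_zetaP_primitive (p := p) q).pow_sub_pow_eq_prod_sub_mul r y
    (Nat.pos_of_ne_zero hp0), norm_prod] at hlt
  obtain ⟨ξ, hξ, hξlt⟩ : ∃ ξ ∈ Polynomial.nthRootsFinset p (1 : Omega q),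
      ‖r - ξ * y‖ < 1 := by
    by_contra! h
    exact not_lt.2 (Finset.one_le_prod fun i hi => h i hi) hlt
  rw [Polynomial.mem_nthRootsFinset (Nat.pos_of_ne_zero hp0)] at hξ
  set w := ξ * y with hw
  have hwp : w ^ p = c := by rw [hw, mul_pow, hξ, one_mul, hy]
  have hwn : ‖w‖ = 1 := (pow_eq_one_iff_of_nonneg (norm_nonneg _) hp0).1
    (by rw [← norm_pow, hwp, hc1])
  have hw0 : w ≠ 0 := fun h => by rw [h, norm_zero] at hwn; exact zero_ne_one hwn
  refine ⟨Units.mk0 w hw0, fun τ hτ => ?_, Units.ext hwp⟩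
  refine locAct_root_eq (w := (Units.mk0 w hw0 : Omega q)) hqp hwn (by rw [Units.val_mk0, hwp]; exact hc τ hτ) ?_
  calc ‖locAct q τ w - w‖ = ‖locAct q τ (w - r) + (r - w)‖ := by
        rw [map_sub, hr τ hτ]; congr 1; ring
    _ ≤ max ‖locAct q τ (w - r)‖ ‖r - w‖ := IsUltrametricDist.norm_add_le_max _ _
    _ < 1 := max_lt (by
        rw [show ‖locAct q τ (w - r)‖ = ‖w - r‖ from
          congrArg NNReal.toReal (nnnorm_padicAlgCl_algEquiv (q := (q : ℕ)) τ (w - r)),
          norm_sub_rev]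
        exact hξlt) hξlt

/-- The units of the place of `x` that are `p`-th powers there. -/
def powAt (p : ℕ) (q : Nat.Primes) (U : Subgroup GQ) (x : GQ ⧸ U) : Subgroup (Omega q)ˣ :=
  (locUnits q (placeStab q U x)).map (powMonoidHom p)

omit [Fact p.Prime] in
theorem mem_powAt {x : GQ ⧸ U} {c : (Omega q)ˣ} :
    c ∈ powAt p q U x ↔ ∃ w ∈ locUnits q (placeStab q U x), w ^ p = c := Iff.rfl

theorem powAt_le {x : GQ ⧸ U} : powAt p q U x ≤ locUnits q (placeStab q U x) := by
  rintro _ ⟨w, hw, rfl⟩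
  exact pow_mem hw p

section Field

variable [NumberField (fxFld U)]

/-- Being a `p`-th power at a place prime to `p`, in the carrier and in the completion. -/
theorem diag_mem_powAt_iff (hU : IsLevelSubgroup Levels.all (MonoidHom.id GQ) U)
    (hμ : ∀ g ∈ U, cycloChar p g = 1) (hqp : (q : ℕ) ≠ p) {x : GQ ⧸ U} (a : fixedUnits U)
    (ha : ‖(diag q U a x : Omega q)‖ = 1) :
    diag q U a x ∈ powAt p q U x ↔
      Kummer.localEmb (placeOf U q x) (fixToField U a) ∈
        Kummer.localPowers (fxFld U) p (placeOf U q x) := by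
  classical
  set v := placeOf U q x with hv
  have hp0 := (Fact.out : p.Prime).ne_zero
  have hζ : IsPrimitiveRoot
      (⟨(zetaP p : AlgebraicClosure ℚ), fun u => by
        have hz : muInc p (1 : ZMod p) = zetaP p := by
          rw [show (1 : ZMod p) = ((1 : ℕ) : ZMod p) from Nat.cast_one.symm, muInc_natCast, pow_one]
        show (u : GQ) (zetaP p : AlgebraicClosure ℚ) = _
        rw [← hz, gal_muInc_of_eq_one (hμ u u.2)]⟩ : fxFld U) p :=
    IsPrimitiveRoot.of_map_of_injective (f := (fxFld U).val)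
      (IsPrimitiveRoot.coe_units_iff.2 zetaP_isPrimitiveRoot) Subtype.val_injective
  have hvp : (p : 𝓞 (fxFld U)) ∉ v.asIdeal := fun h =>
    hqp (congrArg Subtype.val (natPrimes_eq_of_mem v.isPrime.ne_top (natCast_mem_placeOf q x)
      (q' := pPrime p) h))
  let em : fxFld U →+* Omega q := (padicEmbedding (q : ℕ)).toRingHom.comp
    ((Quotient.out x : GQ).toRingEquiv.toRingHom.comp (fxFld U).val.toRingHom)
  have hem : ∀ b : fxFld U, v.valuation (fxFld U) b < 1 ↔ ‖em b‖ < 1 := fun b =>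
    valuation_primeAt_lt_one_iff _ q _ b
  have hema : ∀ b : fixedUnits U, em (fixToField U b : fxFld U) = (diag q U b x : Omega q) :=
    fun b => rfl
  have hemfix : ∀ (b : fxFld U), ∀ τ ∈ placeStab q U x, locAct q τ (em b) = em b := by
    intro b τ hτ
    rcases eq_or_ne b 0 with rfl | hb
    · simp [em]
    · obtain ⟨b', hb'⟩ := (fixToField_bijective U).2 (Units.mk0 b hb)
      rw [← show (fixToField U b' : fxFld U) = b by rw [hb', Units.val_mk0], hema]
      exact placePts_apply_mem (diag_mem_placePts b'.2) x τ hτ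
  have hva := (valuation_placeOf_eq_one_iff a q x).2 ha
  obtain ⟨n, d, hnd⟩ := v.exists_primeCompl_mul_eq_of_integer (fixToField U a : fxFld U) hva.le
  set n' : 𝓞 (fxFld U) := n * (d : 𝓞 (fxFld U)) ^ (p - 1) with hn'
  have hd0 : algebraMap (𝓞 (fxFld U)) (fxFld U) (d : 𝓞 (fxFld U)) ≠ 0 := fun h => d.2 (by
    rw [(map_eq_zero_iff _ (FaithfulSMul.algebraMap_injective _ _)).1 h]; exact zero_mem _)
  have hval : algebraMap (𝓞 (fxFld U)) (fxFld U) n' = (fixToField U a : fxFld U) * (algebraMap (𝓞 (fxFld U)) (fxFld U) (d : 𝓞 (fxFld U))) ^ p := by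
    rw [hn', map_mul, map_pow, ← hnd, mul_assoc, ← pow_succ', Nat.sub_add_cancel
      (Nat.pos_of_ne_zero hp0)]
  obtain ⟨d', hd'⟩ := (fixToField_bijective U).2 (Units.mk0 _ hd0)
  have hd1 : v.valuation (fxFld U) (algebraMap (𝓞 (fxFld U)) (fxFld U) (d : 𝓞 (fxFld U))) = 1 :=
    (v.valuation_eq_one_iff_notMem).2 d.2
  have hn'v : n' ∉ v.asIdeal := by
    rw [← v.valuation_eq_one_iff_notMem (K := fxFld U), hval, map_mul, map_pow, hva, hd1,
      one_pow, one_mul]
  set a' : fixedUnits U := a * d' ^ p with ha'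
  have hcast : (fixToField U a' : fxFld U) = algebraMap (𝓞 (fxFld U)) (fxFld U) n' := by
    rw [ha', map_mul, map_pow, hd', Units.val_mul, Units.val_pow_eq_pow_val, Units.val_mk0]
    exact hval.symm
  have hL : Kummer.localEmb v (fixToField U a') ∈ Kummer.localPowers (fxFld U) p v ↔
      Kummer.localEmb v (fixToField U a) ∈ Kummer.localPowers (fxFld U) p v := by
    rw [ha', map_mul, map_mul, map_pow, map_pow]
    exact Subgroup.mul_mem_cancel_right _ ⟨Kummer.localEmb v (fixToField U d'), rfl⟩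
  have hR : diag q U a' x ∈ powAt p q U x ↔ diag q U a x ∈ powAt p q U x := by
    rw [ha', Subgroup.coe_mul, Subgroup.coe_pow, map_mul, map_pow, Pi.mul_apply, Pi.pow_apply]
    exact Subgroup.mul_mem_cancel_right _
      ⟨_, placePts_apply_mem (diag_mem_placePts d'.2) x, rfl⟩
  rw [← hL, ← hR, Kummer.localEmb_mem_powers_int hζ v hvp hn'v _ hcast]
  constructor
  · rintro ⟨w, hw, hwc⟩
    have hw' : (w : Omega q) ^ p = em (algebraMap _ _ n') := by
      rw [← hcast, hema, ← hwc]; simp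
    obtain ⟨b, hb, hblt, hbn⟩ := exists_fixedUnits_approx hU x hw one_pos
    have hn1 : ‖em (algebraMap (𝓞 (fxFld U)) (fxFld U) n')‖ = 1 := by
      rw [← hcast, hema]
      exact (valuation_placeOf_eq_one_iff a' q x).1
        (by rw [hcast]; exact (v.valuation_eq_one_iff_notMem).2 hn'v)
    have hwn : ‖(w : Omega q)‖ = 1 := (pow_eq_one_iff_of_nonneg (norm_nonneg _) hp0).1
      (by rw [← norm_pow, hw', hn1])
    set β : fxFld U := (fixToField U ⟨b, hb⟩ : fxFld U)
    have hβ : em β = (diag q U b x : Omega q) := rfl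
    have hvb : v.valuation (fxFld U) β = 1 :=
      (valuation_placeOf_eq_one_iff ⟨b, hb⟩ q x).2 (hbn.trans hwn)
    obtain ⟨nb, db, hndb⟩ := v.exists_primeCompl_mul_eq_of_integer β hvb.le
    obtain ⟨e, m, hm, he⟩ := v.isMaximal.exists_inv db.2
    refine ⟨nb * e, (v.valuation_lt_one_iff_mem (K := fxFld U) _).1 ((hem _).2 ?_)⟩
    have hclose : ‖em (algebraMap _ _ (nb * e)) - (w : Omega q)‖ < 1 := by
      have h1 : algebraMap (𝓞 (fxFld U)) (fxFld U) (nb * e) - β =
          β * algebraMap (𝓞 (fxFld U)) (fxFld U) (-m) := by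
        rw [show -m = e * (db : 𝓞 (fxFld U)) - 1 by rw [← he]; ring, map_mul, ← hndb, map_sub,
          map_mul, map_one]
        ring
      calc ‖em (algebraMap _ _ (nb * e)) - (w : Omega q)‖
          = ‖em (algebraMap (𝓞 (fxFld U)) (fxFld U) (nb * e) - β) + (em β - w)‖ := by
            rw [map_sub]; congr 1; ring
        _ ≤ max ‖em (algebraMap (𝓞 (fxFld U)) (fxFld U) (nb * e) - β)‖ ‖em β - w‖ :=
            IsUltrametricDist.norm_add_le_max _ _
        _ < 1 := max_lt ((hem _).1 (by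
            rw [h1, map_mul, hvb, one_mul, v.valuation_lt_one_iff_mem]
            exact neg_mem hm)) (by rw [hβ]; exact hblt)
    show ‖em (algebraMap (𝓞 (fxFld U)) (fxFld U) ((nb * e) ^ p - n'))‖ < 1
    rw [map_sub, map_pow, map_sub, map_pow, ← hw']
    have hle : ‖em (algebraMap _ _ (nb * e))‖ ≤ 1 :=
      galNorm_le_one_of_isIntegral q _ (isIntegral_coe_ringOfIntegers _ (nb * e))
    rw [← geom_sum₂_mul, norm_mul]
    refine lt_of_le_of_lt (mul_le_of_le_one_left (norm_nonneg _) ?_) hclose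
    refine IsUltrametricDist.norm_sum_le_of_forall_le_of_nonneg zero_le_one fun i _ => ?_
    rw [norm_mul, norm_pow, norm_pow, hwn, one_pow, mul_one]
    exact pow_le_one₀ (norm_nonneg _) hle
  · rintro ⟨r, hr⟩
    have hn1 : ‖(diag q U a' x : Omega q)‖ = 1 := (valuation_placeOf_eq_one_iff a' q x).1
      (by rw [hcast]; exact (v.valuation_eq_one_iff_notMem).2 hn'v)
    refine exists_root_of_close hμ hqp (placePts_apply_mem (diag_mem_placePts a'.2) x) hn1
      (hemfix (algebraMap _ _ r)) ?_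
    rw [← hema, hcast, ← map_pow, ← map_sub, ← map_pow, ← map_sub]
    exact (hem _).1 ((v.valuation_lt_one_iff_mem (K := fxFld U) _).2 hr)

end Field

end Fermat.Agent.CFT
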