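import Fermat.Agent.CFT.Global.KummerRoot
import Fermat.Agent.CFT.GlobalPerm.Localize

/-!
# Locally trivial classes of `μ_p` on all points of the orbits
-/

set_option autoImplicit false

open CategoryTheory groupCohomology ExtCitation

noncomputable section

namespace Fermat.Agent.CFT

variable {p : ℕ} [Fact p.Prime] {U W : Subgroup GQ} {q : Nat.Primes}

theorem mem_placeStab_mk {g : GQ} {τ : primeLocalGaloisGroup q} :
    τ ∈ placeStab q W (QuotientGroup.mk g) ↔ g⁻¹ * primeLocalToGlobal q τ * g ∈ W := by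
  show primeLocalToGlobal q τ • (QuotientGroup.mk g : GQ ⧸ W) = QuotientGroup.mk g ↔ _
  rw [MulAction.Quotient.smul_mk, eq_comm, QuotientGroup.eq, smul_eq_mul, mul_assoc]

/-- The extension by zero of a cochain on `U`. -/
def muExt (U : Subgroup GQ) (c : U × U → ZMod p) : GQ × GQ → ZMod p :=
  open Classical in
  fun g => if h : g.1 ∈ U ∧ g.2 ∈ U then c (⟨g.1, h.1⟩, ⟨g.2, h.2⟩) else 0

theorem muExt_coe (c : U × U → ZMod p) (s t : U) : muExt U c ((s : GQ), (t : GQ)) = c (s, t) := by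
  rw [muExt, dif_pos ⟨s.2, t.2⟩]

/-- A two-cocycle of `U` with values in `ℤ/p` and trivial action, extended to the whole group. -/
structure MuCocycle (p : ℕ) (U : Subgroup GQ) where
  C : GQ × GQ → ZMod p
  isConst : IsConst₂ Levels.all (MonoidHom.id GQ) C
  cocycle : ∀ s ∈ U, ∀ t ∈ U, ∀ j ∈ U, C (s * t, j) + C (s, t) = C (t, j) + C (s, t * j)

theorem exists_muCocycle (hU : IsLevelSubgroup Levels.all (MonoidHom.id GQ) U)
    (hμ : ∀ g ∈ U, cycloChar p g = 1) (c : ↥(Z2 Levels.all U.subtype (muSub p U))) :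
    ∃ M : MuCocycle p U, ∀ s t : U, M.C ((s : GQ), (t : GQ)) = c.1 (s, t) := by
  classical
  refine ⟨⟨muExt U c.1, ?_, ?_⟩, fun s t => muExt_coe _ s t⟩
  · obtain ⟨F₁, hF₁, h₁⟩ := hU
    obtain ⟨F₂, hF₂, h₂⟩ := c.2.2
    refine ⟨F₁ ⊔ F₂, Levels.all.sup _ _ hF₁ hF₂, fun g g' s s' hs hs' => ?_⟩
    simp only [MonoidHom.id_apply, IntermediateField.fixingSubgroup_sup] at hs hs'
    by_cases h : g ∈ U ∧ g' ∈ U
    · rw [muExt, muExt, dif_pos ⟨U.mul_mem h.1 (h₁ s hs.1), U.mul_mem h.2 (h₁ s' hs'.1)⟩, dif_pos h]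
      exact h₂ ⟨g, h.1⟩ ⟨g', h.2⟩ ⟨s, h₁ s hs.1⟩ ⟨s', h₁ s' hs'.1⟩ hs.2 hs'.2
    · rw [muExt, muExt, dif_neg h, dif_neg]
      exact fun hh => h ⟨(U.mul_mem_cancel_right (h₁ s hs.1)).1 hh.1,
        (U.mul_mem_cancel_right (h₁ s' hs'.1)).1 hh.2⟩
  · intro s hs t ht j hj
    have h := (mem_cocycles₂_iff c.1).1 c.2.1 ⟨s, hs⟩ ⟨t, ht⟩ ⟨j, hj⟩
    have hone : (cycloChar p s : ZMod p) = 1 := by rw [hμ s hs, Units.val_one]
    change c.1 (⟨s, hs⟩ * ⟨t, ht⟩, ⟨j, hj⟩) + c.1 (⟨s, hs⟩, ⟨t, ht⟩) =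
      (cycloChar p s : ZMod p) * c.1 (⟨t, ht⟩, ⟨j, hj⟩) + c.1 (⟨s, hs⟩, ⟨t, ht⟩ * ⟨j, hj⟩) at h
    rw [hone, one_mul] at h
    simpa [muExt, hs, ht, hj, U.mul_mem hs ht, U.mul_mem ht hj] using h

/-- Local triviality at every point of `GQ`. -/
def MuCocycle.LocTriv (M : MuCocycle p U) : Prop :=
  ∀ (q : Nat.Primes) (g : GQ), ∃ μ : placeStab q U (QuotientGroup.mk g) → ZMod p,
    IsConst₁ Levels.all ((primeLocalToGlobal q).comp (placeStab q U (QuotientGroup.mk g)).subtype) μ ∧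
    ∀ τ τ' : placeStab q U (QuotientGroup.mk g),
      M.C (g⁻¹ * primeLocalToGlobal q τ * g, g⁻¹ * primeLocalToGlobal q τ' * g) =
        μ τ' - μ (τ * τ') + μ τ

theorem MuCocycle.conj (M : MuCocycle p U) {u a b : GQ} (hu : u ∈ U) (ha : a ∈ U) (hb : b ∈ U) :
    M.C (u⁻¹ * a * u, u⁻¹ * b * u) = M.C (a, b) +
      ((M.C (u, u⁻¹ * b * u) - M.C (b, u)) - (M.C (u, u⁻¹ * (a * b) * u) - M.C (a * b, u))
        + (M.C (u, u⁻¹ * a * u) - M.C (a, u))) := by
  have ha' : u⁻¹ * a * u ∈ U := U.mul_mem (U.mul_mem (U.inv_mem hu) ha) hu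
  have hb' : u⁻¹ * b * u ∈ U := U.mul_mem (U.mul_mem (U.inv_mem hu) hb) hu
  have e1 := M.cocycle u hu _ ha' _ hb'
  have e2 := M.cocycle a ha u hu _ hb'
  have e3 := M.cocycle a ha b hb u hu
  rw [show u * (u⁻¹ * a * u) = a * u by group,
    show u⁻¹ * a * u * (u⁻¹ * b * u) = u⁻¹ * (a * b) * u by group] at e1
  rw [show u * (u⁻¹ * b * u) = b * u by group] at e2
  linear_combination e2 - e1 - e3

theorem MuCocycle.locTriv_of_locPlace (hμ : ∀ g ∈ U, cycloChar p g = 1)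
    (c : ↥(Z2 Levels.all U.subtype (muSub p U))) (M : MuCocycle p U)
    (hM : ∀ s t : U, M.C ((s : GQ), (t : GQ)) = c.1 (s, t))
    (hloc : ∀ q x, locPlace p q U x (H2cπ _ _ _ c) = 0) : M.LocTriv := by
  intro q g
  set x : GQ ⧸ U := QuotientGroup.mk g with hx
  set gx : GQ := Quotient.out x
  obtain ⟨u₀, hu₀⟩ := QuotientGroup.mk_out_eq_mul U g
  set u : GQ := ((u₀ : U) : GQ)⁻¹
  have hu : u ∈ U := U.inv_mem u₀.2
  have hg : g = gx * u := by simp only [gx, x, u]; rw [hu₀]; group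
  obtain ⟨μ₀, hμ₀, e⟩ := (Submodule.Quotient.mk_eq_zero _).1 (hloc q x)
  set k : ZMod p := (cycloChar p gx : ZMod p) with hk
  let hu' : GQ → ZMod p := fun a => M.C (u, u⁻¹ * a * u) - M.C (a, u)
  refine ⟨fun τ => ((cycloChar p gx)⁻¹ : (ZMod p)ˣ) * μ₀ τ +
    hu' (gx⁻¹ * primeLocalToGlobal q (τ : primeLocalGaloisGroup q) * gx), ?_, fun τ τ' => ?_⟩
  · obtain ⟨F₁, hF₁, h₁⟩ := hμ₀
    obtain ⟨F₂, hF₂, h₂⟩ := M.isConst
    obtain ⟨F, hF, hN, hle₁, hle₂⟩ := Levels.exists_normal₂ Levels.normalBasis_all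
      (F₁ := F₁) (F₂ := F₂) hF₁ hF₂
    refine ⟨F, hF, fun a s hs => ?_⟩
    have h5 : μ₀ (a * s) = μ₀ a := h₁ a s (IntermediateField.fixingSubgroup_antitone hle₁ hs)
    have hs' : gx⁻¹ * primeLocalToGlobal q (s : primeLocalGaloisGroup q) * gx ∈ F.fixingSubgroup :=
      conj_mem_level (r := MonoidHom.id GQ) hN hs gx
    have hs'' := conj_mem_level (r := MonoidHom.id GQ) hN hs' u
    have e1 : ∀ b b' w w', w ∈ F.fixingSubgroup → w' ∈ F.fixingSubgroup →
        M.C (b * w, b' * w') = M.C (b, b') := fun b b' w w' hw hw' =>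
      h₂ b b' w w' (IntermediateField.fixingSubgroup_antitone hle₂ hw)
        (IntermediateField.fixingSubgroup_antitone hle₂ hw')
    set A := gx⁻¹ * primeLocalToGlobal q (a : primeLocalGaloisGroup q) * gx
    set S' := gx⁻¹ * primeLocalToGlobal q (s : primeLocalGaloisGroup q) * gx
    have hAS : gx⁻¹ * primeLocalToGlobal q ((a * s : placeStab q U x) : primeLocalGaloisGroup q) * gx
        = A * S' := by
      simp only [A, S', Subgroup.coe_mul, map_mul]; group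
    have h6 : hu' (A * S') = hu' A := by
      simp only [hu']
      have i1 := e1 u (u⁻¹ * A * u) 1 (u⁻¹ * S' * u) (one_mem _) hs''
      have i2 := e1 A u S' 1 hs' (one_mem _)
      rw [mul_one] at i1 i2
      rw [show u⁻¹ * (A * S') * u = u⁻¹ * A * u * (u⁻¹ * S' * u) by group, i1, i2]
    show ((cycloChar p gx)⁻¹ : (ZMod p)ˣ) * μ₀ (a * s) + hu' _ = _
    rw [h5, hAS, h6]
  · have htriv : (cycloChar p (primeLocalToGlobal q (τ : primeLocalGaloisGroup q)) : ZMod p) = 1 := by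
      rw [cycloChar_placeStab hμ τ.2, Units.val_one]
    have he : k * c.1 (placeHom q U x τ, placeHom q U x τ') =
        (μ₀ τ' : ZMod p) - μ₀ (τ * τ') + μ₀ τ := by
      have h := congrFun e (τ, τ')
      rw [d₁₂_hom_apply] at h
      change (cycloChar p (primeLocalToGlobal q (τ : primeLocalGaloisGroup q)) : ZMod p) * μ₀ τ' -
        μ₀ (τ * τ') + μ₀ τ = k * c.1 (placeHom q U x τ, placeHom q U x τ') at h
      rw [htriv, one_mul] at h
      exact h.symm
    rw [← hM] at he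
    have hconj := M.conj hu (placeHom q U x τ).2 (placeHom q U x τ').2
    have hval : ∀ t : placeStab q U x, g⁻¹ * primeLocalToGlobal q (t : primeLocalGaloisGroup q) * g =
        u⁻¹ * (placeHom q U x t : GQ) * u := fun t => by
      show _ = u⁻¹ * (gx⁻¹ * primeLocalToGlobal q (t : primeLocalGaloisGroup q) * gx) * u
      rw [hg]; group
    rw [hval, hval, hconj]
    have hA : ∀ t : placeStab q U x, gx⁻¹ * primeLocalToGlobal q (t : primeLocalGaloisGroup q) * gx =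
        (placeHom q U x t : GQ) := fun t => rfl
    simp only [hu', hA]
    rw [map_mul (placeHom q U x), Subgroup.coe_mul]
    have hinv : ((cycloChar p gx)⁻¹ : (ZMod p)ˣ) * k = (1 : ZMod p) := by
      rw [hk, ← Units.val_mul, inv_mul_cancel, Units.val_one]
    linear_combination ((cycloChar p gx)⁻¹ : (ZMod p)ˣ) * he -
      M.C ((placeHom q U x τ : GQ), (placeHom q U x τ' : GQ)) * hinv

end Fermat.Agent.CFT
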