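import Fermat.Agent.CFT.Interface.Local
import Fermat.Agent.CFT.Global.Defs

/-!
# Basic facts about the carriers `placePts`, `diag`, `normFun`

Equivariance, gluing from one point of each local orbit, and norms.
-/

set_option autoImplicit false

open groupCohomology ExtCitation

noncomputable section

namespace Fermat.Agent.CFT

theorem finite_quot_of_isLevelSubgroup {U : Subgroup GQ}
    (hU : IsLevelSubgroup Levels.all (MonoidHom.id GQ) U) : Finite (GQ ⧸ U) := by
  obtain ⟨F, hF, h⟩ := hU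
  have : FiniteDimensional ℚ F := hF
  have h1 : Finite (GQ ⧸ F.fixingSubgroup) := by
    refine Finite.of_injective (β := F →ₐ[ℚ] AlgebraicClosure ℚ)
      (fun x => Quotient.liftOn' x (fun g => (g : GQ).toAlgHom.comp F.val) ?_) ?_
    · intro g g' hgg
      rw [QuotientGroup.leftRel_apply, IntermediateField.mem_fixingSubgroup_iff] at hgg
      ext ⟨a, ha⟩
      have := congrArg g (hgg a ha)
      show g a = g' a
      rw [← AlgEquiv.mul_apply, mul_inv_cancel_left] at this
      exact this.symm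
    · intro x y
      induction x using QuotientGroup.induction_on with | H g => ?_
      induction y using QuotientGroup.induction_on with | H g' => ?_
      intro hgg
      refine QuotientGroup.eq.2 ((IntermediateField.mem_fixingSubgroup_iff _ _).2 fun a ha => ?_)
      have h2 := DFunLike.congr_fun hgg ⟨a, ha⟩
      have h3 : g a = g' a := h2
      rw [AlgEquiv.mul_apply, ← h3]
      exact g.symm_apply_apply a
  have hle : F.fixingSubgroup ≤ U := fun s hs => h s hs
  exact Finite.of_surjective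
    (Quotient.map' id fun _ _ hab => QuotientGroup.leftRel_apply.2
      (hle (QuotientGroup.leftRel_apply.1 hab)) : GQ ⧸ F.fixingSubgroup → GQ ⧸ U)
    (fun x => QuotientGroup.induction_on x fun g => ⟨QuotientGroup.mk g, rfl⟩)

variable {U' U : Subgroup GQ}

/-- The projection `GQ ⧸ U' → GQ ⧸ U`. -/
def quotProj (h : U' ≤ U) : GQ ⧸ U' → GQ ⧸ U :=
  Quotient.map' id fun _ _ hab =>
    QuotientGroup.leftRel_apply.2 (h (QuotientGroup.leftRel_apply.1 hab))

@[simp] theorem quotProj_mk (h : U' ≤ U) (g : GQ) :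
    quotProj h (QuotientGroup.mk g) = QuotientGroup.mk g := rfl

theorem quotProj_smul (h : U' ≤ U) (g : GQ) (y : GQ ⧸ U') :
    quotProj h (g • y) = g • quotProj h y := by
  induction y using QuotientGroup.induction_on
  rfl

theorem quotProj_surjective (h : U' ≤ U) : Function.Surjective (quotProj h) := fun x =>
  QuotientGroup.induction_on x fun g => ⟨QuotientGroup.mk g, rfl⟩

/-- The fibre of the projection, as a finset. -/
def projFibre (h : U' ≤ U) [Finite (GQ ⧸ U')] (x : GQ ⧸ U) : Finset (GQ ⧸ U') :=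
  {y : GQ ⧸ U' | quotProj h y = x}.toFinite.toFinset

@[simp] theorem mem_projFibre (h : U' ≤ U) [Finite (GQ ⧸ U')] {x : GQ ⧸ U} {y : GQ ⧸ U'} :
    y ∈ projFibre h x ↔ quotProj h y = x := by simp [projFibre]

theorem card_projFibre (h : U' ≤ U) [Finite (GQ ⧸ U')] (x : GQ ⧸ U) :
    (projFibre h x).card = U'.relIndex U := by
  obtain ⟨g, rfl⟩ := QuotientGroup.mk_surjective x
  rw [Subgroup.relIndex, Subgroup.index, ← Nat.card_eq_finsetCard]
  symm
  let f : ↥U ⧸ U'.subgroupOf U → projFibre h (QuotientGroup.mk g : GQ ⧸ U) := fun u =>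
    Quotient.liftOn' u
      (fun u => ⟨g • (QuotientGroup.mk (u : GQ) : GQ ⧸ U'), by
        rw [mem_projFibre, MulAction.Quotient.smul_mk, quotProj_mk, smul_eq_mul, QuotientGroup.eq]
        simp⟩)
      (fun a b hab => by
        rw [QuotientGroup.leftRel_apply, Subgroup.mem_subgroupOf] at hab
        exact Subtype.ext (congrArg (g • ·) (QuotientGroup.eq.2 (by simpa using hab))))
  refine Nat.card_eq_of_bijective f ⟨fun a b => ?_, fun y => ?_⟩
  · induction a using QuotientGroup.induction_on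
    induction b using QuotientGroup.induction_on
    intro hab
    have h1 := smul_left_cancel g (congrArg Subtype.val hab)
    exact QuotientGroup.eq.2 (by simpa [Subgroup.mem_subgroupOf] using QuotientGroup.eq.1 h1)
  · obtain ⟨y, hy⟩ := y
    rw [mem_projFibre] at hy
    obtain ⟨k, rfl⟩ := QuotientGroup.mk_surjective y
    rw [quotProj_mk, QuotientGroup.eq] at hy
    refine ⟨QuotientGroup.mk ⟨g⁻¹ * k, by simpa using U.inv_mem hy⟩, Subtype.ext ?_⟩
    show g • (QuotientGroup.mk (g⁻¹ * k) : GQ ⧸ U') = _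
    rw [MulAction.Quotient.smul_mk, smul_eq_mul, mul_inv_cancel_left]

variable {X : Type*} [CommGroup X]

theorem normFun_eq_prod (h : U' ≤ U) [Finite (GQ ⧸ U')] (f : GQ ⧸ U' → X) (x : GQ ⧸ U) :
    normFun h f x = ∏ y ∈ projFibre h x, f y :=
  finprod_mem_eq_finite_toFinset_prod f _

theorem normFun_mul (h : U' ≤ U) [Finite (GQ ⧸ U')] (f f' : GQ ⧸ U' → X) :
    normFun h (f * f') = normFun h f * normFun h f' := by
  ext x
  simp [normFun_eq_prod, Finset.prod_mul_distrib]

theorem normFun_one (h : U' ≤ U) [Finite (GQ ⧸ U')] :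
    normFun h (1 : GQ ⧸ U' → X) = 1 := by
  ext x
  simp [normFun_eq_prod]

theorem normFun_comp_proj (h : U' ≤ U) [Finite (GQ ⧸ U')] (f : GQ ⧸ U → X) :
    normFun h (fun y => f (quotProj h y)) = f ^ U'.relIndex U := by
  ext x
  rw [normFun_eq_prod, Finset.prod_congr rfl (fun y hy => by rw [(mem_projFibre h).1 hy]),
    Finset.prod_const, card_projFibre, Pi.pow_apply]

theorem normFun_map {Y : Type*} [CommGroup Y] (h : U' ≤ U) [Finite (GQ ⧸ U')] (φ : X →* Y)
    (f : GQ ⧸ U' → X) : normFun h (fun y => φ (f y)) = fun x => φ (normFun h f x) := by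
  ext x
  rw [normFun_eq_prod, normFun_eq_prod, map_prod]

/-- `normFun` commutes with a translation of the fibres. -/
theorem normFun_smul (h : U' ≤ U) [Finite (GQ ⧸ U')] (g : GQ) (f : GQ ⧸ U' → X) (x : GQ ⧸ U) :
    normFun h f (g • x) = normFun h (fun y => f (g • y)) x := by
  rw [normFun_eq_prod, normFun_eq_prod]
  refine (Finset.prod_bij (fun y _ => g • y) (fun y hy => ?_) (fun a _ b _ hab => ?_)
    (fun y hy => ⟨g⁻¹ • y, ?_, smul_inv_smul _ _⟩) (fun _ _ => rfl)).symm
  · rw [mem_projFibre, quotProj_smul, (mem_projFibre h).1 hy]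
  · exact smul_left_cancel g hab
  · rw [mem_projFibre, quotProj_smul, (mem_projFibre h).1 hy, inv_smul_smul]

/-- The Galois action on units of `ℚ̄`. -/
def galUnit (g : GQ) : (AlgebraicClosure ℚ)ˣ →* (AlgebraicClosure ℚ)ˣ :=
  Units.map g.toRingEquiv.toRingHom.toMonoidHom

theorem galUnit_coe (g : GQ) (a : (AlgebraicClosure ℚ)ˣ) :
    ((galUnit g a : (AlgebraicClosure ℚ)ˣ) : AlgebraicClosure ℚ) = g a := rfl

theorem galUnit_mul (g g' : GQ) (a : (AlgebraicClosure ℚ)ˣ) :
    galUnit (g * g') a = galUnit g (galUnit g' a) := Units.ext rfl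

theorem globFun_apply (a : (AlgebraicClosure ℚ)ˣ) (x : GQ ⧸ U) :
    globFun U a x = galUnit (Quotient.out x) a := rfl

theorem globFun_mk {a : (AlgebraicClosure ℚ)ˣ} (ha : a ∈ fixedUnits U) (g : GQ) :
    globFun U a (QuotientGroup.mk g) = galUnit g a := by
  apply Units.ext
  obtain ⟨u, hu⟩ := QuotientGroup.mk_out_eq_mul U g
  show (Quotient.out (QuotientGroup.mk g : GQ ⧸ U) : GQ) (a : AlgebraicClosure ℚ) = g a
  rw [hu, AlgEquiv.mul_apply, ha _ u.2]

theorem globFun_smul {a : (AlgebraicClosure ℚ)ˣ} (ha : a ∈ fixedUnits U) (g : GQ) (x : GQ ⧸ U) :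
    globFun U a (g • x) = galUnit g (globFun U a x) := by
  obtain ⟨k, rfl⟩ := QuotientGroup.mk_surjective x
  rw [MulAction.Quotient.smul_mk, globFun_mk ha, globFun_mk ha, smul_eq_mul, galUnit_mul]

/-- The norm from the fixed field of `U'` to that of `U`. -/
def normUnit (h : U' ≤ U) (b : (AlgebraicClosure ℚ)ˣ) : (AlgebraicClosure ℚ)ˣ :=
  normFun h (globFun U' b) (QuotientGroup.mk 1)

theorem normUnit_mem (h : U' ≤ U) [Finite (GQ ⧸ U')] {b : (AlgebraicClosure ℚ)ˣ}
    (hb : b ∈ fixedUnits U') : normUnit h b ∈ fixedUnits U := by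
  intro g hg
  rw [← galUnit_coe]
  congr 1
  have hx : g • (QuotientGroup.mk 1 : GQ ⧸ U) = QuotientGroup.mk 1 := by
    rw [MulAction.Quotient.smul_mk, QuotientGroup.eq]
    simpa using hg
  conv_rhs => rw [normUnit, ← hx, normFun_smul]
  simp_rw [globFun_smul hb]
  rw [normFun_map]
  rfl

theorem normFun_globFun (h : U' ≤ U) [Finite (GQ ⧸ U')] {b : (AlgebraicClosure ℚ)ˣ}
    (hb : b ∈ fixedUnits U') : normFun h (globFun U' b) = globFun U (normUnit h b) := by
  ext1 x
  obtain ⟨g, rfl⟩ := QuotientGroup.mk_surjective x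
  rw [globFun_mk (normUnit_mem h hb)]
  conv_lhs => rw [show (QuotientGroup.mk g : GQ ⧸ U) = g • QuotientGroup.mk 1 by
    rw [MulAction.Quotient.smul_mk, smul_eq_mul, mul_one], normFun_smul]
  simp_rw [globFun_smul hb]
  rw [normFun_map]
  rfl

variable {q : Nat.Primes}

theorem diag_apply (a : (AlgebraicClosure ℚ)ˣ) (x : GQ ⧸ U) :
    diag q U a x = iota q (globFun U a x) := rfl

theorem iota_galUnit (τ : primeLocalGaloisGroup q) (a : (AlgebraicClosure ℚ)ˣ) :
    (iota q (galUnit (primeLocalToGlobal q τ) a) : Omega q) = locAct q τ (iota q a) :=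
  padicEmbedding_localGaloisToGlobal (q : ℕ) τ (a : AlgebraicClosure ℚ)

theorem diag_mem_placePts {a : (AlgebraicClosure ℚ)ˣ} (ha : a ∈ fixedUnits U) :
    diag q U a ∈ placePts q U := fun τ x => by
  rw [diag_apply, diag_apply, globFun_smul ha, iota_galUnit]

theorem normFun_diag (h : U' ≤ U) [Finite (GQ ⧸ U')] {b : (AlgebraicClosure ℚ)ˣ}
    (hb : b ∈ fixedUnits U') : normFun h (diag q U' b) = diag q U (normUnit h b) := by
  have h1 := normFun_map h (iota q) (globFun U' b)
  rw [normFun_globFun h hb] at h1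
  exact h1

/-- The local Galois action on units. -/
def locUnitAct (τ : primeLocalGaloisGroup q) : (Omega q)ˣ →* (Omega q)ˣ :=
  Units.map (locAct q τ).toRingEquiv.toRingHom.toMonoidHom

theorem locUnitAct_coe (τ : primeLocalGaloisGroup q) (z : (Omega q)ˣ) :
    ((locUnitAct τ z : (Omega q)ˣ) : Omega q) = locAct q τ z := rfl

theorem locUnitAct_mul (τ τ' : primeLocalGaloisGroup q) (z : (Omega q)ˣ) :
    locUnitAct (τ * τ') z = locUnitAct τ (locUnitAct τ' z) := Units.ext rfl

theorem placePts_apply {f : GQ ⧸ U → (Omega q)ˣ} (hf : f ∈ placePts q U)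
    (τ : primeLocalGaloisGroup q) (x : GQ ⧸ U) :
    f (primeLocalToGlobal q τ • x) = locUnitAct τ (f x) := Units.ext (hf τ x)

theorem mem_placePts_iff {f : GQ ⧸ U → (Omega q)ˣ} :
    f ∈ placePts q U ↔ ∀ (τ : primeLocalGaloisGroup q) (x : GQ ⧸ U),
      f (primeLocalToGlobal q τ • x) = locUnitAct τ (f x) :=
  ⟨fun hf τ x => placePts_apply hf τ x, fun hf τ x => congrArg Units.val (hf τ x)⟩

theorem placePts_apply_mem {f : GQ ⧸ U → (Omega q)ˣ} (hf : f ∈ placePts q U) (x : GQ ⧸ U) :
    f x ∈ locUnits q (placeStab q U x) := fun τ hτ => by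
  have h1 : primeLocalToGlobal q τ • x = x := hτ
  have h2 := hf τ x
  rw [h1] at h2
  exact h2.symm

theorem normFun_mem_placePts (h : U' ≤ U) [Finite (GQ ⧸ U')] {g : GQ ⧸ U' → (Omega q)ˣ}
    (hg : g ∈ placePts q U') : normFun h g ∈ placePts q U := by
  rw [mem_placePts_iff]
  intro τ x
  rw [normFun_smul]
  simp_rw [placePts_apply hg]
  rw [normFun_map]

/-- `x` and `y` define the same place. -/
def samePlace (q : Nat.Primes) (x y : GQ ⧸ U) : Prop :=
  ∃ τ : primeLocalGaloisGroup q, primeLocalToGlobal q τ • x = y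

theorem samePlace_equivalence : Equivalence (samePlace (U := U) q) where
  refl x := ⟨1, by simp⟩
  symm := fun ⟨τ, h⟩ => ⟨τ⁻¹, by rw [← h, map_inv, inv_smul_smul]⟩
  trans := fun ⟨τ, h⟩ ⟨τ', h'⟩ => ⟨τ' * τ, by rw [map_mul, mul_smul, h, h']⟩

/-- A chosen point in each local orbit. -/
def placeRep (q : Nat.Primes) (x : GQ ⧸ U) : GQ ⧸ U :=
  (Quotient.mk ⟨samePlace q, samePlace_equivalence⟩ x).out

theorem samePlace_placeRep (x : GQ ⧸ U) : samePlace q (placeRep q x) x :=
  Quotient.exact (Quotient.out_eq (Quotient.mk ⟨samePlace q, samePlace_equivalence⟩ x))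

theorem placeRep_smul (τ : primeLocalGaloisGroup q) (x : GQ ⧸ U) :
    placeRep q (primeLocalToGlobal q τ • x) = placeRep q x := by
  unfold placeRep
  congr 1
  exact Quotient.sound (samePlace_equivalence.symm ⟨τ, rfl⟩)

/-- Elements of `placePts` with a prescribed value at one point. -/
theorem exists_placePts_extend {x : GQ ⧸ U} {z : (Omega q)ˣ}
    (hz : z ∈ locUnits q (placeStab q U x)) :
    ∃ f ∈ placePts q U, f x = z ∧ ∀ y, ¬ samePlace q x y → f y = 1 := by
  classical
  let f : GQ ⧸ U → (Omega q)ˣ := fun y =>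
    if h : samePlace q x y then locUnitAct h.choose z else 1
  have key : ∀ τ : primeLocalGaloisGroup q, f (primeLocalToGlobal q τ • x) = locUnitAct τ z := by
    intro τ
    have h : samePlace q x (primeLocalToGlobal q τ • x) := ⟨τ, rfl⟩
    simp only [f, dif_pos h]
    have h2 : τ⁻¹ * h.choose ∈ placeStab q U x := by
      show primeLocalToGlobal q (τ⁻¹ * h.choose) • x = x
      rw [map_mul, mul_smul, h.choose_spec, map_inv, inv_smul_smul]
    calc locUnitAct h.choose z = locUnitAct τ (locUnitAct (τ⁻¹ * h.choose) z) := by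
          rw [← locUnitAct_mul, mul_inv_cancel_left]
      _ = locUnitAct τ z := by
        congr 1
        exact Units.ext (hz _ h2)
  refine ⟨f, mem_placePts_iff.2 fun τ y => ?_, ?_, fun y hy => dif_neg hy⟩
  · by_cases hy : samePlace q x y
    · obtain ⟨σ, rfl⟩ := hy
      rw [← mul_smul, ← map_mul, key, key, locUnitAct_mul]
    · have hy' : ¬ samePlace q x (primeLocalToGlobal q τ • y) := fun h =>
        hy (samePlace_equivalence.trans h (samePlace_equivalence.symm ⟨τ, rfl⟩))
      simp only [f, dif_neg hy, dif_neg hy', map_one]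
  · have h1 := key 1
    rw [map_one, one_smul] at h1
    rw [h1]
    exact Units.ext rfl

/-- Norms may be checked place by place. -/
theorem exists_norm_of_forall (h : U' ≤ U) [Finite (GQ ⧸ U')] {f : GQ ⧸ U → (Omega q)ˣ}
    (hf : f ∈ placePts q U) (hloc : ∀ x, ∃ g ∈ placePts q U', normFun h g x = f x) :
    ∃ g ∈ placePts q U', normFun h g = f := by
  choose g hg hgx using hloc
  let G : GQ ⧸ U' → (Omega q)ˣ := fun y => g (placeRep q (quotProj h y)) y
  have hG : G ∈ placePts q U' := by
    rw [mem_placePts_iff]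
    intro τ y
    simp only [G, quotProj_smul, placeRep_smul]
    exact placePts_apply (hg _) τ y
  refine ⟨G, hG, funext fun x => ?_⟩
  obtain ⟨τ, hτ⟩ := samePlace_placeRep (q := q) x
  have h1 : normFun h G x = normFun h (g (placeRep q x)) x := by
    rw [normFun_eq_prod, normFun_eq_prod]
    exact Finset.prod_congr rfl fun y hy => by simp only [G, (mem_projFibre h).1 hy]
  have h2 : ∀ F : GQ ⧸ U → (Omega q)ˣ, F ∈ placePts q U →
      F x = locUnitAct τ (F (placeRep q x)) := fun F hF => by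
    conv_lhs => rw [← hτ]
    exact placePts_apply hF τ _
  rw [h1, h2 _ (normFun_mem_placePts h (hg _)), hgx, ← h2 f hf]

/-- `p`-th powers are norms. -/
theorem exists_norm_pow (h : U' ≤ U) [Finite (GQ ⧸ U')] {x : GQ ⧸ U} {z : (Omega q)ˣ}
    (hz : z ∈ locUnits q (placeStab q U x)) :
    ∃ g ∈ placePts q U', normFun h g x = z ^ U'.relIndex U := by
  obtain ⟨f, hf, hfx, -⟩ := exists_placePts_extend hz
  refine ⟨fun y => f (quotProj h y), ?_, ?_⟩
  · rw [mem_placePts_iff]
    intro τ y
    rw [quotProj_smul]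
    exact placePts_apply hf τ _
  · rw [normFun_comp_proj, Pi.pow_apply, hfx]

/-- Where the place splits completely everything is a norm. -/
theorem exists_norm_split (h : U' ≤ U) [Finite (GQ ⧸ U')] {x : GQ ⧸ U}
    (hsplit : ∀ τ ∈ placeStab q U x, ∀ y, quotProj h y = x → primeLocalToGlobal q τ • y = y)
    {z : (Omega q)ˣ} (hz : z ∈ locUnits q (placeStab q U x)) :
    ∃ g ∈ placePts q U', normFun h g x = z := by
  classical
  obtain ⟨y₀, hy₀⟩ := quotProj_surjective h x
  have hz' : z ∈ locUnits q (placeStab q U' y₀) := by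
    intro τ hτ
    refine hz τ ?_
    have hτ' : primeLocalToGlobal q τ • y₀ = y₀ := hτ
    show primeLocalToGlobal q τ • x = x
    rw [← hy₀, ← quotProj_smul, hτ']
  obtain ⟨g, hg, hgy, hg1⟩ := exists_placePts_extend hz'
  refine ⟨g, hg, ?_⟩
  rw [normFun_eq_prod, Finset.prod_eq_single y₀, hgy]
  · intro y hy hne
    refine hg1 y fun ⟨τ, hτ⟩ => hne ?_
    rw [← hτ]
    refine hsplit τ ?_ y₀ hy₀
    show primeLocalToGlobal q τ • x = x
    rw [← hy₀, ← quotProj_smul, hτ, (mem_projFibre h).1 hy, hy₀]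
  · intro hy
    exact absurd ((mem_projFibre h).2 hy₀) hy

end Fermat.Agent.CFT
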