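import Fermat.Agent.CFT.Global.LocalDense
import Mathlib.NumberTheory.NumberField.ClassNumber
import Mathlib.RingTheory.DedekindDomain.SInteger
import Mathlib.RingTheory.DedekindDomain.SelmerGroup

/-!
# Dictionary between the carriers and the fixed field
-/

set_option autoImplicit false

open groupCohomology ExtCitation NumberField IsDedekindDomain

noncomputable section

namespace Fermat.Agent.CFT

/-- The fixed field of `U`. -/
abbrev fxFld (U : Subgroup GQ) : IntermediateField ℚ (AlgebraicClosure ℚ) :=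
  IntermediateField.fixedField U

theorem numberField_fxFld {U : Subgroup GQ}
    (hU : IsLevelSubgroup Levels.all (MonoidHom.id GQ) U) : NumberField (fxFld U) := by
  obtain ⟨F, hF, h⟩ := hU
  have : FiniteDimensional ℚ F := hF
  have hle : fxFld U ≤ F := fun x hx => by
    rw [← InfiniteGalois.fixedField_fixingSubgroup F]
    exact fun g => hx ⟨g, h g g.2⟩
  have : FiniteDimensional ℚ (fxFld U) :=
    FiniteDimensional.of_injective (IntermediateField.inclusion hle).toLinearMap
      (IntermediateField.inclusion_injective hle)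
  exact ⟨⟩

variable {U : Subgroup GQ}

/-- `fixedUnits U` is the multiplicative group of the fixed field. -/
def fixToField (U : Subgroup GQ) : fixedUnits U →* (fxFld U)ˣ where
  toFun a := Units.mk0 ⟨((a : (AlgebraicClosure ℚ)ˣ) : AlgebraicClosure ℚ), fun g => a.2 g g.2⟩
    (fun h => (a : (AlgebraicClosure ℚ)ˣ).ne_zero (congrArg Subtype.val h))
  map_one' := Units.ext rfl
  map_mul' _ _ := Units.ext rfl

theorem fixToField_coe (a : fixedUnits U) :
    (((fixToField U a : (fxFld U)ˣ) : fxFld U) : AlgebraicClosure ℚ) =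
      ((a : (AlgebraicClosure ℚ)ˣ) : AlgebraicClosure ℚ) := rfl

theorem fixToField_bijective (U : Subgroup GQ) : Function.Bijective (fixToField U) := by
  constructor
  · intro a b h
    exact Subtype.ext (Units.ext (congrArg (fun t : (fxFld U)ˣ =>
      ((t : fxFld U) : AlgebraicClosure ℚ)) h))
  · intro b
    exact ⟨⟨Units.mk0 ((b : fxFld U) : AlgebraicClosure ℚ)
      (fun h => b.ne_zero (Subtype.ext h)), fun g hg => (b : fxFld U).2 ⟨g, hg⟩⟩, Units.ext rfl⟩

/-- The place of the orbit of `x` over `q`. -/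
def placeOf (U : Subgroup GQ) (q : Nat.Primes) (x : GQ ⧸ U) :
    HeightOneSpectrum (𝓞 (fxFld U)) :=
  primeAt (fxFld U) q (Quotient.out x)

theorem placeOf_surjective [NumberField (fxFld U)]
    (hU : IsLevelSubgroup Levels.all (MonoidHom.id GQ) U) (v : HeightOneSpectrum (𝓞 (fxFld U))) :
    ∃ (q : Nat.Primes) (x : GQ ⧸ U), placeOf U q x = v := by
  obtain ⟨q, g, rfl⟩ := exists_primeAt_eq _ v
  refine ⟨q, QuotientGroup.mk g,
    ((primeAt_eq_iff (fixingSubgroup_fixedField_of_level hU)).2 ⟨rfl, 1, ?_⟩).symm⟩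
  obtain ⟨u, hu⟩ := QuotientGroup.mk_out_eq_mul U g
  exact ⟨u, u.2, by rw [map_one, one_mul]; exact hu⟩

theorem placeOf_eq_iff (hU : IsLevelSubgroup Levels.all (MonoidHom.id GQ) U)
    {q q' : Nat.Primes} {x : GQ ⧸ U} {y : GQ ⧸ U} :
    placeOf U q x = placeOf U q' y ↔ q = q' ∧ samePlace q x y := by
  rw [placeOf, placeOf, primeAt_eq_iff (fixingSubgroup_fixedField_of_level hU)]
  refine and_congr_right fun _ => exists_congr fun τ => ⟨?_, fun h => ?_⟩
  · rintro ⟨u, hu, h⟩
    rw [← QuotientGroup.out_eq' y, h, ← QuotientGroup.out_eq' x, MulAction.Quotient.smul_mk,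
      QuotientGroup.out_eq', QuotientGroup.eq, smul_eq_mul]
    simpa [mul_assoc] using hu
  · rw [← QuotientGroup.out_eq' x, MulAction.Quotient.smul_mk] at h
    obtain ⟨u, hu⟩ := QuotientGroup.mk_out_eq_mul U
      (primeLocalToGlobal q τ • (Quotient.out x : GQ))
    exact ⟨u, u.2, by rw [← h, hu, smul_eq_mul]⟩

theorem natCast_mem_placeOf (q : Nat.Primes) (x : GQ ⧸ U) :
    ((q : ℕ) : 𝓞 (fxFld U)) ∈ (placeOf U q x).asIdeal :=
  natCast_mem_primeUnder _ q _

theorem norm_locUnitAct {q : Nat.Primes} (τ : primeLocalGaloisGroup q) (z : (Omega q)ˣ) :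
    ‖(locUnitAct τ z : Omega q)‖ = ‖(z : Omega q)‖ :=
  congrArg NNReal.toReal (nnnorm_padicAlgCl_algEquiv (q := (q : ℕ)) τ (z : Omega q))

theorem norm_diag_eq_galNorm (a : (AlgebraicClosure ℚ)ˣ) (q : Nat.Primes) (x : GQ ⧸ U) :
    ‖(diag q U a x : Omega q)‖ = galNorm q (Quotient.out x) (a : AlgebraicClosure ℚ) := rfl

variable [NumberField (fxFld U)]

theorem valuation_placeOf_lt_one_iff (a : fixedUnits U) (q : Nat.Primes) (x : GQ ⧸ U) :
    (placeOf U q x).valuation (fxFld U) (fixToField U a : fxFld U) < 1 ↔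
      ‖(diag q U a x : Omega q)‖ < 1 :=
  valuation_primeAt_lt_one_iff _ q _ _

theorem valuation_placeOf_eq_one_iff (a : fixedUnits U) (q : Nat.Primes) (x : GQ ⧸ U) :
    (placeOf U q x).valuation (fxFld U) (fixToField U a : fxFld U) = 1 ↔
      ‖(diag q U a x : Omega q)‖ = 1 := by
  have h1 := valuation_placeOf_lt_one_iff a q x
  have h2 := valuation_placeOf_lt_one_iff a⁻¹ q x
  have e2 : ‖(diag q U ((a⁻¹ : fixedUnits U) : (AlgebraicClosure ℚ)ˣ) x : Omega q)‖ =
      ‖(diag q U a x : Omega q)‖⁻¹ := by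
    rw [Subgroup.coe_inv, map_inv, Pi.inv_apply, Units.val_inv_eq_inv_val, norm_inv]
  have hpos : 0 < ‖(diag q U a x : Omega q)‖ := norm_pos_iff.2 (Units.ne_zero _)
  rw [e2, inv_lt_one₀ hpos, map_inv, Units.val_inv_eq_inv_val, map_inv₀,
    inv_lt_one₀ ((Valuation.pos_iff _).2 (Units.ne_zero _))] at h2
  constructor
  · intro h
    rw [h] at h1 h2
    exact le_antisymm (not_lt.1 fun hl => lt_irrefl _ (h2.2 hl))
      (not_lt.1 fun hl => lt_irrefl _ (h1.2 hl))
  · intro h
    rw [h] at h1 h2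
    exact le_antisymm (not_lt.1 fun hl => lt_irrefl _ (h2.1 hl))
      (not_lt.1 fun hl => lt_irrefl _ (h1.1 hl))

theorem norm_diag_eq_of_valuation_eq (a b : fixedUnits U) (q : Nat.Primes) (x : GQ ⧸ U)
    (h : (placeOf U q x).valuation (fxFld U) (fixToField U a : fxFld U) =
      (placeOf U q x).valuation (fxFld U) (fixToField U b : fxFld U)) :
    ‖(diag q U a x : Omega q)‖ = ‖(diag q U b x : Omega q)‖ := by
  have h1 : (placeOf U q x).valuation (fxFld U) (fixToField U (a * b⁻¹) : fxFld U) = 1 := by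
    rw [map_mul, map_inv, Units.val_mul, Units.val_inv_eq_inv_val, map_mul, map_inv₀, h,
      mul_inv_cancel₀ ((Valuation.ne_zero_iff _).2 (Units.ne_zero _))]
  rw [valuation_placeOf_eq_one_iff] at h1
  have hb : ‖(diag q U b x : Omega q)‖ ≠ 0 := norm_ne_zero_iff.2 (Units.ne_zero _)
  rw [Subgroup.coe_mul, Subgroup.coe_inv, map_mul, map_inv, Pi.mul_apply, Pi.inv_apply,
    Units.val_mul, Units.val_inv_eq_inv_val, norm_mul, norm_inv] at h1
  field_simp at h1
  exact h1

section Finite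

variable [Finite (GQ ⧸ U)]

/-- The places of the fixed field over `S`. -/
def placesAbove (U : Subgroup GQ) [Finite (GQ ⧸ U)] (S : Finset Nat.Primes) :
    Finset (HeightOneSpectrum (𝓞 (fxFld U))) :=
  ((S.finite_toSet.prod (Set.finite_univ (α := GQ ⧸ U))).image
    (fun z => placeOf U z.1 z.2)).toFinset

theorem mem_placesAbove {S : Finset Nat.Primes} {v : HeightOneSpectrum (𝓞 (fxFld U))} :
    v ∈ placesAbove U S ↔ ∃ q ∈ S, ∃ x, placeOf U q x = v := by
  simp [placesAbove]

theorem placeOf_mem_placesAbove_iff (hU : IsLevelSubgroup Levels.all (MonoidHom.id GQ) U)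
    {S : Finset Nat.Primes} {q : Nat.Primes} {x : GQ ⧸ U} :
    placeOf U q x ∈ placesAbove U S ↔ q ∈ S := by
  rw [mem_placesAbove]
  constructor
  · rintro ⟨q', hq', x', h⟩
    rw [← ((placeOf_eq_iff hU).1 h).1]
    exact hq'
  · exact fun h => ⟨q, h, x, rfl⟩

theorem mem_sUnits_iff (hU : IsLevelSubgroup Levels.all (MonoidHom.id GQ) U)
    {S : Finset Nat.Primes} (a : fixedUnits U) :
    (a : (AlgebraicClosure ℚ)ˣ) ∈ sUnits S U ↔
      fixToField U a ∈ (↑(placesAbove U S) : Set (HeightOneSpectrum (𝓞 (fxFld U)))).unit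
        (fxFld U) := by
  constructor
  · rintro ⟨-, h⟩ v hv
    obtain ⟨q, x, rfl⟩ := placeOf_surjective hU v
    exact (valuation_placeOf_eq_one_iff a q x).2
      (h q (fun hq => hv ((placeOf_mem_placesAbove_iff hU).2 hq)) x)
  · intro h
    exact ⟨a.2, fun q hq x => (valuation_placeOf_eq_one_iff a q x).1
      (h _ fun hm => hq ((placeOf_mem_placesAbove_iff hU).1 hm))⟩

/-- `S` generates the class group of the fixed field, in element form. -/
def ClassTrivialAt (U : Subgroup GQ) [NumberField (fxFld U)] [Finite (GQ ⧸ U)]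
    (S : Finset Nat.Primes) : Prop :=
  ∀ v : HeightOneSpectrum (𝓞 (fxFld U)), v ∉ placesAbove U S → ∃ a : (fxFld U)ˣ,
    Multiplicative.toAdd (v.valuationOfNeZero a) = -1 ∧
      ∀ w, w ∉ placesAbove U S → w ≠ v → w.valuation (fxFld U) (a : fxFld U) = 1

theorem exists_classTrivialAt (hU : IsLevelSubgroup Levels.all (MonoidHom.id GQ) U) :
    ∃ S₀ : Finset Nat.Primes, ∀ S, S₀ ⊆ S → ClassTrivialAt U S := by
  classical
  choose J hJ using ClassGroup.mk0_surjective (R := 𝓞 (fxFld U))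
  set N : ℕ := ∏ c : ClassGroup (𝓞 (fxFld U)), Ideal.absNorm (J c : Ideal (𝓞 (fxFld U)))
  have hN : N ≠ 0 :=
    Finset.prod_ne_zero_iff.2 fun c _ => (Ideal.absNorm_pos_of_nonZeroDivisors (J c)).ne'
  refine ⟨N.primeFactors.subtype Nat.Prime, fun S hS v hv => ?_⟩
  have hv0 : v.asIdeal ∈ nonZeroDivisors (Ideal (𝓞 (fxFld U))) :=
    mem_nonZeroDivisors_of_ne_zero v.ne_bot
  set c := (ClassGroup.mk0 ⟨v.asIdeal, hv0⟩)⁻¹
  have hprin : ClassGroup.mk0 (⟨v.asIdeal, hv0⟩ * J c) = 1 := by
    rw [map_mul, hJ c, mul_inv_cancel]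
  rw [ClassGroup.mk0_eq_one_iff] at hprin
  obtain ⟨x, hx⟩ := hprin
  change v.asIdeal * (J c : Ideal (𝓞 (fxFld U))) = Ideal.span {x} at hx
  have hx0 : x ≠ 0 := by
    rintro rfl
    rw [Ideal.span_singleton_eq_bot.2 rfl] at hx
    exact nonZeroDivisors.ne_zero (mul_mem hv0 (J c).2) hx
  have hnot : ∀ w, w ∉ placesAbove U S → ¬ (J c : Ideal (𝓞 (fxFld U))) ≤ w.asIdeal := by
    intro w hw hle
    obtain ⟨q, y, rfl⟩ := placeOf_surjective hU w
    have hq : q ∉ S := fun h => hw ((placeOf_mem_placesAbove_iff hU).2 h)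
    have h1 : ((Ideal.absNorm (J c : Ideal (𝓞 (fxFld U))) : ℕ) : 𝓞 (fxFld U)) ∈
        (placeOf U q y).asIdeal := hle (Ideal.absNorm_mem _)
    have hdvd : (q : ℕ) ∣ N := by
      refine dvd_trans ?_ (Finset.dvd_prod_of_mem _ (Finset.mem_univ c))
      by_contra hnd
      obtain ⟨a, b, hab⟩ := (Nat.isCoprime_iff_coprime.2
        ((Nat.Prime.coprime_iff_not_dvd q.2).2 hnd))
      have h2 := congrArg (fun z : ℤ => (z : 𝓞 (fxFld U))) hab
      simp only [Int.cast_add, Int.cast_mul, Int.cast_natCast, Int.cast_one] at h2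
      apply (placeOf U q y).isPrime.ne_top
      rw [Ideal.eq_top_iff_one, ← h2]
      exact Ideal.add_mem _ (Ideal.mul_mem_left _ _ (natCast_mem_placeOf q y))
        (Ideal.mul_mem_left _ _ h1)
    exact hq (hS (Finset.mem_subtype.2 (Nat.mem_primeFactors.2 ⟨q.2, hdvd, hN⟩)))
  refine ⟨Units.mk0 (algebraMap _ _ x)
    ((map_ne_zero_iff _ (FaithfulSMul.algebraMap_injective _ _)).2 hx0), ?_, fun w hw hne => ?_⟩
  · have hmult : multiplicity v.asIdeal (Ideal.span {x}) = 1 := by
      refine multiplicity_eq_of_dvd_of_not_dvd (by rw [pow_one, ← hx]; exact dvd_mul_right _ _) ?_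
      intro h
      rw [← hx, show (1 + 1) = 2 from rfl, pow_two] at h
      exact hnot v hv (Ideal.le_of_dvd ((mul_dvd_mul_iff_left v.ne_bot).1 h))
    have h2 : ((v.valuationOfNeZero (Units.mk0 (algebraMap (𝓞 (fxFld U)) (fxFld U) x)
        ((map_ne_zero_iff _ (FaithfulSMul.algebraMap_injective _ _)).2 hx0))) :
          WithZero (Multiplicative ℤ)) =
        (Multiplicative.ofAdd (-1 : ℤ) : Multiplicative ℤ) := by
      rw [HeightOneSpectrum.valuationOfNeZero_eq, Units.val_mk0,
        HeightOneSpectrum.valuation_of_algebraMap, v.intValuation_eq_exp_neg_multiplicity hx0,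
        hmult]
      rfl
    rw [WithZero.coe_inj.1 h2, toAdd_ofAdd]
  · rw [Units.val_mk0, w.valuation_eq_one_iff_notMem]
    intro hmem
    have hle : v.asIdeal * (J c : Ideal (𝓞 (fxFld U))) ≤ w.asIdeal := by
      rw [hx, Ideal.span_singleton_le_iff_mem]; exact hmem
    rcases w.isPrime.mul_le.1 hle with h | h
    · exact hne (HeightOneSpectrum.ext (v.isMaximal.eq_of_le w.isPrime.ne_top h).symm)
    · exact hnot w hw h

/-- An element with prescribed absolute values on `T`, a unit outside `S ∪ T`. -/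
theorem exists_fixed_prescribed (hU : IsLevelSubgroup Levels.all (MonoidHom.id GQ) U)
    {S : Finset Nat.Primes} (hcl : ClassTrivialAt U S) (T : Finset Nat.Primes)
    (hST : Disjoint S T) (f : ∀ q : Nat.Primes, GQ ⧸ U → (Omega q)ˣ)
    (hf : ∀ q ∈ T, f q ∈ placePts q U) :
    ∃ a ∈ fixedUnits U,
      (∀ q ∈ T, ∀ x, ‖(diag q U a x : Omega q)‖ = ‖(f q x : Omega q)‖) ∧
      ∀ q, q ∉ S → q ∉ T → ∀ x, ‖(diag q U a x : Omega q)‖ = 1 := by
  classical
  have happ : ∀ q ∈ T, ∀ x : GQ ⧸ U, ∃ b : fixedUnits U,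
      ‖(diag q U b x : Omega q)‖ = ‖(f q x : Omega q)‖ := fun q hq x => by
    obtain ⟨b, hb, -, h⟩ := exists_fixedUnits_approx hU x (placePts_apply_mem (hf q hq) x) one_pos
    exact ⟨⟨b, hb⟩, h⟩
  choose! b hb using happ
  have hrep : ∀ v ∈ placesAbove U T, ∃ z : Nat.Primes × (GQ ⧸ U),
      z.1 ∈ T ∧ placeOf U z.1 z.2 = v := fun v hv =>
    let ⟨q, hq, x, h⟩ := mem_placesAbove.1 hv
    ⟨(q, x), hq, h⟩
  choose! z hzT hz using hrep
  have hnotS : ∀ v ∈ placesAbove U T, v ∉ placesAbove U S := by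
    intro v hv hS
    obtain ⟨q, hq, x, rfl⟩ := mem_placesAbove.1 hv
    exact Finset.disjoint_left.1 hST ((placeOf_mem_placesAbove_iff hU).1 hS) hq
  have hgen : ∀ v ∈ placesAbove U T, ∃ a : fixedUnits U,
      Multiplicative.toAdd (v.valuationOfNeZero (fixToField U a)) = -1 ∧
      ∀ w, w ∉ placesAbove U S → w ≠ v → w.valuation (fxFld U) (fixToField U a : fxFld U) = 1 :=
    fun v hv => by
      obtain ⟨a, ha⟩ := hcl v (hnotS v hv)
      obtain ⟨a', rfl⟩ := (fixToField_bijective U).2 a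
      exact ⟨a', ha⟩
  choose! g hg1 hg2 using hgen
  set e : HeightOneSpectrum (𝓞 (fxFld U)) → ℤ := fun v =>
    - Multiplicative.toAdd (v.valuationOfNeZero (fixToField U (b (z v).1 (z v).2)))
  set A : fixedUnits U := ∏ v ∈ placesAbove U T, g v ^ e v
  refine ⟨A, A.2, fun q hq x => ?_, fun q hqS hqT x => ?_⟩
  · set v := placeOf U q x
    have hv : v ∈ placesAbove U T := (placeOf_mem_placesAbove_iff hU).2 hq
    have hA : v.valuationOfNeZero (fixToField U A) =
        v.valuationOfNeZero (fixToField U (b (z v).1 (z v).2)) := by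
      apply Multiplicative.toAdd.injective
      rw [show fixToField U A = ∏ w ∈ placesAbove U T, fixToField U (g w) ^ e w by
        simp [A, map_prod, map_zpow], map_prod, toAdd_prod, Finset.sum_eq_single v]
      · rw [map_zpow, toAdd_zpow, hg1 v hv]
        simp [e]
      · intro w hw hne
        have : v.valuationOfNeZero (fixToField U (g w)) = 1 := by
          rw [← WithZero.coe_inj, HeightOneSpectrum.valuationOfNeZero_eq,
            hg2 w hw v (hnotS v hv) (Ne.symm hne)]
          rfl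
        rw [map_zpow, this, one_zpow, toAdd_one]
      · exact fun h => absurd hv h
    have hA' := congrArg (fun t : Multiplicative ℤ => (t : WithZero (Multiplicative ℤ))) hA
    simp only [HeightOneSpectrum.valuationOfNeZero_eq] at hA'
    rw [norm_diag_eq_of_valuation_eq A _ q x hA']
    have key : ∀ (q' : Nat.Primes) (x' : GQ ⧸ U), q' ∈ T → placeOf U q' x' = v →
        ‖(diag q U (b q' x') x : Omega q)‖ = ‖(f q x : Omega q)‖ := by
      intro q' x' hq' h
      obtain ⟨hqq, τ, hτ⟩ := (placeOf_eq_iff hU).1 h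
      obtain rfl : q' = q := hqq
      rw [← hτ, placePts_apply (diag_mem_placePts (b q' x').2) τ x',
        placePts_apply (hf q' hq) τ x', norm_locUnitAct, norm_locUnitAct]
      exact hb q' hq x'
    exact key _ _ (hzT v hv) (hz v hv)
  · refine (valuation_placeOf_eq_one_iff A q x).1 ?_
    have hnS : placeOf U q x ∉ placesAbove U S := fun h =>
      hqS ((placeOf_mem_placesAbove_iff hU).1 h)
    have h1 : fixToField U A ∈
        ((↑(placesAbove U S) ∪ ↑(placesAbove U T) : Set (HeightOneSpectrum (𝓞 (fxFld U))))).unit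
          (fxFld U) := by
      rw [map_prod]
      refine Subgroup.prod_mem _ fun v hv => ?_
      rw [map_zpow]
      refine Subgroup.zpow_mem _ ?_ _
      intro w hw
      exact hg2 v hv w (fun h => hw (Or.inl h)) (fun h => hw (Or.inr (h ▸ hv)))
    exact h1 _ fun h => h.elim hnS fun h => hqT ((placeOf_mem_placesAbove_iff hU).1 h)

end Finite

end Fermat.Agent.CFT
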