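import Fermat.Agent.CFT.Global.PlaceField
import Fermat.Agent.CFT.Global.StepLocalIndex
import Fermat.Agent.CFT.Global.StepH1
import Fermat.Agent.CFT.SUnitsHerbrand

/-!
# The field extension of a step and its Galois group
-/

set_option autoImplicit false
set_option linter.unusedSectionVars false

open groupCohomology ExtCitation NumberField IsDedekindDomain

noncomputable section

namespace Fermat.Agent.CFT

variable {U' U : Subgroup GQ}

/-- The inclusion of the fixed fields, as an algebra structure. -/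
abbrev stepAlgebra (h : U' ≤ U) : Algebra (fxFld U) (fxFld U') :=
  (IntermediateField.inclusion (IntermediateField.fixedField_antitone h)).toRingHom.toAlgebra

namespace CosetStep

variable {p : ℕ} (D : CosetStep p U' U) [Algebra (fxFld U) (fxFld U')]
  (hc : ∀ x : fxFld U, ((algebraMap (fxFld U) (fxFld U') x : fxFld U') : AlgebraicClosure ℚ) = x)

/-- The generator as an endomorphism of the upper field. -/
def genAlgHom : fxFld U' →ₐ[fxFld U] fxFld U' where
  toFun x := ⟨D.gen x, fun g => by
    have := D.gen_pow_fixed (x := (x : AlgebraicClosure ℚ)) (fun u hu => x.2 ⟨u, hu⟩) 1 g g.2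
    rwa [pow_one] at this⟩
  map_one' := Subtype.ext (map_one D.gen)
  map_mul' _ _ := Subtype.ext (map_mul D.gen _ _)
  map_zero' := Subtype.ext (map_zero D.gen)
  map_add' _ _ := Subtype.ext (map_add D.gen _ _)
  commutes' x := Subtype.ext (by
    show D.gen ((algebraMap (fxFld U) (fxFld U') x : fxFld U') : AlgebraicClosure ℚ) = _
    rw [hc]
    exact x.2 ⟨_, D.gen_mem⟩)

variable [NumberField (fxFld U)] [NumberField (fxFld U')]

include D hc

omit D hc in
lemma finiteDimensional_step : FiniteDimensional (fxFld U) (fxFld U') :=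
  have : IsScalarTower ℚ (fxFld U) (fxFld U') := IsScalarTower.of_algebraMap_eq' (Subsingleton.elim _ _)
  Module.Finite.of_restrictScalars_finite ℚ (fxFld U) (fxFld U')

/-- The generator in the Galois group. -/
def galGen : Gal((fxFld U')/(fxFld U)) :=
  have := finiteDimensional_step (U' := U') (U := U)
  AlgEquiv.ofBijective (D.genAlgHom hc) ⟨(D.genAlgHom hc).injective,
    LinearMap.surjective_of_injective (f := (D.genAlgHom hc).toLinearMap)
      (D.genAlgHom hc).injective⟩

lemma galGen_apply (x : fxFld U') :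
    ((D.galGen hc x : fxFld U') : AlgebraicClosure ℚ) = D.gen (x : AlgebraicClosure ℚ) := rfl

lemma galGen_pow_apply (i : ℕ) (x : fxFld U') :
    (((D.galGen hc ^ i) x : fxFld U') : AlgebraicClosure ℚ) =
      (D.gen ^ i) (x : AlgebraicClosure ℚ) := by
  induction i generalizing x with
  | zero => rfl
  | succ i ih =>
    rw [pow_succ, pow_succ, AlgEquiv.mul_apply, AlgEquiv.mul_apply, ih, D.galGen_apply]

lemma galGen_pow_eq_one_iff (hU' : IsLevelSubgroup Levels.all (MonoidHom.id GQ) U') (i : ℕ) :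
    D.galGen hc ^ i = 1 ↔ p ∣ i := by
  rw [← D.pow_mem_iff]
  constructor
  · intro h
    apply (fixingSubgroup_fixedField_of_level hU').le
    rw [IntermediateField.mem_fixingSubgroup_iff]
    intro x hx
    rw [← D.galGen_pow_apply hc i ⟨x, hx⟩, h]
    rfl
  · intro h
    exact AlgEquiv.ext fun x => Subtype.ext ((D.galGen_pow_apply hc i x).trans (x.2 ⟨_, h⟩))

lemma orderOf_galGen (hU' : IsLevelSubgroup Levels.all (MonoidHom.id GQ) U') :
    orderOf (D.galGen hc) = p := by
  apply Nat.dvd_antisymm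
  · exact orderOf_dvd_of_pow_eq_one ((D.galGen_pow_eq_one_iff hc hU' p).2 dvd_rfl)
  · exact (D.galGen_pow_eq_one_iff hc hU' _).1 (pow_orderOf_eq_one _)

lemma finrank_step (hU' : IsLevelSubgroup Levels.all (MonoidHom.id GQ) U') :
    Module.finrank (fxFld U) (fxFld U') = p := by
  obtain ⟨F, hF, hFU⟩ := hU'
  have : FiniteDimensional ℚ F := hF
  have : IsScalarTower ℚ (fxFld U) (fxFld U') := IsScalarTower.of_algebraMap_eq' (Subsingleton.elim _ _)
  have h1 : Module.finrank ℚ (fxFld U') = U'.index := finrank_fixedField_of_le (F := F) hFU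
  have h2 : Module.finrank ℚ (fxFld U) = U.index :=
    finrank_fixedField_of_le (F := F) fun s hs => D.le (hFU s hs)
  have h3 := Module.finrank_mul_finrank ℚ (fxFld U) (fxFld U')
  rw [h1, h2, ← Subgroup.relIndex_mul_index D.le, D.index, mul_comm] at h3
  have hpos : 0 < U.index := h2 ▸ Module.finrank_pos
  exact Nat.eq_of_mul_eq_mul_right hpos h3

lemma card_gal_step (hU' : IsLevelSubgroup Levels.all (MonoidHom.id GQ) U') :
    Nat.card Gal((fxFld U')/(fxFld U)) = p := by
  refine le_antisymm ?_ ?_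
  · rw [Nat.card_eq_fintype_card, ← D.finrank_step hc hU']
    exact AlgEquiv.card_le
  · conv_lhs => rw [← D.orderOf_galGen hc hU']
    exact Nat.le_of_dvd Nat.card_pos (orderOf_dvd_natCard _)

lemma galGen_generates (hU' : IsLevelSubgroup Levels.all (MonoidHom.id GQ) U')
    (g : Gal((fxFld U')/(fxFld U))) : g ∈ Subgroup.zpowers (D.galGen hc) := by
  have h : Subgroup.zpowers (D.galGen hc) = ⊤ := Subgroup.eq_top_of_card_eq _ (by
    rw [Nat.card_zpowers, D.orderOf_galGen hc hU', D.card_gal_step hc hU'])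
  rw [h]
  exact Subgroup.mem_top g

lemma isGalois_step (hU' : IsLevelSubgroup Levels.all (MonoidHom.id GQ) U') :
    IsGalois (fxFld U) (fxFld U') :=
  IsGalois.of_card_aut_eq_finrank _ _ (by rw [D.card_gal_step hc hU', D.finrank_step hc hU'])

lemma galNorm_out_proj (q : Nat.Primes) (y : GQ ⧸ U') (a : fxFld U) :
    galNorm q (Quotient.out y) (a : AlgebraicClosure ℚ) =
      galNorm q (Quotient.out (quotProj D.le y)) (a : AlgebraicClosure ℚ) := by
  induction y using QuotientGroup.induction_on with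
  | _ g =>
    obtain ⟨u, hu⟩ := QuotientGroup.mk_out_eq_mul U' g
    obtain ⟨u₂, hu₂⟩ := QuotientGroup.mk_out_eq_mul U g
    rw [quotProj_mk, hu, hu₂, galNorm_mul_of_mem q g (D.le u.2) a.2,
      galNorm_mul_of_mem q g u₂.2 a.2]

lemma placeBelow_placeOf (q : Nat.Primes) (y : GQ ⧸ U') :
    placeBelow (fxFld U) (placeOf U' q y) = placeOf U q (quotProj D.le y) := by
  refine HeightOneSpectrum.ext (SetLike.ext fun a => ?_)
  show galNorm q (Quotient.out y)
      (((algebraMap (𝓞 (fxFld U)) (𝓞 (fxFld U')) a : 𝓞 (fxFld U')) : fxFld U') : AlgebraicClosure ℚ)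
      < 1 ↔ galNorm q _ ((a : fxFld U) : AlgebraicClosure ℚ) < 1
  rw [show (((algebraMap (𝓞 (fxFld U)) (𝓞 (fxFld U')) a : 𝓞 (fxFld U')) : fxFld U') :
      AlgebraicClosure ℚ) = ((algebraMap (fxFld U) (fxFld U') (a : fxFld U) : fxFld U') :
      AlgebraicClosure ℚ) from rfl, hc, D.galNorm_out_proj hc q y]

lemma galGen_inv_smul_placeOf (q : Nat.Primes) (y : GQ ⧸ U') :
    (D.galGen hc)⁻¹ • placeOf U' q y = placeOf U' q (D.shift y) := by
  refine HeightOneSpectrum.ext (SetLike.ext fun a => ?_)
  rw [mem_placeAct_iff, inv_inv]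
  show galNorm q (Quotient.out y) (D.gen ((a : fxFld U') : AlgebraicClosure ℚ)) < 1 ↔
    galNorm q (Quotient.out (D.shift y)) ((a : fxFld U') : AlgebraicClosure ℚ) < 1
  induction y using QuotientGroup.induction_on with
  | _ g =>
    obtain ⟨u, hu⟩ := QuotientGroup.mk_out_eq_mul U' g
    obtain ⟨u₂, hu₂⟩ := QuotientGroup.mk_out_eq_mul U' (g * D.gen)
    rw [D.shift_mk, hu₂, galNorm_mul_of_mem q _ u₂.2 (a : fxFld U').2, hu]
    have hconj : D.gen⁻¹ * (u : GQ) * D.gen ∈ U' := D.conj_mem' D.gen_mem u.2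
    show galNorm q ((g * u) * D.gen) ((a : fxFld U') : AlgebraicClosure ℚ) < 1 ↔ _
    rw [show g * (u : GQ) * D.gen = g * D.gen * (D.gen⁻¹ * u * D.gen) by group,
      galNorm_mul_of_mem q _ hconj (a : fxFld U').2]

/-- The order of the decomposition group at a place. -/
lemma relIndex_normsAt_eq_placeDeg [Fact p.Prime] [Finite (GQ ⧸ U')] [Finite (GQ ⧸ U)]
    (hU' : IsLevelSubgroup Levels.all (MonoidHom.id GQ) U') (q : Nat.Primes) (x : GQ ⧸ U) :
    (normsAt D.le q x).relIndex (locUnits q (placeStab q U x)) =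
      placeDeg (fxFld U') (placeOf U q x) := by
  classical
  have := D.isGalois_step hc hU'
  obtain ⟨y, rfl⟩ := quotProj_surjective D.le x
  rw [← D.placeBelow_placeOf hc, ← card_stabilizer_eq_placeDeg]
  set σ := D.galGen hc
  set w := placeOf U' q y
  have hσw : σ ∈ MulAction.stabilizer Gal((fxFld U')/(fxFld U)) w ↔ samePlace q y (D.shift y) := by
    rw [← Subgroup.inv_mem_iff, MulAction.mem_stabilizer_iff, D.galGen_inv_smul_placeOf hc,
      placeOf_eq_iff hU']
    exact ⟨fun h => samePlace_equivalence.symm h.2,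
      fun h => ⟨rfl, samePlace_equivalence.symm h⟩⟩
  by_cases hy : samePlace q y (D.shift y)
  · rw [D.relIndex_normsAt_of_samePlace hU' rfl hy]
    have htop : MulAction.stabilizer Gal((fxFld U')/(fxFld U)) w = ⊤ :=
      top_unique fun g _ => Subgroup.zpowers_le.2 (hσw.2 hy) (D.galGen_generates hc hU' g)
    rw [htop, Subgroup.card_top, D.card_gal_step hc hU']
  · rw [D.normsAt_eq_of_split rfl hy, Subgroup.relIndex_self]
    have hp : (Nat.card Gal((fxFld U')/(fxFld U))).Prime := by
      rw [D.card_gal_step hc hU']; exact D.prime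
    have := Fact.mk hp
    rcases Subgroup.eq_bot_or_eq_top_of_prime_card
      (MulAction.stabilizer Gal((fxFld U')/(fxFld U)) w) with h | h
    · rw [h, Subgroup.card_bot]
    · exact absurd (hσw.1 (h ▸ Subgroup.mem_top σ)) hy

lemma infDegProd_eq_one (hodd : Odd p) (hU' : IsLevelSubgroup Levels.all (MonoidHom.id GQ) U') :
    infDegProd (fxFld U) (fxFld U') = 1 := by
  have := D.isGalois_step hc hU'
  have := IsUnramifiedAtInfinitePlaces_of_odd_finrank (k := fxFld U) (K := fxFld U')
    (by rw [D.finrank_step hc hU']; exact hodd)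
  unfold infDegProd
  exact finprod_eq_one_of_forall_eq_one fun v =>
    if_pos (NumberField.InfinitePlace.isUnramifiedIn (fxFld U') v)

lemma mem_placesAbove_step [Finite (GQ ⧸ U')] [Finite (GQ ⧸ U)]
    (hU' : IsLevelSubgroup Levels.all (MonoidHom.id GQ) U') (S : Finset Nat.Primes)
    (w : HeightOneSpectrum (𝓞 (fxFld U'))) :
    w ∈ placesAbove U' S ↔ placeBelow (fxFld U) w ∈ placesAbove U S := by
  have hU : IsLevelSubgroup Levels.all (MonoidHom.id GQ) U := by
    obtain ⟨F, hF, hFU⟩ := hU'
    exact ⟨F, hF, fun s hs => D.le (hFU s hs)⟩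
  obtain ⟨q, y, rfl⟩ := placeOf_surjective hU' w
  rw [D.placeBelow_placeOf hc, placeOf_mem_placesAbove_iff hU', placeOf_mem_placesAbove_iff hU]

end CosetStep

end Fermat.Agent.CFT
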