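import Fermat.Agent.CFT.Global.KummerRoot

/-!
# Elements that are visibly norms at a place
-/

set_option autoImplicit false

open groupCohomology ExtCitation

noncomputable section

namespace Fermat.Agent.CFT

variable {p : ℕ} [Fact p.Prime] {U' U : Subgroup GQ} {q : Nat.Primes}

theorem pow_mem_normsAt (h : KummerStep p U' U) [Finite (GQ ⧸ U')] {x : GQ ⧸ U} {z : (Omega q)ˣ}
    (hz : z ∈ powAt p q U x) : z ∈ normsAt h.le q x := by
  obtain ⟨w, hw, rfl⟩ := hz
  obtain ⟨g, hg, hgx⟩ := exists_norm_pow h.le hw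
  exact ⟨g, hg, hgx.trans (congrArg (w ^ ·) h.index)⟩

theorem mem_normsAt_of_root_pow (h : KummerStep p U' U) [Finite (GQ ⧸ U')]
    {α : (AlgebraicClosure ℚ)ˣ} (hα : IsKummerRoot p U' U α) {x : GQ ⧸ U}
    (hpow : diag q U (α ^ p) x ∈ powAt p q U x) {z : (Omega q)ˣ}
    (hz : z ∈ locUnits q (placeStab q U x)) : z ∈ normsAt h.le q x := by
  obtain ⟨g, hg, hgx⟩ := exists_norm_split h.le (isKummerRoot_split h hα hpow) hz
  exact ⟨g, hg, hgx⟩

/-- Units are norms at the places prime to `p` where `α ^ p` is a unit. -/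
theorem mem_normsAt_of_unit (h : KummerStep p U' U) [Finite (GQ ⧸ U')]
    {α : (AlgebraicClosure ℚ)ˣ} (hα : IsKummerRoot p U' U α) (hqp : (q : ℕ) ≠ p) {x : GQ ⧸ U}
    (hunit : ‖(diag q U (α ^ p) x : Omega q)‖ = 1) {z : (Omega q)ˣ}
    (hz : z ∈ locUnits q (placeStab q U x)) (hz1 : ‖(z : Omega q)‖ = 1) :
    z ∈ normsAt h.le q x := by
  classical
  obtain ⟨D⟩ := h.nonempty_cosetStep
  obtain ⟨y, rfl⟩ := quotProj_surjective h.le x
  by_cases hy : samePlace q y (D.shift y)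
  swap
  · rw [D.normsAt_eq_of_split rfl hy]; exact hz
  obtain ⟨hidx, heq⟩ := D.normsAt_of_samePlace_aux hy
  have hmem := LocalInst.locNorm_unit (isLocLevel_placeStab h.level y) (D.placeStab_le y)
    (D.placeStab_normal y) hidx
    (fun τ hτ hI => isKummerRoot_inertia h hα hqp hunit hτ hI) hz hz1
  rw [heq]
  exact hmem

end Fermat.Agent.CFT
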